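import Fermat.Agent.S14.OrbitSum

/-!
# Project PT, piece G2-L1: the weighted orbit formula

`os_hasSum_weighted`: the orbit formula of `Fermat.Agent.S14.os_hasSum` with a bounded weight `Φ`
on the ideals inserted (`φ x = Φ ((x) 𝔠⁻¹)` is automatically invariant under the units).
-/

set_option autoImplicit false
set_option linter.unusedSectionVars false

open NumberField nonZeroDivisors

namespace Fermat.Agent.PT.G2

open Fermat.Agent.S14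

/-- **PT-G2, piece L1**: the orbit formula with a bounded weight on the ideals. -/
theorem os_hasSum_weighted {K : Type} [Field K] [NumberField K] (𝔠 : (Ideal (𝓞 K))⁰)
    (w : K → ℝ) (hw : ∀ x, 0 ≤ w x)
    (hU : ∀ x : K, x ≠ 0 → HasSum (fun ε : (𝓞 K)ˣ => w (((ε : 𝓞 K) : K) * x)) 1) (s : ℝ)
    (hsum : Summable (fun I : (Ideal (𝓞 K))⁰ => ((Ideal.absNorm (I : Ideal (𝓞 K)) : ℝ) ^ (-s))))
    (Φ : Ideal (𝓞 K) → ℂ) (hΦ : ∀ I, ‖Φ I‖ ≤ 1) (φ : 𝓞 K → ℂ)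
    (hφ : ∀ (x : 𝓞 K) (I : Ideal (𝓞 K)), x ≠ 0 → Ideal.span {x} = (𝔠 : Ideal (𝓞 K)) * I →
      φ x = Φ I) :
    HasSum (fun x : {x : 𝓞 K // x ∈ (𝔠 : Ideal (𝓞 K)) ∧ x ≠ 0} =>
        φ (x : 𝓞 K) *
          ((w ((x : 𝓞 K) : K) * |(Algebra.norm ℚ (((x : 𝓞 K) : K)) : ℝ)| ^ (-s) : ℝ) : ℂ))
      (((Ideal.absNorm (𝔠 : Ideal (𝓞 K)) : ℝ) ^ (-s) : ℝ) *
        ∑' I : {I : (Ideal (𝓞 K))⁰ // ClassGroup.mk0 I = (ClassGroup.mk0 𝔠)⁻¹},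
          Φ ((I : (Ideal (𝓞 K))⁰) : Ideal (𝓞 K)) *
            ((Ideal.absNorm ((I : (Ideal (𝓞 K))⁰) : Ideal (𝓞 K)) : ℝ) ^ (-s) : ℝ)) := by
  -- the real functions of `os_hasSum`
  set f₀ : OsX 𝔠 → ℝ := fun x =>
    w ((x : 𝓞 K) : K) * |(Algebra.norm ℚ (((x : 𝓞 K) : K)) : ℝ)| ^ (-s) with hf₀
  set g₀ : OsJ 𝔠 → ℝ := fun I => (Ideal.absNorm (𝔠 : Ideal (𝓞 K)) : ℝ) ^ (-s) *
    (Ideal.absNorm ((I : (Ideal (𝓞 K))⁰) : Ideal (𝓞 K)) : ℝ) ^ (-s) with hg₀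
  set f : OsX 𝔠 → ℂ := fun x => φ (x : 𝓞 K) * ((f₀ x : ℝ) : ℂ) with hf
  set g : OsJ 𝔠 → ℂ := fun I =>
    Φ ((I : (Ideal (𝓞 K))⁰) : Ideal (𝓞 K)) * ((g₀ I : ℝ) : ℂ) with hg
  have hf₀_nonneg : ∀ x, 0 ≤ f₀ x := fun x =>
    mul_nonneg (hw _) (Real.rpow_nonneg (abs_nonneg _) _)
  have hg₀_nonneg : ∀ I, 0 ≤ g₀ I := fun I =>
    mul_nonneg (Real.rpow_nonneg (Nat.cast_nonneg _) _) (Real.rpow_nonneg (Nat.cast_nonneg _) _)
  -- `φ` is constant on the fibres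
  have hφfib : ∀ x : OsX 𝔠, φ (x : 𝓞 K) =
      Φ (((osPhi 𝔠 x : OsJ 𝔠) : (Ideal (𝓞 K))⁰) : Ideal (𝓞 K)) := fun x =>
    hφ (x : 𝓞 K) _ x.2.2 (osPhi_spec 𝔠 x)
  -- fibrewise sums
  have h1 : ∀ I : OsJ 𝔠, HasSum (fun x : {x : OsX 𝔠 // osPhi 𝔠 x = I} => f x) (g I) := by
    intro I
    have h2 : HasSum (fun x : {x : OsX 𝔠 // osPhi 𝔠 x = I} =>
        ((w (((x : OsX 𝔠) : 𝓞 K) : K) : ℝ) : ℂ)) ((1 : ℝ) : ℂ) :=
      Complex.hasSum_ofReal.mpr (os_fibre_hasSum 𝔠 w hU I)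
    have h3 := h2.mul_left (g I)
    rw [Complex.ofReal_one, mul_one] at h3
    refine h3.congr_fun ?_
    rintro ⟨x, hx⟩
    simp only [hf, hg, hf₀, hg₀]
    rw [hφfib x, hx, os_norm_eq 𝔠 x, hx,
      Real.mul_rpow (Nat.cast_nonneg _) (Nat.cast_nonneg _)]
    push_cast
    ring
  -- summability of `g₀` and `g`
  have hg₀sum : Summable g₀ := by
    have h4 : Summable (fun I : OsJ 𝔠 =>
        (Ideal.absNorm ((I : (Ideal (𝓞 K))⁰) : Ideal (𝓞 K)) : ℝ) ^ (-s)) :=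
      hsum.subtype _
    exact h4.mul_left _
  have hgnorm : ∀ I, ‖g I‖ ≤ g₀ I := by
    intro I
    simp only [hg]
    rw [norm_mul, Complex.norm_real, Real.norm_of_nonneg (hg₀_nonneg I)]
    exact mul_le_of_le_one_left (hg₀_nonneg I) (hΦ _)
  have hgsum : Summable g := Summable.of_norm_bounded hg₀sum hgnorm
  -- summability of `f₀` (from `os_hasSum`) and `f`
  have hf₀sum : Summable f₀ := (os_hasSum 𝔠 w hw hU s hsum).summable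
  have hfnorm : ∀ x, ‖f x‖ ≤ f₀ x := by
    intro x
    simp only [hf]
    rw [norm_mul, Complex.norm_real, Real.norm_of_nonneg (hf₀_nonneg x), hφfib x]
    exact mul_le_of_le_one_left (hf₀_nonneg x) (hΦ _)
  have hfsum : Summable f := Summable.of_norm_bounded hf₀sum hfnorm
  -- the sum over the sigma type
  set F : (Σ I : OsJ 𝔠, {x : OsX 𝔠 // osPhi 𝔠 x = I}) → ℂ := fun q => f q.2 with hF
  have h9 : F = f ∘ (Equiv.sigmaFiberEquiv (osPhi 𝔠)) := by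
    funext q
    rfl
  have h5 : Summable F := by
    rw [h9]
    exact (Equiv.summable_iff (Equiv.sigmaFiberEquiv (osPhi 𝔠))).mpr hfsum
  have h7 : HasSum F (∑' I, g I) := HasSum.sigma_of_hasSum hgsum.hasSum h1 h5
  have h8 : HasSum f (∑' I, g I) := by
    rw [h9] at h7
    exact (Equiv.hasSum_iff (Equiv.sigmaFiberEquiv (osPhi 𝔠))).mp h7
  have h10 : ∑' I, g I = (((Ideal.absNorm (𝔠 : Ideal (𝓞 K)) : ℝ) ^ (-s) : ℝ) : ℂ) *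
      ∑' I : OsJ 𝔠, Φ ((I : (Ideal (𝓞 K))⁰) : Ideal (𝓞 K)) *
        ((Ideal.absNorm ((I : (Ideal (𝓞 K))⁰) : Ideal (𝓞 K)) : ℝ) ^ (-s) : ℝ) := by
    rw [← tsum_mul_left]
    refine tsum_congr fun I => ?_
    simp only [hg, hg₀]
    push_cast
    ring
  rw [← h10]
  exact h8

end Fermat.Agent.PT.G2
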