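import Mathlib

/-!
# Project PT, piece G2: the second inequality of class field theory (analytic proof)

Interface file: definitions and statements only.

For a number field `K`, a nonzero ideal `𝔪` of `𝓞 K` and a commutative group `A`, a *ray datum*
is a map `c` from the ideals of `𝓞 K` to `A` which is multiplicative on the nonzero ideals coprime
to `𝔪`, trivial on the principal ideals `(α)` with `α ≡ 1 mod 𝔪`, and onto (on the nonzero ideals
coprime to `𝔪`).  So `A` is a quotient of the ray class group modulo `𝔪` (no conditions at the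
real places: in the application `K ⊇ μ_p`, `p` odd, is totally complex).

**Second inequality** (`SecondInequalityStatement`): if `L / K` is a finite extension and `c`
kills every prime `v ∤ 𝔪` of `K` that has a prime of `L` of residue degree one above it (such `v`
are norms of ideals of `L`), then `A` is finite and `#A ≤ [L : K]`.

Proof (Dirichlet–Weber–Hecke), all `s ∈ (1, 2]`:
* `RayLBoundedStatement`: for `χ ≠ 1` the series `L(s, χ ∘ c) = ∑_{(I, 𝔪) = 1} χ (c I) N(I)^(-s)`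
  is bounded;
* `RayEulerStatement`: `(∏_{v ∈ T} (1 - N v^(-s))⁻¹)^(#A) ≤ C ∏_χ ‖L(s, χ ∘ c)‖` for every finite set
  `T` of primes `v ∤ 𝔪` with `c v = 1`;
* `SplitDensityStatement`: there are such finite sets `T` (primes with a prime of degree one of
  `L` above) with `c₁ / (s - 1) ≤ (∏_{v ∈ T} (1 - N v^(-s))⁻¹)^[L : K]`;
* `‖L(s, 1 ∘ c)‖ ≤ ζ_K(s) ≤ C / (s - 1)`.
Hence `(s - 1)^([L:K] - #A)` is bounded below by a positive constant on `(1, 2]`: `#A ≤ [L : K]`.
-/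

set_option autoImplicit false

open NumberField IsDedekindDomain
open scoped nonZeroDivisors

namespace Fermat.Agent.PT.G2

/-- A ray datum modulo `𝔪` with values in `A`. Only the values of `c` on the nonzero ideals
coprime to `𝔪` matter. -/
structure IsRayDatum (K : Type) [Field K] [NumberField K] (𝔪 : Ideal (𝓞 K))
    {A : Type} [CommGroup A] (c : Ideal (𝓞 K) → A) : Prop where
  map_mul : ∀ I J : Ideal (𝓞 K), I ≠ ⊥ → J ≠ ⊥ → IsCoprime I 𝔪 → IsCoprime J 𝔪 →
    c (I * J) = c I * c J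
  map_principal : ∀ α : 𝓞 K, α ≠ 0 → α - 1 ∈ 𝔪 → c (Ideal.span {α}) = 1
  surj : ∀ a : A, ∃ I : Ideal (𝓞 K), I ≠ ⊥ ∧ IsCoprime I 𝔪 ∧ c I = a

/-- The set of nonzero ideals coprime to `𝔪`. -/
def coprimeTo {K : Type} [Field K] [NumberField K] (𝔪 : Ideal (𝓞 K)) : Set (Ideal (𝓞 K))⁰ :=
  {I | IsCoprime (I : Ideal (𝓞 K)) 𝔪}

/-- The term `χ (c I) N(I)^(-s)` of the ray class `L`-series, `0` if `I` is not coprime to
`𝔪`. -/
noncomputable def rayTerm {K : Type} [Field K] [NumberField K] (𝔪 : Ideal (𝓞 K))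
    {A : Type} [CommGroup A] (c : Ideal (𝓞 K) → A) (χ : A →* ℂˣ) (s : ℝ)
    (I : (Ideal (𝓞 K))⁰) : ℂ :=
  (coprimeTo 𝔪).indicator
    (fun I : (Ideal (𝓞 K))⁰ => ((χ (c (I : Ideal (𝓞 K))) : ℂˣ) : ℂ) *
      ((Ideal.absNorm (I : Ideal (𝓞 K)) : ℝ) ^ (-s) : ℝ)) I

/-- The ray class `L`-series `L(s, χ ∘ c)` for real `s`. -/
noncomputable def rayL {K : Type} [Field K] [NumberField K] (𝔪 : Ideal (𝓞 K))
    {A : Type} [CommGroup A] (c : Ideal (𝓞 K) → A) (χ : A →* ℂˣ) (s : ℝ) : ℂ :=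
  ∑' I : (Ideal (𝓞 K))⁰, rayTerm 𝔪 c χ s I

/-- `v` is a prime of `K`, coprime to `𝔪`, with a prime of `L` of residue degree one above it. -/
def IsSplitPrime (K L : Type) [Field K] [NumberField K] [Field L] [NumberField L] [Algebra K L]
    (𝔪 : Ideal (𝓞 K)) (v : HeightOneSpectrum (𝓞 K)) : Prop :=
  IsCoprime v.asIdeal 𝔪 ∧ ∃ w : HeightOneSpectrum (𝓞 L),
    Ideal.comap (algebraMap (𝓞 K) (𝓞 L)) w.asIdeal = v.asIdeal ∧
      Ideal.absNorm w.asIdeal = Ideal.absNorm v.asIdeal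

/-- **G2-F**: the target group of a ray datum is finite. -/
def RayFiniteStatement : Prop :=
  ∀ (K : Type) [Field K] [NumberField K] (𝔪 : Ideal (𝓞 K)), 𝔪 ≠ ⊥ →
    ∀ (A : Type) [CommGroup A] (c : Ideal (𝓞 K) → A), IsRayDatum K 𝔪 c → Finite A

/-- **G2-L**: the `L`-series of a nontrivial ray class character is bounded on `(1, 2]`. -/
def RayLBoundedStatement : Prop :=
  ∀ (K : Type) [Field K] [NumberField K] (𝔪 : Ideal (𝓞 K)), 𝔪 ≠ ⊥ →
    ∀ (A : Type) [CommGroup A] [Finite A] (c : Ideal (𝓞 K) → A), IsRayDatum K 𝔪 c →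
      ∀ χ : A →* ℂˣ, χ ≠ 1 →
        ∃ C : ℝ, ∀ s : ℝ, 1 < s → s ≤ 2 → ‖rayL 𝔪 c χ s‖ ≤ C

/-- **G2-E**: the product of all `‖L(s, χ ∘ c)‖` dominates (up to a constant) the `#A`-th power
of the partial Euler product of the zeta function over any finite set of primes killed by `c`.
(The inequality holds with `C = 1`; any constant is enough.) -/
def RayEulerStatement : Prop :=
  ∀ (K : Type) [Field K] [NumberField K] (𝔪 : Ideal (𝓞 K)), 𝔪 ≠ ⊥ →
    ∀ (A : Type) [CommGroup A] [Finite A] (c : Ideal (𝓞 K) → A), IsRayDatum K 𝔪 c →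
      ∃ C : ℝ, 0 < C ∧ ∀ s : ℝ, 1 < s → s ≤ 2 → ∀ T : Finset (HeightOneSpectrum (𝓞 K)),
        (∀ v ∈ T, IsCoprime v.asIdeal 𝔪 ∧ c v.asIdeal = 1) →
          (∏ v ∈ T, (1 - (Ideal.absNorm v.asIdeal : ℝ) ^ (-s))⁻¹) ^ (Nat.card A) ≤
            C * ∏ᶠ χ : A →* ℂˣ, ‖rayL 𝔪 c χ s‖

/-- **G2-D**: the primes of `K` with a prime of degree one of `L` above have "density at least
`1 / [L : K]`", in product form. -/
def SplitDensityStatement : Prop :=
  ∀ (K L : Type) [Field K] [NumberField K] [Field L] [NumberField L] [Algebra K L]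
    (𝔪 : Ideal (𝓞 K)), 𝔪 ≠ ⊥ →
    ∃ c₁ : ℝ, 0 < c₁ ∧ ∀ s : ℝ, 1 < s → s ≤ 2 →
      ∃ T : Finset (HeightOneSpectrum (𝓞 K)), (∀ v ∈ T, IsSplitPrime K L 𝔪 v) ∧
        c₁ / (s - 1) ≤
          (∏ v ∈ T, (1 - (Ideal.absNorm v.asIdeal : ℝ) ^ (-s))⁻¹) ^ (Module.finrank K L)

/-- **G2** (second inequality, ideal-theoretic form). -/
def SecondInequalityStatement : Prop :=
  ∀ (K L : Type) [Field K] [NumberField K] [Field L] [NumberField L] [Algebra K L]
    (𝔪 : Ideal (𝓞 K)), 𝔪 ≠ ⊥ →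
    ∀ (A : Type) [CommGroup A] (c : Ideal (𝓞 K) → A), IsRayDatum K 𝔪 c →
      (∀ v : HeightOneSpectrum (𝓞 K), IsSplitPrime K L 𝔪 v → c v.asIdeal = 1) →
        Finite A ∧ Nat.card A ≤ Module.finrank K L

/-- **G2'** (second inequality, norm form): the same for a ray datum that kills the relative
norms of the primes of `L`. -/
def SecondInequalityNormStatement : Prop :=
  ∀ (K L : Type) [Field K] [NumberField K] [Field L] [NumberField L] [Algebra K L]
    (𝔪 : Ideal (𝓞 K)), 𝔪 ≠ ⊥ →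
    ∀ (A : Type) [CommGroup A] (c : Ideal (𝓞 K) → A), IsRayDatum K 𝔪 c →
      (∀ w : HeightOneSpectrum (𝓞 L),
        IsCoprime (Ideal.comap (algebraMap (𝓞 K) (𝓞 L)) w.asIdeal) 𝔪 →
          c (Ideal.relNorm (𝓞 K) w.asIdeal) = 1) →
        Finite A ∧ Nat.card A ≤ Module.finrank K L

end Fermat.Agent.PT.G2
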