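import Mathlib
import Fermat.Agent.PT.G2.Plan

/-!
# Project PT, piece G2-L2: structure of ray data

* `exists_coprime_rep` : every ideal class contains a nonzero integral ideal coprime to `𝔪`.
* `isCoprime_span_singleton_iff` : `(α)` is coprime to `𝔪` iff `α` is a unit modulo `𝔪`.
* `exists_residue_hom` : a ray datum `c` modulo `𝔪` induces a homomorphism `(𝓞 K ⧸ 𝔪)ˣ →* A`
  computing `c` on principal ideals.
* `ray_value_formula` : multiplicativity, in the form used by the `L`-series computation.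
-/

set_option autoImplicit false

open NumberField IsDedekindDomain
open scoped nonZeroDivisors

namespace Fermat.Agent.PT.G2

/-- `(α)` is coprime to `𝔪` iff `α` is a unit modulo `𝔪`. -/
theorem isCoprime_span_singleton_iff {K : Type} [Field K] [NumberField K] (𝔪 : Ideal (𝓞 K))
    (α : 𝓞 K) : IsCoprime (Ideal.span {α}) 𝔪 ↔ IsUnit (Ideal.Quotient.mk 𝔪 α) := by
  rw [Ideal.isCoprime_iff_exists]
  constructor
  · rintro ⟨x, hx, y, hy, hxy⟩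
    obtain ⟨β, rfl⟩ := Ideal.mem_span_singleton'.mp hx
    refine IsUnit.of_mul_eq_one (Ideal.Quotient.mk 𝔪 β) ?_
    rw [← map_mul, ← map_one (Ideal.Quotient.mk 𝔪), Ideal.Quotient.eq]
    have : α * β - 1 = -y := by linear_combination hxy
    rw [this]
    exact 𝔪.neg_mem hy
  · intro h
    obtain ⟨b, hb⟩ := h.exists_right_inv
    obtain ⟨β, rfl⟩ := Ideal.Quotient.mk_surjective b
    rw [← map_mul, ← map_one (Ideal.Quotient.mk 𝔪), Ideal.Quotient.eq] at hb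
    refine ⟨α * β, Ideal.mul_mem_right _ _ (Ideal.mem_span_singleton_self α), 1 - α * β, ?_, by ring⟩
    have : 1 - α * β = -(α * β - 1) := by ring
    rw [this]
    exact 𝔪.neg_mem hb

/-- Every ideal class contains a nonzero integral ideal coprime to `𝔪`. -/
theorem exists_coprime_rep (K : Type) [Field K] [NumberField K] (𝔪 : Ideal (𝓞 K)) (h𝔪 : 𝔪 ≠ ⊥)
    (g : ClassGroup (𝓞 K)) :
    ∃ 𝔠 : (Ideal (𝓞 K))⁰, IsCoprime (𝔠 : Ideal (𝓞 K)) 𝔪 ∧ ClassGroup.mk0 𝔠 = g := by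
  obtain ⟨𝔞, h𝔞⟩ := ClassGroup.mk0_surjective (g⁻¹)
  have h𝔞0 : (𝔞 : Ideal (𝓞 K)) ≠ 0 := mem_nonZeroDivisors_iff_ne_zero.mp 𝔞.2
  have hI : (𝔞 : Ideal (𝓞 K)) * 𝔪 ≠ 0 := mul_ne_zero h𝔞0 h𝔪
  obtain ⟨a, ha⟩ := IsDedekindDomain.exists_sup_span_eq
    (Ideal.mul_le_left : (𝔞 : Ideal (𝓞 K)) * 𝔪 ≤ 𝔞) hI
  have hale : Ideal.span {a} ≤ (𝔞 : Ideal (𝓞 K)) := by
    rw [← ha]; exact le_sup_right
  obtain ⟨𝔠, h𝔠⟩ := Ideal.dvd_iff_le.mpr hale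
  -- `𝔪 ⊔ 𝔠 = ⊤`
  have hsup : 𝔪 ⊔ 𝔠 = ⊤ := by
    have h1 : (𝔞 : Ideal (𝓞 K)) * (𝔪 ⊔ 𝔠) = (𝔞 : Ideal (𝓞 K)) * ⊤ := by
      rw [Ideal.mul_sup, ← h𝔠, ha, Ideal.mul_top]
    exact mul_left_cancel₀ h𝔞0 h1
  by_cases h𝔠0 : 𝔠 = ⊥
  · -- then `𝔪 = ⊤` and any representative works
    have h𝔪top : 𝔪 = ⊤ := by rw [h𝔠0, sup_bot_eq] at hsup; exact hsup
    obtain ⟨𝔟, h𝔟⟩ := ClassGroup.mk0_surjective g
    refine ⟨𝔟, ?_, h𝔟⟩
    rw [h𝔪top, Ideal.isCoprime_iff_sup_eq, sup_top_eq]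
  · have h𝔠mem : 𝔠 ∈ (Ideal (𝓞 K))⁰ := mem_nonZeroDivisors_iff_ne_zero.mpr h𝔠0
    refine ⟨⟨𝔠, h𝔠mem⟩, ?_, ?_⟩
    · rw [Ideal.isCoprime_iff_sup_eq, sup_comm]; exact hsup
    · have ha0 : a ≠ 0 := by
        rintro rfl
        have h0 : (𝔞 : Ideal (𝓞 K)) * 𝔠 = ⊥ := by
          rw [← h𝔠]; exact Ideal.span_singleton_eq_bot.mpr rfl
        exact (mul_ne_zero h𝔞0 h𝔠0) h0
      have hspan : Ideal.span {a} ∈ (Ideal (𝓞 K))⁰ :=
        mem_nonZeroDivisors_iff_ne_zero.mpr (by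
          rw [Ne, Ideal.zero_eq_bot, Ideal.span_singleton_eq_bot]; exact ha0)
      have h1 : ClassGroup.mk0 ⟨Ideal.span {a}, hspan⟩ = 1 :=
        (ClassGroup.mk0_eq_one_iff hspan).mpr ⟨⟨a, rfl⟩⟩
      have h2 : (⟨Ideal.span {a}, hspan⟩ : (Ideal (𝓞 K))⁰) = 𝔞 * ⟨𝔠, h𝔠mem⟩ :=
        Subtype.ext h𝔠
      rw [h2, map_mul, h𝔞] at h1
      exact (inv_mul_eq_one.mp h1).symm ▸ rfl

/-- multiplicativity of a ray datum, in the form used by the `L`-series computation. -/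
theorem ray_value_formula {K : Type} [Field K] [NumberField K] {𝔪 : Ideal (𝓞 K)} {A : Type}
    [CommGroup A] {c : Ideal (𝓞 K) → A} (hc : IsRayDatum K 𝔪 c) (I 𝔠 : Ideal (𝓞 K)) (x : 𝓞 K)
    (hI : I ≠ ⊥) (h𝔠 : 𝔠 ≠ ⊥) (hIm : IsCoprime I 𝔪) (h𝔠m : IsCoprime 𝔠 𝔪)
    (hx : Ideal.span {x} = 𝔠 * I) : c (Ideal.span {x}) = c 𝔠 * c I := by
  rw [hx]
  exact hc.map_mul 𝔠 I h𝔠 hI h𝔠m hIm

/-- the value of a ray datum at the unit ideal is `1`. -/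
lemma ray_map_top {K : Type} [Field K] [NumberField K] {𝔪 : Ideal (𝓞 K)} {A : Type}
    [CommGroup A] {c : Ideal (𝓞 K) → A} (hc : IsRayDatum K 𝔪 c) : c ⊤ = 1 := by
  have := hc.map_principal 1 one_ne_zero (by simp)
  rwa [Ideal.span_singleton_one] at this

/-- two nonzero elements with the same unit residue modulo `𝔪` have the same value. -/
lemma ray_principal_congr {K : Type} [Field K] [NumberField K] {𝔪 : Ideal (𝓞 K)} {A : Type}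
    [CommGroup A] {c : Ideal (𝓞 K) → A} (hc : IsRayDatum K 𝔪 c) {α β : 𝓞 K} (hα : α ≠ 0)
    (hβ : β ≠ 0) (hu : IsUnit (Ideal.Quotient.mk 𝔪 α))
    (h : Ideal.Quotient.mk 𝔪 α = Ideal.Quotient.mk 𝔪 β) :
    c (Ideal.span {α}) = c (Ideal.span {β}) := by
  -- a nonzero `γ` with `γ α ≡ 1`
  obtain ⟨b, hb⟩ := hu.exists_left_inv
  obtain ⟨γ₀, rfl⟩ := Ideal.Quotient.mk_surjective b
  -- make `γ` nonzero
  obtain ⟨γ, hγ0, hγ⟩ : ∃ γ : 𝓞 K, γ ≠ 0 ∧ Ideal.Quotient.mk 𝔪 γ = Ideal.Quotient.mk 𝔪 γ₀ := by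
    by_cases h0 : γ₀ = 0
    · refine ⟨1, one_ne_zero, ?_⟩
      -- the quotient is trivial
      rw [h0, map_zero, zero_mul] at hb
      have : ∀ z : 𝓞 K ⧸ 𝔪, z = 0 := fun z => by rw [← mul_one z, ← hb, mul_zero]
      rw [this (Ideal.Quotient.mk 𝔪 1), this (Ideal.Quotient.mk 𝔪 γ₀)]
    · exact ⟨γ₀, h0, rfl⟩
  rw [← hγ] at hb
  have hγu : IsUnit (Ideal.Quotient.mk 𝔪 γ) := IsUnit.of_mul_eq_one _ hb
  have hβu : IsUnit (Ideal.Quotient.mk 𝔪 β) := h ▸ hu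
  have hcop : ∀ {z : 𝓞 K}, IsUnit (Ideal.Quotient.mk 𝔪 z) → IsCoprime (Ideal.span {z}) 𝔪 :=
    fun hz => (isCoprime_span_singleton_iff 𝔪 _).mpr hz
  have hne : ∀ {z : 𝓞 K}, z ≠ 0 → Ideal.span {z} ≠ (⊥ : Ideal (𝓞 K)) := fun hz => by
    rw [Ne, Ideal.span_singleton_eq_bot]; exact hz
  have h1 : c (Ideal.span {γ * α}) = 1 :=
    hc.map_principal _ (mul_ne_zero hγ0 hα) (by
      rw [← Ideal.Quotient.eq, map_mul, map_one]; exact hb)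
  have h2 : c (Ideal.span {γ * β}) = 1 :=
    hc.map_principal _ (mul_ne_zero hγ0 hβ) (by
      rw [← Ideal.Quotient.eq, map_mul, map_one, ← h]; exact hb)
  rw [← Ideal.span_singleton_mul_span_singleton,
    hc.map_mul _ _ (hne hγ0) (hne hα) (hcop hγu) (hcop hu)] at h1
  rw [← Ideal.span_singleton_mul_span_singleton,
    hc.map_mul _ _ (hne hγ0) (hne hβ) (hcop hγu) (hcop hβu)] at h2
  exact mul_left_cancel (h1.trans h2.symm)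

/-- every residue class modulo `𝔪` has a nonzero representative. -/
lemma exists_ne_zero_rep {K : Type} [Field K] [NumberField K] (𝔪 : Ideal (𝓞 K))
    (u : (𝓞 K ⧸ 𝔪)ˣ) : ∃ α : 𝓞 K, α ≠ 0 ∧ Ideal.Quotient.mk 𝔪 α = (u : 𝓞 K ⧸ 𝔪) := by
  obtain ⟨α₀, hα₀⟩ := Ideal.Quotient.mk_surjective (u : 𝓞 K ⧸ 𝔪)
  by_cases h0 : α₀ = 0
  · refine ⟨1, one_ne_zero, ?_⟩
    rw [h0, map_zero] at hα₀
    have hz : ∀ z : 𝓞 K ⧸ 𝔪, z = 0 := fun z => by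
      have h1 : (1 : 𝓞 K ⧸ 𝔪) = 0 := by
        rw [← u.mul_inv, ← hα₀, zero_mul]
      rw [← mul_one z, h1, mul_zero]
    rw [hz (Ideal.Quotient.mk 𝔪 1), hz (u : 𝓞 K ⧸ 𝔪)]
  · exact ⟨α₀, h0, hα₀⟩

/-- A ray datum `c` modulo `𝔪` induces a homomorphism `(𝓞 K ⧸ 𝔪)ˣ →* A` computing `c` on
principal ideals generated by elements prime to `𝔪`. -/
theorem exists_residue_hom {K : Type} [Field K] [NumberField K] {𝔪 : Ideal (𝓞 K)} {A : Type}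
    [CommGroup A] {c : Ideal (𝓞 K) → A} (hc : IsRayDatum K 𝔪 c) :
    ∃ ψ : (𝓞 K ⧸ 𝔪)ˣ →* A, ∀ (α : 𝓞 K) (u : (𝓞 K ⧸ 𝔪)ˣ), α ≠ 0 →
      Ideal.Quotient.mk 𝔪 α = (u : 𝓞 K ⧸ 𝔪) → c (Ideal.span {α}) = ψ u := by
  classical
  choose r hr0 hr using exists_ne_zero_rep (K := K) 𝔪
  have hkey : ∀ (α : 𝓞 K) (u : (𝓞 K ⧸ 𝔪)ˣ), α ≠ 0 →
      Ideal.Quotient.mk 𝔪 α = (u : 𝓞 K ⧸ 𝔪) → c (Ideal.span {α}) = c (Ideal.span {r u}) := by
    intro α u hα hαu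
    exact ray_principal_congr hc hα (hr0 u) (hαu ▸ u.isUnit) (hαu.trans (hr u).symm)
  refine ⟨⟨⟨fun u => c (Ideal.span {r u}), ?_⟩, ?_⟩, fun α u hα hαu => hkey α u hα hαu⟩
  · -- map_one
    have := hkey 1 1 one_ne_zero (by simp)
    rw [← this, Ideal.span_singleton_one]
    exact ray_map_top hc
  · -- map_mul
    intro u v
    show c (Ideal.span {r (u * v)}) = c (Ideal.span {r u}) * c (Ideal.span {r v})
    have h1 := hkey (r u * r v) (u * v) (mul_ne_zero (hr0 u) (hr0 v)) (by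
      rw [map_mul, hr u, hr v, Units.val_mul])
    rw [← h1, ← Ideal.span_singleton_mul_span_singleton]
    have hne : ∀ {z : 𝓞 K}, z ≠ 0 → Ideal.span {z} ≠ (⊥ : Ideal (𝓞 K)) := fun hz => by
      rw [Ne, Ideal.span_singleton_eq_bot]; exact hz
    exact hc.map_mul _ _ (hne (hr0 u)) (hne (hr0 v))
      ((isCoprime_span_singleton_iff 𝔪 _).mpr ((hr u) ▸ u.isUnit))
      ((isCoprime_span_singleton_iff 𝔪 _).mpr ((hr v) ▸ v.isUnit))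

end Fermat.Agent.PT.G2
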