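import Mathlib

/-!
# PT-G2, piece L3: decomposition of a sum over an ideal along the residues modulo `𝔪`
-/

set_option autoImplicit false
set_option linter.style.haveILetI false

open NumberField

namespace Fermat.Agent.PT.G2

/-- The translation equivalence between `𝔠 ⊓ 𝔪` and the elements of `𝔠` with residue `u`
modulo `𝔪`. -/
noncomputable def g2ResidueEquiv {R : Type} [CommRing R] (𝔠 𝔪 : Ideal R) (u : R ⧸ 𝔪) (r : R)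
    (hr : r ∈ 𝔠) (hu : Ideal.Quotient.mk 𝔪 r = u) :
    (𝔠 ⊓ 𝔪 : Ideal R) ≃ {x : 𝔠 // Ideal.Quotient.mk 𝔪 (x : R) = u} where
  toFun y := ⟨⟨(y : R) + r, 𝔠.add_mem (Ideal.mem_inf.mp y.2).1 hr⟩, by
    change Ideal.Quotient.mk 𝔪 ((y : R) + r) = u
    rw [map_add, Ideal.Quotient.eq_zero_iff_mem.mpr (Ideal.mem_inf.mp y.2).2, zero_add, hu]⟩
  invFun x := ⟨((x : 𝔠) : R) - r, Ideal.mem_inf.mpr ⟨𝔠.sub_mem (x : 𝔠).2 hr, by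
    rw [← Ideal.Quotient.eq_zero_iff_mem, map_sub, x.2, hu, sub_self]⟩⟩
  left_inv y := by
    apply Subtype.ext
    simp
  right_inv x := by
    apply Subtype.ext
    apply Subtype.ext
    simp

/-- **L3**: a sum over the ideal `𝔠` is the finite sum, over the residues `u` modulo `𝔪`, of the
sums over the translates `r u + 𝔠 ⊓ 𝔪`. -/
theorem tsum_eq_sum_residues {K : Type} [Field K] [NumberField K] (𝔠 𝔪 : Ideal (𝓞 K))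
    (r : 𝓞 K ⧸ 𝔪 → 𝓞 K) (hr : ∀ u, r u ∈ 𝔠 ∧ Ideal.Quotient.mk 𝔪 (r u) = u)
    (F : 𝓞 K → ℂ) (hF : Summable (fun x : 𝔠 => F x)) :
    ∑' x : 𝔠, F x = ∑' u : 𝓞 K ⧸ 𝔪, ∑' y : (𝔠 ⊓ 𝔪 : Ideal (𝓞 K)), F ((y : 𝓞 K) + r u) := by
  have h1 := hF.hasSum.tsum_fiberwise (fun x : 𝔠 => Ideal.Quotient.mk 𝔪 (x : 𝓞 K))
  rw [← h1.tsum_eq]
  refine tsum_congr fun u => ?_
  have h2 : (∑' b : ((fun x : 𝔠 => Ideal.Quotient.mk 𝔪 (x : 𝓞 K)) ⁻¹' {u}), F ((b : 𝔠) : 𝓞 K)) =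
      ∑' b : {x : 𝔠 // Ideal.Quotient.mk 𝔪 (x : 𝓞 K) = u}, F ((b : 𝔠) : 𝓞 K) := rfl
  rw [h2, ← (g2ResidueEquiv 𝔠 𝔪 u (r u) (hr u).1 (hr u).2).tsum_eq]
  rfl

/-- The same with a finite sum (`𝔪 ≠ ⊥`). -/
theorem tsum_eq_finsum_residues {K : Type} [Field K] [NumberField K] (𝔠 𝔪 : Ideal (𝓞 K))
    (h𝔪 : 𝔪 ≠ ⊥) (r : 𝓞 K ⧸ 𝔪 → 𝓞 K) (hr : ∀ u, r u ∈ 𝔠 ∧ Ideal.Quotient.mk 𝔪 (r u) = u)
    (F : 𝓞 K → ℂ) (hF : Summable (fun x : 𝔠 => F x)) :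
    ∑' x : 𝔠, F x = ∑ᶠ u : 𝓞 K ⧸ 𝔪, ∑' y : (𝔠 ⊓ 𝔪 : Ideal (𝓞 K)), F ((y : 𝓞 K) + r u) := by
  haveI : Finite (𝓞 K ⧸ 𝔪) := Ideal.finiteQuotientOfFreeOfNeBot 𝔪 h𝔪
  haveI : Fintype (𝓞 K ⧸ 𝔪) := Fintype.ofFinite _
  rw [tsum_eq_sum_residues 𝔠 𝔪 r hr F hF, tsum_fintype, finsum_eq_sum_of_fintype]

/-- Representatives in `𝔠` of the residues modulo `𝔪`, for `𝔠` coprime to `𝔪`. -/
theorem exists_residue_rep {R : Type} [CommRing R] (𝔠 𝔪 : Ideal R) (hcop : IsCoprime 𝔠 𝔪) :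
    ∃ r : R ⧸ 𝔪 → R, ∀ u, r u ∈ 𝔠 ∧ Ideal.Quotient.mk 𝔪 (r u) = u := by
  have h : ∀ u : R ⧸ 𝔪, ∃ x : R, x ∈ 𝔠 ∧ Ideal.Quotient.mk 𝔪 x = u := by
    intro u
    obtain ⟨z, rfl⟩ := Ideal.Quotient.mk_surjective u
    obtain ⟨a, ha, b, hb, hab⟩ := Submodule.mem_sup.mp
      (show (1 : R) ∈ 𝔠 ⊔ 𝔪 by rw [Ideal.isCoprime_iff_sup_eq.mp hcop]; exact Submodule.mem_top)
    refine ⟨z * a, 𝔠.mul_mem_left z ha, ?_⟩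
    have h1 : Ideal.Quotient.mk 𝔪 a = 1 := by
      have h2 : Ideal.Quotient.mk 𝔪 (a + b) = 1 := by rw [hab, map_one]
      rwa [map_add, Ideal.Quotient.eq_zero_iff_mem.mpr hb, add_zero] at h2
    rw [map_mul, h1, mul_one]
  choose r hr using h
  exact ⟨r, hr⟩

end Fermat.Agent.PT.G2
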