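/-
PT-G2, part 2 ("G2-idelic", sub-captain helper75): from the ideal-theoretic second inequality
(`PT/G2/Final.lean`) to the idèle-class form `[C_S(F) : N C_S(M)] ≤ [M : F]`, in the TENSOR MODEL
(`A_q(K) = ℚ_q ⊗_ℚ K`, `J_K = ∏_{q ∈ S} A_q(K)ˣ`, `C_S(K) = (J_K × Div_S(K)) / Kˣ`, `PT/G/Defs.lean`).

INTERFACE FILE: definitions and statements only.  Piece table: NOTES/PT-G2.md (part 2).
-/
import Fermat.Agent.PT.G.Defs
import Fermat.Agent.PT.G2.Plan

set_option autoImplicit false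

namespace Fermat.Agent.PT.G2

open NumberField TensorProduct IsDedekindDomain
open Fermat.Agent.PT.G1 Fermat.Agent.PT.G

/-- The integral elements `R_q = ℤ_q ⊗ 𝓞_K` of `A_q(K) = ℚ_q ⊗ K`: the additive subgroup generated
by the pure tensors `z ⊗ x`, `z ∈ ℤ_q`, `x ∈ 𝓞 K`.  (It is a subring and a free `ℤ_q`-module with
basis `1 ⊗ b_i`, `b_i` an integral basis of `K`.) -/
noncomputable def semiInt (q : ℕ) [Fact q.Prime] (K : Type) [Field K] [NumberField K] :
    AddSubgroup (semiAlg q K) :=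
  AddSubgroup.closure {t | ∃ (z : ℤ_[q]) (x : 𝓞 K), t = (z : ℚ_[q]) ⊗ₜ[ℚ] (x : K)}

/-- `a ≡ b` modulo `q ^ n R_q`. -/
def SemiCong (q : ℕ) [Fact q.Prime] (K : Type) [Field K] [NumberField K] (n : ℕ)
    (a b : semiAlg q K) : Prop :=
  ∃ r ∈ semiInt q K, a - b = (q : semiAlg q K) ^ n * r

/-- **G2I-Q** (weak approximation for `ℚ`): finitely many `q`-adic numbers `z_q` (`q ∈ S`) are
simultaneously approximated by one rational number `t`: `t - z_q ∈ q^n ℤ_q`. -/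
def StmtWeakApproxQ : Prop :=
  ∀ (S : Finset Nat.Primes) (z : ∀ q : ↥S, ℚ_[((q : Nat.Primes) : ℕ)]) (n : ℕ),
    ∃ t : ℚ, ∀ q : ↥S, ∃ u : ℤ_[((q : Nat.Primes) : ℕ)],
      (t : ℚ_[((q : Nat.Primes) : ℕ)]) - z q =
        (((q : Nat.Primes) : ℕ) : ℚ_[((q : Nat.Primes) : ℕ)]) ^ n * u

/-- **G2I-W** (weak approximation in the tensor model): `K` is dense in `∏_{q ∈ S} ℚ_q ⊗ K`. -/
def StmtWeakApprox : Prop :=
  ∀ (K : Type) [Field K] [NumberField K] (S : Finset Nat.Primes)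
    (a : ∀ q : ↥S, semiAlg ((q : Nat.Primes) : ℕ) K) (n : ℕ),
    ∃ α : K, ∀ q : ↥S,
      SemiCong ((q : Nat.Primes) : ℕ) K n ((1 : ℚ_[((q : Nat.Primes) : ℕ)]) ⊗ₜ[ℚ] α) (a q)

/-- **G2I-R** (the integral elements): `R_q` contains `1`, is closed under multiplication, and
every element of `A_q(K)` is `q^{-m}` times an element of `R_q`. -/
def StmtSemiInt : Prop :=
  ∀ (q : ℕ) [Fact q.Prime] (K : Type) [Field K] [NumberField K],
    (1 : semiAlg q K) ∈ semiInt q K ∧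
    (∀ a ∈ semiInt q K, ∀ b ∈ semiInt q K, a * b ∈ semiInt q K) ∧
    (∀ a : semiAlg q K, ∃ m : ℕ, (q : semiAlg q K) ^ m * a ∈ semiInt q K)

/-- **G2I-P** (local `d`-th powers, "openness of the norm groups"): for every `d ≥ 1` the elements
of `A_q(K)ˣ` which are `≡ 1 mod q^n R_q` are `d`-th powers, for `n` large (`n > 2 v_q(d)`). -/
def StmtLocalPow : Prop :=
  ∀ (d : ℕ), 0 < d → ∀ (q : ℕ) [Fact q.Prime] (K : Type) [Field K] [NumberField K],
    ∃ n : ℕ, ∀ j : (semiAlg q K)ˣ, SemiCong q K n (j : semiAlg q K) 1 →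
      ∃ y : (semiAlg q K)ˣ, y ^ d = j

/-- **G2I-core** (the second inequality for an idèle-class quotient): let `A` be a commutative
group with maps `φJ : J_K → A` and `φD : {ideals of 𝓞 K} → A` such that
* `φD` is multiplicative and kills the primes over `S`;
* (principal idèles) `φJ (α) · φD ((α)) = 1` for `0 ≠ α ∈ 𝓞 K`;
* (conductor) `φJ` kills the `j ≡ 1 mod q^n R_q` (all `q ∈ S`);
* (norms) `φD` kills the primes `v` not over `S` with a prime of degree one of `L` above;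
* `A` is generated by the images of `φJ` and `φD`.
Then `A` is finite of order `≤ [L : K]`. -/
def StmtIdelicCore : Prop :=
  ∀ (K L : Type) [Field K] [NumberField K] [Field L] [NumberField L] [Algebra K L]
    (S : Finset Nat.Primes) (A : Type) [CommGroup A]
    (φJ : JL S K →* A) (φD : Ideal (𝓞 K) → A) (n : ℕ),
    (∀ I J : Ideal (𝓞 K), I ≠ ⊥ → J ≠ ⊥ → φD (I * J) = φD I * φD J) →
    (∀ P : Ideal (𝓞 K), P.IsPrime → ∀ q ∈ S, (((q : Nat.Primes) : ℕ) : 𝓞 K) ∈ P → φD P = 1) →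
    (∀ α : 𝓞 K, ∀ hα : (α : K) ≠ 0, φJ (jlDiag S K (Units.mk0 (α : K) hα)) * φD (Ideal.span {α}) = 1) →
    (∀ j : JL S K, (∀ q : ↥S, SemiCong ((q : Nat.Primes) : ℕ) K n (j q : semiAlg _ K) 1) →
      φJ j = 1) →
    (∀ v : HeightOneSpectrum (𝓞 K), (∀ q ∈ S, (((q : Nat.Primes) : ℕ) : 𝓞 K) ∉ v.asIdeal) →
      (∃ w : HeightOneSpectrum (𝓞 L),
        Ideal.comap (algebraMap (𝓞 K) (𝓞 L)) w.asIdeal = v.asIdeal ∧
          Ideal.absNorm w.asIdeal = Ideal.absNorm v.asIdeal) → φD v.asIdeal = 1) →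
    (∀ a : A, ∃ (j : JL S K) (I I' : Ideal (𝓞 K)), I ≠ ⊥ ∧ I' ≠ ⊥ ∧ a * φD I' = φJ j * φD I) →
    Finite A ∧ Nat.card A ≤ Module.finrank K L

/-- **G2-idelic** (THE DELIVERABLE): let `M / F` be a finite extension of number fields and `B` a
subgroup of `C_S(F)` containing `d • (image of J_F)` for some `d ≥ 1` and the classes of the
primes `v` of `F` not over `S` which have a prime of degree one of `M` above them.  Then
`[C_S(F) : B] ≤ [M : F]`.
(For `B = N_{M/F} C_S(M)`: `d = [M : F]`, as `N (csMap y) = [M : F] • y`, and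
`N (w) = f(w/v) • v`.) -/
def StmtIdelicSecond : Prop :=
  ∀ (F M : Type) [Field F] [NumberField F] [Field M] [NumberField M] [Algebra F M]
    (S : Finset Nat.Primes) (B : Submodule ℤ (CS S F)) (d : ℕ), 0 < d →
    (∀ y : Additive (JL S F), d • csOfJ S F y ∈ B) →
    (∀ v : OffS S F,
      (∃ w : HeightOneSpectrum (𝓞 M),
        Ideal.comap (algebraMap (𝓞 F) (𝓞 M)) w.asIdeal = v.1.asIdeal ∧
          Ideal.absNorm w.asIdeal = Ideal.absNorm v.1.asIdeal) →
      csOfDiv S F (Finsupp.single v 1) ∈ B) →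
    Finite (CS S F ⧸ B) ∧ Nat.card (CS S F ⧸ B) ≤ Module.finrank F M

end Fermat.Agent.PT.G2
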