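import Mathlib
import Fermat.Agent.S14.Euler
import Fermat.Agent.PT.G2.Plan

/-!
# Project PT, piece G2-E: Euler products of the ray class `L`-series

`rayEulerStatement : RayEulerStatement`: for a ray datum `c` modulo `𝔪` with finite target `A`
there is a constant `C > 0` such that for all `s ∈ (1, 2]` and every finite set `T` of primes
`v ∤ 𝔪` with `c v = 1`

  `(∏_{v ∈ T} (1 - N v ^ (-s))⁻¹) ^ #A ≤ C * ∏_χ ‖L(s, χ ∘ c)‖`.

Proof: `I ↦ χ (c I) N(I)^(-s)` (zero off the ideals coprime to `𝔪`) is multiplicative, so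
`L(s, χ ∘ c)` is an Euler product (`Fermat.Agent.S14.eulerHasProd`). For a prime `v` put
`P_v = ∏_χ ‖1 - χ (c v) x_v‖`, `x_v = N v ^ (-s)`. Then `P_v = (1 - x_v) ^ #A` for `v ∈ T`, and
`P_v ^ 2 ≤ exp (#A * x_v ^ 2)` for every `v` (from `1 + u ≤ exp u` and `Re ∑_χ χ a ≥ 0`), and
`∑_v x_v ^ 2 ≤ ∑_v N v ^ (-2) < ∞`.
-/

set_option autoImplicit false
set_option linter.style.haveILetI false

open NumberField IsDedekindDomain Filter Topology
open scoped nonZeroDivisors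

namespace Fermat.Agent.PT.G2

section CharProd

variable {A : Type} [CommGroup A] [Finite A]

/-- The values of a character of a finite group have norm one. -/
lemma g2e_norm_char (χ : A →* ℂˣ) (a : A) : ‖((χ a : ℂˣ) : ℂ)‖ = 1 := by
  have h : ((χ a : ℂˣ) : ℂ) ^ (orderOf a) = 1 := by
    rw [← Units.val_pow_eq_pow_val, ← map_pow, pow_orderOf_eq_one, map_one, Units.val_one]
  exact Complex.norm_eq_one_of_pow_eq_one h (orderOf_pos a).ne'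

/-- The character group of a finite abelian group is finite. -/
lemma g2e_finite_char : Finite (A →* ℂˣ) := by
  haveI : NeZero (Monoid.exponent A : ℂ) :=
    ⟨Nat.cast_ne_zero.mpr (Monoid.exponent_ne_zero_of_finite)⟩
  obtain ⟨e⟩ := CommGroup.monoidHom_mulEquiv_of_hasEnoughRootsOfUnity A ℂ
  exact Finite.of_equiv A e.symm.toEquiv

/-- The sum of the values at `a` of all characters has nonnegative real part. -/
lemma g2e_sum_char_re_nonneg [Fintype (A →* ℂˣ)] (a : A) :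
    0 ≤ (∑ χ : A →* ℂˣ, ((χ a : ℂˣ) : ℂ)).re := by
  by_cases ha : a = 1
  · subst ha
    simp
  · haveI : NeZero (Monoid.exponent A : ℂ) :=
      ⟨Nat.cast_ne_zero.mpr (Monoid.exponent_ne_zero_of_finite)⟩
    obtain ⟨ψ, hψ⟩ := CommGroup.exists_apply_ne_one_of_hasEnoughRootsOfUnity A ℂ ha
    have h1 : ∑ χ : A →* ℂˣ, ((χ a : ℂˣ) : ℂ) =
        ((ψ a : ℂˣ) : ℂ) * ∑ χ : A →* ℂˣ, ((χ a : ℂˣ) : ℂ) := by
      rw [Finset.mul_sum]
      refine (Fintype.sum_equiv (Equiv.mulLeft ψ) _ _ fun χ => ?_).symm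
      simp [MonoidHom.mul_apply]
    have h2 : (1 - ((ψ a : ℂˣ) : ℂ)) * ∑ χ : A →* ℂˣ, ((χ a : ℂˣ) : ℂ) = 0 := by
      rw [sub_mul, one_mul, ← h1, sub_self]
    have h3 : (1 : ℂ) - ((ψ a : ℂˣ) : ℂ) ≠ 0 := by
      intro h
      apply hψ
      have h4 : ((ψ a : ℂˣ) : ℂ) = 1 := (sub_eq_zero.mp h).symm
      exact Units.ext h4
    rcases mul_eq_zero.mp h2 with h | h
    · exact absurd h h3
    · rw [h]; simp

/-- `‖1 - u x‖ ^ 2 = 1 + (x ^ 2 - 2 x Re u)` for `‖u‖ = 1` and real `x`. -/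
lemma g2e_norm_sq (u : ℂ) (hu : ‖u‖ = 1) (x : ℝ) :
    ‖(1 : ℂ) - u * (x : ℂ)‖ ^ 2 = 1 + (x ^ 2 - 2 * x * u.re) := by
  have h1 : u.re * u.re + u.im * u.im = 1 := by
    have := Complex.normSq_eq_norm_sq u
    rw [hu, Complex.normSq_apply] at this
    simpa using this
  rw [← Complex.normSq_eq_norm_sq, Complex.normSq_apply]
  simp only [Complex.sub_re, Complex.one_re, Complex.mul_re, Complex.ofReal_re, Complex.ofReal_im,
    mul_zero, sub_zero, Complex.sub_im, Complex.one_im, Complex.mul_im, zero_add, zero_sub]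
  nlinarith [h1]

/-- The local character product: `∏_χ ‖1 - χ a x‖ ^ 2 ≤ exp (#A x ^ 2)`. -/
lemma g2e_prod_norm_sq_le [Fintype (A →* ℂˣ)] (a : A) (x : ℝ) (hx : 0 ≤ x) :
    ∏ χ : A →* ℂˣ, ‖(1 : ℂ) - ((χ a : ℂˣ) : ℂ) * (x : ℂ)‖ ^ 2 ≤
      Real.exp ((Fintype.card (A →* ℂˣ) : ℝ) * x ^ 2) := by
  calc ∏ χ : A →* ℂˣ, ‖(1 : ℂ) - ((χ a : ℂˣ) : ℂ) * (x : ℂ)‖ ^ 2
      ≤ ∏ χ : A →* ℂˣ, Real.exp (x ^ 2 - 2 * x * (((χ a : ℂˣ) : ℂ)).re) := by
        refine Finset.prod_le_prod (fun χ _ => by positivity) fun χ _ => ?_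
        rw [g2e_norm_sq _ (g2e_norm_char χ a) x, add_comm]
        exact Real.add_one_le_exp _
    _ = Real.exp (∑ χ : A →* ℂˣ, (x ^ 2 - 2 * x * (((χ a : ℂˣ) : ℂ)).re)) :=
        (Real.exp_sum _ _).symm
    _ ≤ Real.exp ((Fintype.card (A →* ℂˣ) : ℝ) * x ^ 2) := by
        apply Real.exp_le_exp.mpr
        rw [Finset.sum_sub_distrib, Finset.sum_const, Finset.card_univ, nsmul_eq_mul,
          ← Finset.mul_sum, ← Complex.re_sum]
        have := g2e_sum_char_re_nonneg a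
        nlinarith [mul_nonneg hx this]

end CharProd

section Euler

variable {K : Type} [Field K] [NumberField K]

lemma g2e_coprime_mul {𝔪 : Ideal (𝓞 K)} (I J : (Ideal (𝓞 K))⁰) :
    (I * J) ∈ coprimeTo 𝔪 ↔ I ∈ coprimeTo 𝔪 ∧ J ∈ coprimeTo 𝔪 := by
  show IsCoprime ((I * J : (Ideal (𝓞 K))⁰) : Ideal (𝓞 K)) 𝔪 ↔
    IsCoprime (I : Ideal (𝓞 K)) 𝔪 ∧ IsCoprime (J : Ideal (𝓞 K)) 𝔪
  rw [Submonoid.coe_mul]
  exact IsCoprime.mul_left_iff

/-- `rayTerm` as a monoid homomorphism. -/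
noncomputable def rayTermHom (𝔪 : Ideal (𝓞 K)) {A : Type} [CommGroup A] {c : Ideal (𝓞 K) → A}
    (hc : IsRayDatum K 𝔪 c) (χ : A →* ℂˣ) (s : ℝ) : (Ideal (𝓞 K))⁰ →* ℂ where
  toFun := rayTerm 𝔪 c χ s
  map_one' := by
    have h1 : (1 : (Ideal (𝓞 K))⁰) ∈ coprimeTo 𝔪 := by
      show IsCoprime ((1 : (Ideal (𝓞 K))⁰) : Ideal (𝓞 K)) 𝔪
      rw [Submonoid.coe_one]
      exact isCoprime_one_left
    have hc1 : c (⊤ : Ideal (𝓞 K)) = 1 := by
      have := hc.map_principal 1 one_ne_zero (by simp)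
      rwa [Ideal.span_singleton_one] at this
    simp [rayTerm, Set.indicator_of_mem h1, hc1]
  map_mul' I J := by
    have hI0 : (I : Ideal (𝓞 K)) ≠ ⊥ := mem_nonZeroDivisors_iff_ne_zero.mp I.2
    have hJ0 : (J : Ideal (𝓞 K)) ≠ ⊥ := mem_nonZeroDivisors_iff_ne_zero.mp J.2
    by_cases hI : I ∈ coprimeTo 𝔪
    · by_cases hJ : J ∈ coprimeTo 𝔪
      · have hIJ : I * J ∈ coprimeTo 𝔪 := (g2e_coprime_mul I J).mpr ⟨hI, hJ⟩
        simp only [rayTerm, Set.indicator_of_mem hIJ, Set.indicator_of_mem hI,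
          Set.indicator_of_mem hJ]
        rw [Submonoid.coe_mul, hc.map_mul _ _ hI0 hJ0 hI hJ, map_mul, map_mul, Nat.cast_mul,
          Real.mul_rpow (Nat.cast_nonneg _) (Nat.cast_nonneg _)]
        push_cast
        ring
      · have hIJ : I * J ∉ coprimeTo 𝔪 := fun h => hJ ((g2e_coprime_mul I J).mp h).2
        simp [rayTerm, Set.indicator_of_notMem hIJ, Set.indicator_of_notMem hJ]
    · have hIJ : I * J ∉ coprimeTo 𝔪 := fun h => hI ((g2e_coprime_mul I J).mp h).1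
      simp [rayTerm, Set.indicator_of_notMem hIJ, Set.indicator_of_notMem hI]

lemma g2e_norm_rayTerm_le (𝔪 : Ideal (𝓞 K)) {A : Type} [CommGroup A] [Finite A]
    (c : Ideal (𝓞 K) → A) (χ : A →* ℂˣ) (s : ℝ) (I : (Ideal (𝓞 K))⁰) :
    ‖rayTerm 𝔪 c χ s I‖ ≤ (Ideal.absNorm (I : Ideal (𝓞 K)) : ℝ) ^ (-s) := by
  have h0 : (0 : ℝ) ≤ (Ideal.absNorm (I : Ideal (𝓞 K)) : ℝ) ^ (-s) :=
    Real.rpow_nonneg (Nat.cast_nonneg _) _
  by_cases hI : I ∈ coprimeTo 𝔪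
  · simp only [rayTerm, Set.indicator_of_mem hI, norm_mul, g2e_norm_char, one_mul,
      Complex.norm_real, Real.norm_eq_abs]
    rw [abs_of_nonneg h0]
  · simp only [rayTerm, Set.indicator_of_notMem hI, norm_zero]
    exact h0

/-- The value of `rayTerm` at a prime coprime to `𝔪`. -/
lemma g2e_rayTerm_prime (𝔪 : Ideal (𝓞 K)) {A : Type} [CommGroup A]
    (c : Ideal (𝓞 K) → A) (χ : A →* ℂˣ) (s : ℝ) (v : HeightOneSpectrum (𝓞 K))
    (hv : IsCoprime v.asIdeal 𝔪) :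
    rayTerm 𝔪 c χ s (Fermat.Agent.S14.primeIdeal₀ v) =
      ((χ (c v.asIdeal) : ℂˣ) : ℂ) * (((Ideal.absNorm v.asIdeal : ℝ) ^ (-s) : ℝ) : ℂ) := by
  have h : Fermat.Agent.S14.primeIdeal₀ v ∈ coprimeTo 𝔪 := hv
  simp [rayTerm, Set.indicator_of_mem h]

lemma g2e_rayTerm_prime_not (𝔪 : Ideal (𝓞 K)) {A : Type} [CommGroup A]
    (c : Ideal (𝓞 K) → A) (χ : A →* ℂˣ) (s : ℝ) (v : HeightOneSpectrum (𝓞 K))
    (hv : ¬ IsCoprime v.asIdeal 𝔪) :
    rayTerm 𝔪 c χ s (Fermat.Agent.S14.primeIdeal₀ v) = 0 := by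
  have h : Fermat.Agent.S14.primeIdeal₀ v ∉ coprimeTo 𝔪 := hv
  simp [rayTerm, Set.indicator_of_notMem h]

/-- The Euler product of the ray class `L`-series, norm form. -/
theorem g2e_tendsto_norm (𝔪 : Ideal (𝓞 K)) {A : Type} [CommGroup A] [Finite A]
    {c : Ideal (𝓞 K) → A} (hc : IsRayDatum K 𝔪 c) (χ : A →* ℂˣ) {s : ℝ} (hs : 1 < s) :
    Tendsto (fun T : Finset (HeightOneSpectrum (𝓞 K)) =>
        ∏ v ∈ T, ‖(1 : ℂ) - rayTerm 𝔪 c χ s (Fermat.Agent.S14.primeIdeal₀ v)‖⁻¹)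
      atTop (𝓝 ‖rayL 𝔪 c χ s‖) := by
  have hsum : Summable (fun I => ‖rayTermHom 𝔪 hc χ s I‖) :=
    Summable.of_nonneg_of_le (fun _ => norm_nonneg _) (g2e_norm_rayTerm_le 𝔪 c χ s)
      (Fermat.Agent.S14.summable_absNorm_rpow K hs)
  have hlt : ∀ v : HeightOneSpectrum (𝓞 K),
      ‖rayTermHom 𝔪 hc χ s (Fermat.Agent.S14.primeIdeal₀ v)‖ < 1 := fun v =>
    lt_of_le_of_lt (g2e_norm_rayTerm_le 𝔪 c χ s _)
      (Fermat.Agent.S14.absNorm_rpow_lt_one K v (by linarith))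
  have h := (Fermat.Agent.S14.eulerHasProd (rayTermHom 𝔪 hc χ s) hsum hlt).norm
  simp only [norm_inv] at h
  exact h

lemma g2e_primeIdeal₀_injective :
    Function.Injective (Fermat.Agent.S14.primeIdeal₀ : HeightOneSpectrum (𝓞 K) → (Ideal (𝓞 K))⁰) := by
  intro v w h
  have h1 : v.asIdeal = w.asIdeal := congrArg (fun I : (Ideal (𝓞 K))⁰ => (I : Ideal (𝓞 K))) h
  exact HeightOneSpectrum.ext h1

/-- `x_v = N v ^ (-s)`, basic bounds. -/
lemma g2e_x_sq_le (v : HeightOneSpectrum (𝓞 K)) {s : ℝ} (hs : 1 < s) :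
    ((Ideal.absNorm v.asIdeal : ℝ) ^ (-s)) ^ 2 ≤ (Ideal.absNorm v.asIdeal : ℝ) ^ (-(2 : ℝ)) := by
  have h1 : (1 : ℝ) ≤ (Ideal.absNorm v.asIdeal : ℝ) := by
    have := Fermat.Agent.S14.two_le_absNorm K v
    exact_mod_cast (by omega : 1 ≤ Ideal.absNorm v.asIdeal)
  have h2 : ((Ideal.absNorm v.asIdeal : ℝ) ^ (-s)) ^ 2 = (Ideal.absNorm v.asIdeal : ℝ) ^ (-s * 2) := by
    rw [Real.rpow_mul (by linarith) (-s) 2]
    norm_cast
  rw [h2]
  exact Real.rpow_le_rpow_of_exponent_le h1 (by linarith)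

/-- The local factor `∏_χ ‖1 - t_χ(v)‖` is at most `exp (#A x_v ^ 2 / 2)`. -/
lemma g2e_local_le (𝔪 : Ideal (𝓞 K)) {A : Type} [CommGroup A] [Finite A] [Fintype (A →* ℂˣ)]
    (c : Ideal (𝓞 K) → A) (s : ℝ) (v : HeightOneSpectrum (𝓞 K)) :
    ∏ χ : A →* ℂˣ, ‖(1 : ℂ) - rayTerm 𝔪 c χ s (Fermat.Agent.S14.primeIdeal₀ v)‖ ≤
      Real.exp ((Fintype.card (A →* ℂˣ) : ℝ) / 2 * ((Ideal.absNorm v.asIdeal : ℝ) ^ (-s)) ^ 2) := by
  set x : ℝ := (Ideal.absNorm v.asIdeal : ℝ) ^ (-s) with hx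
  have hx0 : 0 ≤ x := Real.rpow_nonneg (Nat.cast_nonneg _) _
  by_cases hv : IsCoprime v.asIdeal 𝔪
  · have h1 := g2e_prod_norm_sq_le (A := A) (c v.asIdeal) x hx0
    rw [Finset.prod_pow] at h1
    have h2 : (0 : ℝ) ≤ ∏ χ : A →* ℂˣ, ‖(1 : ℂ) - ((χ (c v.asIdeal) : ℂˣ) : ℂ) * (x : ℂ)‖ :=
      Finset.prod_nonneg fun _ _ => norm_nonneg _
    have h3 : Real.exp ((Fintype.card (A →* ℂˣ) : ℝ) * x ^ 2) =
        (Real.exp ((Fintype.card (A →* ℂˣ) : ℝ) / 2 * x ^ 2)) ^ 2 := by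
      rw [← Real.exp_nat_mul]
      congr 1
      push_cast
      ring
    rw [h3] at h1
    simp only [g2e_rayTerm_prime 𝔪 c _ s v hv]
    exact (pow_le_pow_iff_left₀ h2 (Real.exp_pos _).le two_ne_zero).mp h1
  · simp only [g2e_rayTerm_prime_not 𝔪 c _ s v hv, sub_zero, norm_one, Finset.prod_const_one]
    exact Real.one_le_exp (by positivity)

/-- **G2-E**. -/
theorem rayEulerStatement : RayEulerStatement := by
  intro K _ _ 𝔪 _ A _ _ c hc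
  classical
  haveI : Finite (A →* ℂˣ) := g2e_finite_char
  letI : Fintype (A →* ℂˣ) := Fintype.ofFinite _
  have hcard : Fintype.card (A →* ℂˣ) = Nat.card A := by
    haveI : NeZero (Monoid.exponent A : ℂ) :=
      ⟨Nat.cast_ne_zero.mpr (Monoid.exponent_ne_zero_of_finite)⟩
    rw [← Nat.card_eq_fintype_card]
    exact CommGroup.card_monoidHom_of_hasEnoughRootsOfUnity A ℂ
  have hZsum : Summable (fun v : HeightOneSpectrum (𝓞 K) =>
      (Ideal.absNorm v.asIdeal : ℝ) ^ (-(2 : ℝ))) := by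
    have h2 : Summable (fun I : (Ideal (𝓞 K))⁰ =>
        (Ideal.absNorm (I : Ideal (𝓞 K)) : ℝ) ^ (-(2 : ℝ))) :=
      Fermat.Agent.S14.summable_absNorm_rpow K (by norm_num : (1 : ℝ) < 2)
    have h3 := h2.comp_injective (g2e_primeIdeal₀_injective (K := K))
    refine h3.congr fun v => ?_
    simp only [Function.comp_apply, Fermat.Agent.S14.coe_primeIdeal₀]
  obtain ⟨Z, hZ⟩ : ∃ Z : ℝ, Z = ∑' v : HeightOneSpectrum (𝓞 K),
      (Ideal.absNorm v.asIdeal : ℝ) ^ (-(2 : ℝ)) := ⟨_, rfl⟩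
  obtain ⟨h, hh⟩ : ∃ h : ℝ, h = (Fintype.card (A →* ℂˣ) : ℝ) := ⟨_, rfl⟩
  have hh0 : 0 ≤ h := hh ▸ Nat.cast_nonneg _
  refine ⟨Real.exp (h / 2 * Z), Real.exp_pos _, fun s hs1 _ T hT => ?_⟩
  rw [finprod_eq_prod_of_fintype, ← hcard]
  have hten : Tendsto (fun T' : Finset (HeightOneSpectrum (𝓞 K)) =>
      ∏ χ : A →* ℂˣ, ∏ v ∈ T', ‖(1 : ℂ) - rayTerm 𝔪 c χ s (Fermat.Agent.S14.primeIdeal₀ v)‖⁻¹)
      atTop (𝓝 (∏ χ : A →* ℂˣ, ‖rayL 𝔪 c χ s‖)) :=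
    tendsto_finsetProd _ fun χ _ => g2e_tendsto_norm 𝔪 hc χ hs1
  obtain ⟨B, hB⟩ : ∃ B : ℝ, B = (∏ v ∈ T, (1 - (Ideal.absNorm v.asIdeal : ℝ) ^ (-s))⁻¹) ^
    Fintype.card (A →* ℂˣ) := ⟨_, rfl⟩
  rw [← hB]
  have hB0 : 0 ≤ B := by
    rw [hB]
    refine pow_nonneg (Finset.prod_nonneg fun v _ => inv_nonneg.mpr ?_) _
    have := Fermat.Agent.S14.absNorm_rpow_lt_one K v (by linarith : (0 : ℝ) < s)
    linarith
  have hbound : ∀ T' : Finset (HeightOneSpectrum (𝓞 K)), T ≤ T' →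
      B * Real.exp (-(h / 2 * Z)) ≤
        ∏ χ : A →* ℂˣ, ∏ v ∈ T', ‖(1 : ℂ) - rayTerm 𝔪 c χ s (Fermat.Agent.S14.primeIdeal₀ v)‖⁻¹ := by
    intro T' hTT'
    rw [Finset.prod_comm, ← Finset.prod_sdiff hTT', mul_comm]
    -- the part over `T`
    have h1 : ∏ v ∈ T, ∏ χ : A →* ℂˣ,
        ‖(1 : ℂ) - rayTerm 𝔪 c χ s (Fermat.Agent.S14.primeIdeal₀ v)‖⁻¹ = B := by
      rw [hB, ← Finset.prod_pow]
      refine Finset.prod_congr rfl fun v hv => ?_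
      obtain ⟨hv1, hv2⟩ := hT v hv
      have hx1 := Fermat.Agent.S14.absNorm_rpow_lt_one K v (by linarith : (0 : ℝ) < s)
      have h2 : ∀ χ : A →* ℂˣ,
          ‖(1 : ℂ) - rayTerm 𝔪 c χ s (Fermat.Agent.S14.primeIdeal₀ v)‖⁻¹ =
            (1 - (Ideal.absNorm v.asIdeal : ℝ) ^ (-s))⁻¹ := by
        intro χ
        rw [g2e_rayTerm_prime 𝔪 c χ s v hv1, hv2, map_one, Units.val_one, one_mul,
          ← Complex.ofReal_one, ← Complex.ofReal_sub, Complex.norm_real, Real.norm_eq_abs,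
          abs_of_nonneg (by linarith)]
      rw [Finset.prod_congr rfl fun χ _ => h2 χ, Finset.prod_const, Finset.card_univ]
    -- the part over `T' \ T`
    have h3 : Real.exp (-(h / 2 * Z)) ≤ ∏ v ∈ T' \ T, ∏ χ : A →* ℂˣ,
        ‖(1 : ℂ) - rayTerm 𝔪 c χ s (Fermat.Agent.S14.primeIdeal₀ v)‖⁻¹ := by
      have h4 : ∀ v ∈ T' \ T,
          Real.exp (-(h / 2 * ((Ideal.absNorm v.asIdeal : ℝ) ^ (-s)) ^ 2)) ≤
            ∏ χ : A →* ℂˣ, ‖(1 : ℂ) - rayTerm 𝔪 c χ s (Fermat.Agent.S14.primeIdeal₀ v)‖⁻¹ := by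
        intro v _
        rw [Finset.prod_inv_distrib, Real.exp_neg]
        have hpos : 0 < ∏ χ : A →* ℂˣ,
            ‖(1 : ℂ) - rayTerm 𝔪 c χ s (Fermat.Agent.S14.primeIdeal₀ v)‖ := by
          refine Finset.prod_pos fun χ _ => norm_pos_iff.mpr ?_
          intro h0
          have h5 : ‖rayTerm 𝔪 c χ s (Fermat.Agent.S14.primeIdeal₀ v)‖ < 1 :=
            lt_of_le_of_lt (g2e_norm_rayTerm_le 𝔪 c χ s _)
              (Fermat.Agent.S14.absNorm_rpow_lt_one K v (by linarith))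
          rw [← sub_eq_zero.mp h0, norm_one] at h5
          exact lt_irrefl _ h5
        have := g2e_local_le 𝔪 c s v
        rw [← hh] at this
        exact inv_anti₀ hpos this
      calc Real.exp (-(h / 2 * Z))
          ≤ Real.exp (∑ v ∈ T' \ T, -(h / 2 * ((Ideal.absNorm v.asIdeal : ℝ) ^ (-s)) ^ 2)) := by
            apply Real.exp_le_exp.mpr
            rw [Finset.sum_neg_distrib, ← Finset.mul_sum, neg_le_neg_iff]
            refine mul_le_mul_of_nonneg_left ?_ (by positivity)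
            calc ∑ v ∈ T' \ T, ((Ideal.absNorm v.asIdeal : ℝ) ^ (-s)) ^ 2
                ≤ ∑ v ∈ T' \ T, (Ideal.absNorm v.asIdeal : ℝ) ^ (-(2 : ℝ)) :=
                  Finset.sum_le_sum fun v _ => g2e_x_sq_le v hs1
              _ ≤ Z := hZ ▸ hZsum.sum_le_tsum _ fun v _ => Real.rpow_nonneg (Nat.cast_nonneg _) _
        _ = ∏ v ∈ T' \ T, Real.exp (-(h / 2 * ((Ideal.absNorm v.asIdeal : ℝ) ^ (-s)) ^ 2)) :=
            Real.exp_sum _ _
        _ ≤ _ := Finset.prod_le_prod (fun v _ => (Real.exp_pos _).le) h4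
    rw [h1]
    exact mul_le_mul_of_nonneg_right h3 hB0
  have hfin := ge_of_tendsto hten (eventually_atTop.mpr ⟨T, hbound⟩)
  have hexp : Real.exp (h / 2 * Z) * Real.exp (-(h / 2 * Z)) = 1 := by
    rw [← Real.exp_add, add_neg_cancel, Real.exp_zero]
  calc B = Real.exp (h / 2 * Z) * (B * Real.exp (-(h / 2 * Z))) := by
        rw [mul_comm B, ← mul_assoc, hexp, one_mul]
    _ ≤ Real.exp (h / 2 * Z) * ∏ χ : A →* ℂˣ, ‖rayL 𝔪 c χ s‖ :=
        mul_le_mul_of_nonneg_left hfin (Real.exp_pos _).le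

end Euler

end Fermat.Agent.PT.G2
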