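import Mathlib
import Fermat.Agent.PT.G2.Plan
import Fermat.Agent.PT.G2.RayStructure

/-!
# Project PT, piece G2-F: the target group of a ray datum is finite

`A` is the image of `(𝓞 K ⧸ 𝔪)ˣ × Cl(K)` under `(u, g) ↦ ψ u * (c 𝔠_g)⁻¹`, where `𝔠_g` is an
integral ideal coprime to `𝔪` in the class `g` and `ψ` is the residue homomorphism.
-/

set_option autoImplicit false

open NumberField IsDedekindDomain
open scoped nonZeroDivisors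

namespace Fermat.Agent.PT.G2

lemma rayFinite_aux1 (K : Type) [Field K] [NumberField K] : Finite (ClassGroup (𝓞 K)) :=
  inferInstance

lemma rayFinite_aux2 (K : Type) [Field K] [NumberField K] (𝔪 : Ideal (𝓞 K)) (h𝔪 : 𝔪 ≠ ⊥) :
    Finite (𝓞 K ⧸ 𝔪)ˣ := by
  haveI : Finite (𝓞 K ⧸ 𝔪) := Ideal.finiteQuotientOfFreeOfNeBot _ h𝔪
  exact Finite.of_injective _ Units.val_injective

/-- every value of a ray datum is `ψ u * (c 𝔠)⁻¹` with `𝔠` the chosen representative of a class. -/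
lemma rayFinite_value {K : Type} [Field K] [NumberField K] {𝔪 : Ideal (𝓞 K)} {A : Type}
    [CommGroup A] {c : Ideal (𝓞 K) → A} (hc : IsRayDatum K 𝔪 c)
    (ψ : (𝓞 K ⧸ 𝔪)ˣ →* A)
    (hψ : ∀ (α : 𝓞 K) (u : (𝓞 K ⧸ 𝔪)ˣ), α ≠ 0 →
      Ideal.Quotient.mk 𝔪 α = (u : 𝓞 K ⧸ 𝔪) → c (Ideal.span {α}) = ψ u)
    (I J : Ideal (𝓞 K)) (hI0 : I ≠ ⊥) (hJ0 : J ≠ ⊥) (hIcop : IsCoprime I 𝔪)
    (hJcop : IsCoprime J 𝔪) (hIJ : (I * J).IsPrincipal) :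
    ∃ u : (𝓞 K ⧸ 𝔪)ˣ, ψ u * (c J)⁻¹ = c I := by
  obtain ⟨x, hx⟩ := hIJ.principal
  have hx' : Ideal.span {x} = I * J := hx.symm
  have hx0 : x ≠ 0 := by
    rintro rfl
    have h0 : I * J = ⊥ := by
      rw [← hx']; exact Ideal.span_singleton_eq_bot.mpr rfl
    exact (mul_ne_zero hI0 hJ0) h0
  have hxcop : IsCoprime (Ideal.span {x}) 𝔪 := by
    rw [hx']; exact IsCoprime.mul_left hIcop hJcop
  have hxu : IsUnit (Ideal.Quotient.mk 𝔪 x) := (isCoprime_span_singleton_iff 𝔪 x).mp hxcop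
  obtain ⟨u, hu⟩ := hxu
  refine ⟨u, ?_⟩
  rw [← hψ x u hx0 hu.symm, hx', hc.map_mul I _ hI0 hJ0 hIcop hJcop, mul_inv_cancel_right]

/-- **G2-F**: the target group of a ray datum is finite. -/
theorem rayFiniteStatement : RayFiniteStatement := by
  classical
  intro K _ _ 𝔪 h𝔪 A _ c hc
  haveI := rayFinite_aux1 K
  haveI := rayFinite_aux2 K 𝔪 h𝔪
  obtain ⟨ψ, hψ⟩ := exists_residue_hom hc
  choose rep hrepcop hrep using exists_coprime_rep K 𝔪 h𝔪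
  refine Finite.of_surjective
    (fun x : (𝓞 K ⧸ 𝔪)ˣ × ClassGroup (𝓞 K) => ψ x.1 * (c (rep x.2 : Ideal (𝓞 K)))⁻¹) ?_
  intro a
  obtain ⟨I, hI0, hIcop, rfl⟩ := hc.surj a
  have hImem : I ∈ (Ideal (𝓞 K))⁰ := mem_nonZeroDivisors_iff_ne_zero.mpr hI0
  obtain ⟨g, hg⟩ : ∃ g : ClassGroup (𝓞 K), g = (ClassGroup.mk0 ⟨I, hImem⟩)⁻¹ := ⟨_, rfl⟩
  have hrep0 : (rep g : Ideal (𝓞 K)) ≠ ⊥ := mem_nonZeroDivisors_iff_ne_zero.mp (rep g).2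
  have hmem2 : I * (rep g : Ideal (𝓞 K)) ∈ (Ideal (𝓞 K))⁰ :=
    mem_nonZeroDivisors_iff_ne_zero.mpr (mul_ne_zero hI0 hrep0)
  have hprod : ClassGroup.mk0 ⟨I * (rep g : Ideal (𝓞 K)), hmem2⟩ = 1 := by
    have h1 : (⟨I * (rep g : Ideal (𝓞 K)), hmem2⟩ : (Ideal (𝓞 K))⁰) = ⟨I, hImem⟩ * rep g :=
      Subtype.ext rfl
    rw [h1, map_mul, hrep g, hg, mul_inv_cancel]
  have hprinc : (I * (rep g : Ideal (𝓞 K))).IsPrincipal :=
    (ClassGroup.mk0_eq_one_iff hmem2).mp hprod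
  obtain ⟨u, hu⟩ := rayFinite_value hc ψ hψ I (rep g) hI0 hrep0 hIcop (hrepcop g) hprinc
  exact ⟨(u, g), hu⟩

end Fermat.Agent.PT.G2
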