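import Fermat.Agent.S14.LBoundedFinal
import Fermat.Agent.PT.G2.Plan
import Fermat.Agent.PT.G2.ResidueSum
import Fermat.Agent.PT.G2.OrbitWeighted
import Fermat.Agent.PT.G2.RayStructure

/-!
# Project PT, piece G2-L (L4): the `L`-series of a nontrivial ray class character is bounded on
`(1, 2]`

`rayLBoundedStatement : RayLBoundedStatement`.

For every ideal class `g` fix an integral ideal `𝔠_g` in the class `g⁻¹`, coprime to `𝔪`.  The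
part of `L(s, χ ∘ c)` in the class `g` is unfolded along the elements of `𝔠_g` (weighted orbit
formula, `os_hasSum_weighted`), decomposed along the residues modulo `𝔪`
(`tsum_eq_sum_residues`), and the sum over each residue class is compared with the sum over
`𝔠_g ⊓ 𝔪` (shift estimate `lb_shift_sum`), which is `N(𝔠_g 𝔪)^(-s)` times a partial zeta
function (`hasSum_fs_ideal`), all of which agree up to `O(1)` (`lb_class_diff`).  Hence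
`L(s, χ ∘ c) = N𝔪^(-s) Z₁(s) (∑_g χ(c 𝔠_g)⁻¹) (∑_u χ(ψ u)) + O(1)`, and the product of the two
character sums vanishes for `χ ≠ 1` (`g2_char_sums_zero`).
-/

set_option autoImplicit false
set_option linter.unusedSectionVars false
set_option linter.style.haveILetI false
set_option linter.unusedVariables false

open NumberField IsDedekindDomain
open scoped nonZeroDivisors
open Fermat.Agent.S14

namespace Fermat.Agent.PT.G2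

section RayL

variable {K : Type} [Field K] [NumberField K] {𝔪 : Ideal (𝓞 K)} {A : Type} [CommGroup A]
  [Finite A] {c : Ideal (𝓞 K) → A}

/-- Shifting argument: a function on a finite group which is multiplied by `t ≠ 1` under a
translation has sum zero. -/
theorem g2_sum_eq_zero_of_shift {G : Type} [Group G] [Fintype G] (F : G → ℂ) (g₀ : G) (t : ℂ)
    (ht : t ≠ 1) (h : ∀ g, F (g₀ * g) = t * F g) : ∑ g, F g = 0 := by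
  have h1 : ∑ g, F g = ∑ g, F (g₀ * g) :=
    (Fintype.sum_equiv (Equiv.mulLeft g₀) (fun g => F (g₀ * g)) F (fun g => rfl)).symm
  have h2 : ∑ g, F (g₀ * g) = t * ∑ g, F g := by
    rw [Finset.mul_sum]
    exact Finset.sum_congr rfl fun g _ => h g
  have h3 : (1 - t) * ∑ g, F g = 0 := by
    rw [sub_mul, one_mul, ← h2, ← h1, sub_self]
  rcases mul_eq_zero.mp h3 with h4 | h4
  · exact absurd (sub_eq_zero.mp h4).symm ht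
  · exact h4

theorem g2_norm_rayTerm_le (χ : A →* ℂˣ) (s : ℝ) (I : (Ideal (𝓞 K))⁰) :
    ‖rayTerm 𝔪 c χ s I‖ ≤ (Ideal.absNorm (I : Ideal (𝓞 K)) : ℝ) ^ (-s) := by
  have h0 : (0 : ℝ) ≤ (Ideal.absNorm (I : Ideal (𝓞 K)) : ℝ) ^ (-s) :=
    Real.rpow_nonneg (Nat.cast_nonneg _) _
  unfold rayTerm
  by_cases hI : I ∈ coprimeTo 𝔪
  · rw [Set.indicator_of_mem hI, norm_mul, gp_norm_char, one_mul, Complex.norm_real,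
      Real.norm_eq_abs, abs_of_nonneg h0]
  · rw [Set.indicator_of_notMem hI, norm_zero]
    exact h0

theorem g2_summable_rayTerm (χ : A →* ℂˣ) {s : ℝ} (hs : 1 < s) :
    Summable (rayTerm 𝔪 c χ s) :=
  Summable.of_norm_bounded (summable_absNorm_rpow K hs) (fun I => g2_norm_rayTerm_le χ s I)

/-- The part of the ray class `L`-series in a given ideal class. -/
noncomputable def rayClassPart (𝔪 : Ideal (𝓞 K)) (c : Ideal (𝓞 K) → A) (χ : A →* ℂˣ) (s : ℝ)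
    (g : ClassGroup (𝓞 K)) : ℂ :=
  ∑' I : {I : (Ideal (𝓞 K))⁰ // ClassGroup.mk0 I = g}, rayTerm 𝔪 c χ s (I : (Ideal (𝓞 K))⁰)

theorem g2_rayL_eq_sum (χ : A →* ℂˣ) {s : ℝ} (hs : 1 < s) :
    rayL 𝔪 c χ s = ∑ g : ClassGroup (𝓞 K), rayClassPart 𝔪 c χ s g := by
  have h1 := (g2_summable_rayTerm (𝔪 := 𝔪) (c := c) χ hs).hasSum.tsum_fiberwise
    (fun I : (Ideal (𝓞 K))⁰ => ClassGroup.mk0 I)
  rw [rayL, ← h1.tsum_eq, tsum_fintype]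
  rfl

/-! ### The weight on the residues modulo `𝔪` -/

open Classical in
/-- The weight `u ↦ χ (ψ u)` on the units of `𝓞 K ⧸ 𝔪`, extended by zero. -/
noncomputable def resWeight (χ : A →* ℂˣ) (ψ : (𝓞 K ⧸ 𝔪)ˣ →* A) (u : 𝓞 K ⧸ 𝔪) : ℂ :=
  if h : IsUnit u then ((χ (ψ h.unit) : ℂˣ) : ℂ) else 0

theorem resWeight_of_isUnit (χ : A →* ℂˣ) (ψ : (𝓞 K ⧸ 𝔪)ˣ →* A) {u : 𝓞 K ⧸ 𝔪} (h : IsUnit u) :
    resWeight χ ψ u = ((χ (ψ h.unit) : ℂˣ) : ℂ) := by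
  unfold resWeight
  rw [dif_pos h]

theorem resWeight_of_not_isUnit (χ : A →* ℂˣ) (ψ : (𝓞 K ⧸ 𝔪)ˣ →* A) {u : 𝓞 K ⧸ 𝔪}
    (h : ¬ IsUnit u) : resWeight χ ψ u = 0 := by
  unfold resWeight
  rw [dif_neg h]

theorem norm_resWeight_le (χ : A →* ℂˣ) (ψ : (𝓞 K ⧸ 𝔪)ˣ →* A) (u : 𝓞 K ⧸ 𝔪) :
    ‖resWeight χ ψ u‖ ≤ 1 := by
  by_cases h : IsUnit u
  · rw [resWeight_of_isUnit χ ψ h, gp_norm_char]
  · rw [resWeight_of_not_isUnit χ ψ h, norm_zero]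
    exact zero_le_one

theorem resWeight_unit_mul (χ : A →* ℂˣ) (ψ : (𝓞 K ⧸ 𝔪)ˣ →* A) (v : (𝓞 K ⧸ 𝔪)ˣ)
    (u : 𝓞 K ⧸ 𝔪) :
    resWeight χ ψ ((v : 𝓞 K ⧸ 𝔪) * u) = ((χ (ψ v) : ℂˣ) : ℂ) * resWeight χ ψ u := by
  by_cases h : IsUnit u
  · have h' : IsUnit ((v : 𝓞 K ⧸ 𝔪) * u) := v.isUnit.mul h
    rw [resWeight_of_isUnit χ ψ h, resWeight_of_isUnit χ ψ h']
    have e : h'.unit = v * h.unit := by
      apply Units.ext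
      simp
    rw [e, map_mul, map_mul, Units.val_mul]
  · have h' : ¬ IsUnit ((v : 𝓞 K ⧸ 𝔪) * u) := fun h' => h ((Units.isUnit_units_mul v u).mp h')
    rw [resWeight_of_not_isUnit χ ψ h, resWeight_of_not_isUnit χ ψ h', mul_zero]

open Classical in
/-- The weight on ideals used in the orbit formula. -/
noncomputable def idealWeight (𝔪 : Ideal (𝓞 K)) (c : Ideal (𝓞 K) → A) (χ : A →* ℂˣ)
    (𝔠 : Ideal (𝓞 K)) (I : Ideal (𝓞 K)) : ℂ :=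
  if IsCoprime I 𝔪 then ((χ (c 𝔠) : ℂˣ) : ℂ) * ((χ (c I) : ℂˣ) : ℂ) else 0

theorem norm_idealWeight_le (χ : A →* ℂˣ) (𝔠 I : Ideal (𝓞 K)) :
    ‖idealWeight 𝔪 c χ 𝔠 I‖ ≤ 1 := by
  unfold idealWeight
  split_ifs
  · rw [norm_mul, gp_norm_char, gp_norm_char, one_mul]
  · rw [norm_zero]; exact zero_le_one

theorem resWeight_eq_idealWeight (hc : IsRayDatum K 𝔪 c) (χ : A →* ℂˣ)
    (ψ : (𝓞 K ⧸ 𝔪)ˣ →* A)
    (hψ : ∀ (α : 𝓞 K) (u : (𝓞 K ⧸ 𝔪)ˣ), α ≠ 0 →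
      Ideal.Quotient.mk 𝔪 α = (u : 𝓞 K ⧸ 𝔪) → c (Ideal.span {α}) = ψ u)
    (𝔠 : (Ideal (𝓞 K))⁰) (h𝔠 : IsCoprime (𝔠 : Ideal (𝓞 K)) 𝔪)
    (x : 𝓞 K) (I : Ideal (𝓞 K)) (hx : x ≠ 0)
    (h : Ideal.span {x} = (𝔠 : Ideal (𝓞 K)) * I) :
    resWeight χ ψ (Ideal.Quotient.mk 𝔪 x) = idealWeight 𝔪 c χ (𝔠 : Ideal (𝓞 K)) I := by
  have h𝔠0 : (𝔠 : Ideal (𝓞 K)) ≠ ⊥ := nonZeroDivisors.coe_ne_zero 𝔠
  have hI0 : I ≠ ⊥ := by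
    rintro rfl
    rw [Ideal.mul_bot, Ideal.span_singleton_eq_bot] at h
    exact hx h
  by_cases hI : IsCoprime I 𝔪
  · have hxc : IsCoprime (Ideal.span {x}) 𝔪 := by
      rw [h]; exact IsCoprime.mul_left h𝔠 hI
    have hu : IsUnit (Ideal.Quotient.mk 𝔪 x) := (isCoprime_span_singleton_iff 𝔪 x).mp hxc
    rw [resWeight_of_isUnit χ ψ hu]
    have e1 : ψ hu.unit = c (𝔠 : Ideal (𝓞 K)) * c I := by
      rw [← hψ x hu.unit hx hu.unit_spec.symm, h, hc.map_mul _ _ h𝔠0 hI0 h𝔠 hI]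
    unfold idealWeight
    rw [if_pos hI, e1, map_mul, Units.val_mul]
  · have hu : ¬ IsUnit (Ideal.Quotient.mk 𝔪 x) := by
      intro hu
      have hxc : IsCoprime (Ideal.span {x}) 𝔪 := (isCoprime_span_singleton_iff 𝔪 x).mpr hu
      rw [h] at hxc
      exact hI (IsCoprime.of_mul_left_right hxc)
    rw [resWeight_of_not_isUnit χ ψ hu]
    unfold idealWeight
    rw [if_neg hI]

theorem idealWeight_mul_eq (χ : A →* ℂˣ) (𝔠 : Ideal (𝓞 K)) (s : ℝ) (I : (Ideal (𝓞 K))⁰) :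
    idealWeight 𝔪 c χ 𝔠 (I : Ideal (𝓞 K)) *
        ((Ideal.absNorm (I : Ideal (𝓞 K)) : ℝ) ^ (-s) : ℝ) =
      ((χ (c 𝔠) : ℂˣ) : ℂ) * rayTerm 𝔪 c χ s I := by
  unfold idealWeight rayTerm
  by_cases hI : IsCoprime (I : Ideal (𝓞 K)) 𝔪
  · rw [if_pos hI, Set.indicator_of_mem (show I ∈ coprimeTo 𝔪 from hI), mul_assoc]
  · rw [if_neg hI, Set.indicator_of_notMem (show I ∉ coprimeTo 𝔪 from hI), zero_mul, mul_zero]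

/-- Complex version of `hasSum_ideal_of_hasSum_ne_zero`. -/
theorem g2_hasSum_ideal_of_ne_zero (𝔠 : Ideal (𝓞 K)) (F : 𝓞 K → ℂ) (hF0 : F 0 = 0) {a : ℂ}
    (h : HasSum (fun x : {x : 𝓞 K // x ∈ 𝔠 ∧ x ≠ 0} => F (x : 𝓞 K)) a) :
    HasSum (fun x : 𝔠 => F (x : 𝓞 K)) a := by
  have h1 : HasSum (Set.indicator {x : 𝓞 K | x ∈ 𝔠 ∧ x ≠ 0} F) a :=
    (hasSum_subtype_iff_indicator (s := {x : 𝓞 K | x ∈ 𝔠 ∧ x ≠ 0}) (f := F)).mp h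
  have h2 : Set.indicator {x : 𝓞 K | x ∈ 𝔠 ∧ x ≠ 0} F = Set.indicator (𝔠 : Set (𝓞 K)) F := by
    funext x
    by_cases hx : x = 0
    · subst hx
      simp [hF0]
    · by_cases hxc : x ∈ 𝔠
      · rw [Set.indicator_of_mem (show x ∈ {x : 𝓞 K | x ∈ 𝔠 ∧ x ≠ 0} from ⟨hxc, hx⟩),
          Set.indicator_of_mem (show x ∈ (𝔠 : Set (𝓞 K)) from hxc)]
      · rw [Set.indicator_of_notMem (fun h : x ∈ {x : 𝓞 K | x ∈ 𝔠 ∧ x ≠ 0} => hxc h.1),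
          Set.indicator_of_notMem (fun h : x ∈ (𝔠 : Set (𝓞 K)) => hxc h)]
  rw [h2] at h1
  exact (hasSum_subtype_iff_indicator (s := (𝔠 : Set (𝓞 K))) (f := F)).mpr h1

/-! ### The per-class formula -/

/-- The part of the `L`-series in the class of `𝔠⁻¹`, unfolded along the elements of `𝔠` and
decomposed along the residues modulo `𝔪`. -/
theorem g2_class_formula {w : K → ℝ} {T : Finset (𝓞 K)ˣ} {B L : ℝ}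
    (hW : IsUnitWeight K w T B L) (hZ : IdealZetaAt K)
    (hc : IsRayDatum K 𝔪 c) (χ : A →* ℂˣ) (ψ : (𝓞 K ⧸ 𝔪)ˣ →* A)
    (hψ : ∀ (α : 𝓞 K) (u : (𝓞 K ⧸ 𝔪)ˣ), α ≠ 0 →
      Ideal.Quotient.mk 𝔪 α = (u : 𝓞 K ⧸ 𝔪) → c (Ideal.span {α}) = ψ u)
    (𝔠 : (Ideal (𝓞 K))⁰) (h𝔠 : IsCoprime (𝔠 : Ideal (𝓞 K)) 𝔪)
    (r : 𝓞 K ⧸ 𝔪 → 𝓞 K)
    (hr : ∀ u, r u ∈ (𝔠 : Ideal (𝓞 K)) ∧ Ideal.Quotient.mk 𝔪 (r u) = u)
    {s : ℝ} (hs : 1 < s) :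
    (((Ideal.absNorm (𝔠 : Ideal (𝓞 K)) : ℝ) ^ (-s) : ℝ) : ℂ) *
        (((χ (c (𝔠 : Ideal (𝓞 K))) : ℂˣ) : ℂ) * rayClassPart 𝔪 c χ s (ClassGroup.mk0 𝔠)⁻¹) =
      ∑' u : 𝓞 K ⧸ 𝔪, resWeight χ ψ u *
        ((∑' y : ((𝔠 : Ideal (𝓞 K)) ⊓ 𝔪 : Ideal (𝓞 K)), fs w s ((y : 𝓞 K) + r u) : ℝ) : ℂ) := by
  have h1 := os_hasSum_weighted 𝔠 w hW.nonneg hW.hasSum s (hZ.1 s hs)
    (idealWeight 𝔪 c χ (𝔠 : Ideal (𝓞 K))) (norm_idealWeight_le χ _)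
    (fun x => resWeight χ ψ (Ideal.Quotient.mk 𝔪 x))
    (fun x I hx h => resWeight_eq_idealWeight hc χ ψ hψ 𝔠 h𝔠 x I hx h)
  have h2 : (∑' I : {I : (Ideal (𝓞 K))⁰ // ClassGroup.mk0 I = (ClassGroup.mk0 𝔠)⁻¹},
      idealWeight 𝔪 c χ (𝔠 : Ideal (𝓞 K)) ((I : (Ideal (𝓞 K))⁰) : Ideal (𝓞 K)) *
        ((Ideal.absNorm ((I : (Ideal (𝓞 K))⁰) : Ideal (𝓞 K)) : ℝ) ^ (-s) : ℝ)) =
      ((χ (c (𝔠 : Ideal (𝓞 K))) : ℂˣ) : ℂ) * rayClassPart 𝔪 c χ s (ClassGroup.mk0 𝔠)⁻¹ := by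
    unfold rayClassPart
    have e1 : ∀ I : {I : (Ideal (𝓞 K))⁰ // ClassGroup.mk0 I = (ClassGroup.mk0 𝔠)⁻¹},
        idealWeight 𝔪 c χ (𝔠 : Ideal (𝓞 K)) ((I : (Ideal (𝓞 K))⁰) : Ideal (𝓞 K)) *
          ((Ideal.absNorm ((I : (Ideal (𝓞 K))⁰) : Ideal (𝓞 K)) : ℝ) ^ (-s) : ℝ) =
        ((χ (c (𝔠 : Ideal (𝓞 K))) : ℂˣ) : ℂ) * rayTerm 𝔪 c χ s (I : (Ideal (𝓞 K))⁰) :=
      fun I => idealWeight_mul_eq (𝔪 := 𝔪) (c := c) χ (𝔠 : Ideal (𝓞 K)) s (I : (Ideal (𝓞 K))⁰)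
    rw [tsum_congr e1, tsum_mul_left]
  rw [h2] at h1
  set F : 𝓞 K → ℂ := fun x =>
    resWeight χ ψ (Ideal.Quotient.mk 𝔪 x) * ((fs w s x : ℝ) : ℂ) with hFdef
  have hF0 : F 0 = 0 := by
    simp only [hFdef]
    rw [fs_zero w (by linarith : s ≠ 0)]
    simp
  have h3 : HasSum (fun x : (𝔠 : Ideal (𝓞 K)) => F (x : 𝓞 K))
      ((((Ideal.absNorm (𝔠 : Ideal (𝓞 K)) : ℝ) ^ (-s) : ℝ) : ℂ) *
        (((χ (c (𝔠 : Ideal (𝓞 K))) : ℂˣ) : ℂ) *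
          rayClassPart 𝔪 c χ s (ClassGroup.mk0 𝔠)⁻¹)) :=
    g2_hasSum_ideal_of_ne_zero (𝔠 : Ideal (𝓞 K)) F hF0 h1
  rw [← h3.tsum_eq, tsum_eq_sum_residues (𝔠 : Ideal (𝓞 K)) 𝔪 r hr F h3.summable]
  refine tsum_congr fun u => ?_
  have h4 : ∀ y : ((𝔠 : Ideal (𝓞 K)) ⊓ 𝔪 : Ideal (𝓞 K)),
      F ((y : 𝓞 K) + r u) = resWeight χ ψ u * ((fs w s ((y : 𝓞 K) + r u) : ℝ) : ℂ) := by
    intro y
    simp only [hFdef]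
    rw [map_add, Ideal.Quotient.eq_zero_iff_mem.mpr (Ideal.mem_inf.mp y.2).2, zero_add, (hr u).2]
  rw [tsum_congr h4, tsum_mul_left, Complex.ofReal_tsum]

/-! ### The per-class bound -/

theorem g2_absNorm_inf (𝔠 : Ideal (𝓞 K)) (h𝔠 : IsCoprime 𝔠 𝔪) :
    (Ideal.absNorm (𝔠 ⊓ 𝔪) : ℝ) = (Ideal.absNorm 𝔠 : ℝ) * (Ideal.absNorm 𝔪 : ℝ) := by
  rw [← Ideal.mul_eq_inf_of_isCoprime h𝔠, map_mul, Nat.cast_mul]

theorem g2_one_le_absNorm (I : Ideal (𝓞 K)) (hI : I ≠ ⊥) : (1 : ℝ) ≤ (Ideal.absNorm I : ℝ) := by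
  have h0 : Ideal.absNorm I ≠ 0 := by
    rw [Ne, Ideal.absNorm_eq_zero_iff]
    exact hI
  exact_mod_cast Nat.one_le_iff_ne_zero.mpr h0

/-- The part of the `L`-series in the class of `𝔠⁻¹` is, up to a bounded error, a multiple of the
partial zeta function of the trivial class. -/
theorem g2_class_bound {w : K → ℝ} {T : Finset (𝓞 K)ˣ} {B L : ℝ}
    (hW : IsUnitWeight K w T B L) (hF : FiberwiseAt K w) (hZ : IdealZetaAt K)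
    (h𝔪 : 𝔪 ≠ ⊥) (hc : IsRayDatum K 𝔪 c) (χ : A →* ℂˣ) (ψ : (𝓞 K ⧸ 𝔪)ˣ →* A)
    (hψ : ∀ (α : 𝓞 K) (u : (𝓞 K ⧸ 𝔪)ˣ), α ≠ 0 →
      Ideal.Quotient.mk 𝔪 α = (u : 𝓞 K ⧸ 𝔪) → c (Ideal.span {α}) = ψ u)
    [Fintype (𝓞 K ⧸ 𝔪)]
    (𝔠 : (Ideal (𝓞 K))⁰) (h𝔠 : IsCoprime (𝔠 : Ideal (𝓞 K)) 𝔪) :
    ∃ C : ℝ, ∀ s : ℝ, 1 < s → s ≤ 2 →
      ‖((χ (c (𝔠 : Ideal (𝓞 K))) : ℂˣ) : ℂ) * rayClassPart 𝔪 c χ s (ClassGroup.mk0 𝔠)⁻¹ -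
          (∑ u : 𝓞 K ⧸ 𝔪, resWeight χ ψ u) *
            (((Ideal.absNorm 𝔪 : ℝ) ^ (-s) * zetaClass K s 1 : ℝ) : ℂ)‖ ≤ C := by
  obtain ⟨r, hr⟩ := exists_residue_rep (𝔠 : Ideal (𝓞 K)) 𝔪 h𝔠
  choose Cu hCu using fun u : 𝓞 K ⧸ 𝔪 => lb_shift_sum hW hF (r u)
  have h𝔠0 : (𝔠 : Ideal (𝓞 K)) ≠ ⊥ := nonZeroDivisors.coe_ne_zero 𝔠
  have h𝔟0 : ((𝔠 : Ideal (𝓞 K)) ⊓ 𝔪 : Ideal (𝓞 K)) ≠ ⊥ := by
    rw [← Ideal.mul_eq_inf_of_isCoprime h𝔠]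
    exact mul_ne_zero h𝔠0 h𝔪
  set 𝔟 : (Ideal (𝓞 K))⁰ :=
    ⟨(𝔠 : Ideal (𝓞 K)) ⊓ 𝔪, mem_nonZeroDivisors_iff_ne_zero.mpr h𝔟0⟩ with h𝔟def
  obtain ⟨C', hC'⟩ := lb_class_diff hW hF hZ (ClassGroup.mk0 𝔟)⁻¹
  have hN1 : (1 : ℝ) ≤ (Ideal.absNorm (𝔠 : Ideal (𝓞 K)) : ℝ) := g2_one_le_absNorm _ h𝔠0
  have hM1 : (1 : ℝ) ≤ (Ideal.absNorm 𝔪 : ℝ) := g2_one_le_absNorm _ h𝔪
  have hCu0 : ∀ u, 0 ≤ Cu u := fun u =>
    (abs_nonneg _).trans (hCu u 2 (by norm_num) le_rfl ((𝔠 : Ideal (𝓞 K)) ⊓ 𝔪))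
  have hC'0 : 0 ≤ C' := (abs_nonneg _).trans (hC' 2 (by norm_num) le_rfl)
  refine ⟨(Ideal.absNorm (𝔠 : Ideal (𝓞 K)) : ℝ) ^ (2 : ℝ) * ∑ u, Cu u +
    (Fintype.card (𝓞 K ⧸ 𝔪) : ℝ) * C', fun s hs1 hs2 => ?_⟩
  have hform := g2_class_formula hW hZ hc χ ψ hψ 𝔠 h𝔠 r hr hs1
  rw [tsum_fintype] at hform
  set a : ℝ := (Ideal.absNorm (𝔠 : Ideal (𝓞 K)) : ℝ) ^ (-s) with ha
  set m : ℝ := (Ideal.absNorm 𝔪 : ℝ) ^ (-s) with hm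
  set Z₁ : ℝ := zetaClass K s 1 with hZ₁
  set Zb : ℝ := zetaClass K s (ClassGroup.mk0 𝔟)⁻¹ with hZb
  set X : ℂ := ((χ (c (𝔠 : Ideal (𝓞 K))) : ℂˣ) : ℂ) *
    rayClassPart 𝔪 c χ s (ClassGroup.mk0 𝔠)⁻¹ with hX
  set R : ℂ := ∑ u : 𝓞 K ⧸ 𝔪, resWeight χ ψ u with hR
  set S : 𝓞 K ⧸ 𝔪 → ℝ := fun u =>
    ∑' y : ((𝔠 : Ideal (𝓞 K)) ⊓ 𝔪 : Ideal (𝓞 K)), fs w s ((y : 𝓞 K) + r u) with hS
  set S₀ : ℝ := ∑' y : ((𝔠 : Ideal (𝓞 K)) ⊓ 𝔪 : Ideal (𝓞 K)), fs w s (y : 𝓞 K) with hS₀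
  have ha0 : 0 < a := Real.rpow_pos_of_pos (lt_of_lt_of_le zero_lt_one hN1) _
  have hm0 : 0 ≤ m := Real.rpow_nonneg (le_trans zero_le_one hM1) _
  have hm1 : m ≤ 1 := Real.rpow_le_one_of_one_le_of_nonpos hM1 (by linarith)
  have hS0eq : S₀ = a * (m * Zb) := by
    have h := (hasSum_fs_ideal hF 𝔟 hs1).tsum_eq
    have e : (Ideal.absNorm ((𝔟 : (Ideal (𝓞 K))⁰) : Ideal (𝓞 K)) : ℝ) =
        (Ideal.absNorm (𝔠 : Ideal (𝓞 K)) : ℝ) * (Ideal.absNorm 𝔪 : ℝ) := g2_absNorm_inf _ h𝔠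
    rw [e, Real.mul_rpow (le_trans zero_le_one hN1) (le_trans zero_le_one hM1)] at h
    rw [hS₀, ha, hm, hZb, ← mul_assoc]
    exact h
  have hSu : ∀ u, |S u - S₀| ≤ Cu u := fun u => hCu u s hs1 hs2 _
  have hZd : |Zb - Z₁| ≤ C' := hC' s hs1 hs2
  -- the key identity
  have key : (a : ℂ) * (X - R * ((m * Z₁ : ℝ) : ℂ)) =
      ∑ u : 𝓞 K ⧸ 𝔪, resWeight χ ψ u * ((S u - S₀ : ℝ) : ℂ) +
        R * ((a * m * (Zb - Z₁) : ℝ) : ℂ) := by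
    have e1 : ∑ u : 𝓞 K ⧸ 𝔪, resWeight χ ψ u * ((S u - S₀ : ℝ) : ℂ) =
        ∑ u : 𝓞 K ⧸ 𝔪, resWeight χ ψ u * ((S u : ℝ) : ℂ) - R * ((S₀ : ℝ) : ℂ) := by
      rw [hR, Finset.sum_mul, ← Finset.sum_sub_distrib]
      refine Finset.sum_congr rfl fun u _ => ?_
      push_cast
      ring
    have hform' : (a : ℂ) * X = ∑ u : 𝓞 K ⧸ 𝔪, resWeight χ ψ u * ((S u : ℝ) : ℂ) := hform
    rw [e1, mul_sub, hform', hS0eq]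
    push_cast
    ring
  have hnorm : ‖(a : ℂ) * (X - R * ((m * Z₁ : ℝ) : ℂ))‖ ≤
      ∑ u, Cu u + (Fintype.card (𝓞 K ⧸ 𝔪) : ℝ) * (a * C') := by
    rw [key]
    refine (norm_add_le _ _).trans (add_le_add ?_ ?_)
    · refine (norm_sum_le _ _).trans (Finset.sum_le_sum fun u _ => ?_)
      rw [norm_mul, Complex.norm_real, Real.norm_eq_abs]
      calc ‖resWeight χ ψ u‖ * |S u - S₀| ≤ 1 * Cu u :=
            mul_le_mul (norm_resWeight_le χ ψ u) (hSu u) (abs_nonneg _) zero_le_one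
        _ = Cu u := one_mul _
    · rw [norm_mul, Complex.norm_real, Real.norm_eq_abs]
      have hRn : ‖R‖ ≤ (Fintype.card (𝓞 K ⧸ 𝔪) : ℝ) := by
        rw [hR]
        refine (norm_sum_le _ _).trans ?_
        calc ∑ u : 𝓞 K ⧸ 𝔪, ‖resWeight χ ψ u‖ ≤ ∑ _u : 𝓞 K ⧸ 𝔪, (1 : ℝ) :=
              Finset.sum_le_sum fun u _ => norm_resWeight_le χ ψ u
          _ = (Fintype.card (𝓞 K ⧸ 𝔪) : ℝ) := by simp
      have h2 : |a * m * (Zb - Z₁)| ≤ a * C' := by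
        rw [abs_mul, abs_mul, abs_of_pos ha0, abs_of_nonneg hm0]
        calc a * m * |Zb - Z₁| ≤ a * 1 * C' :=
              mul_le_mul (mul_le_mul_of_nonneg_left hm1 ha0.le) hZd (abs_nonneg _)
                (by positivity)
          _ = a * C' := by ring
      exact mul_le_mul hRn h2 (abs_nonneg _) (Nat.cast_nonneg _)
  rw [norm_mul, Complex.norm_real, Real.norm_eq_abs, abs_of_pos ha0] at hnorm
  -- divide by `a`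
  have hainv : a⁻¹ ≤ (Ideal.absNorm (𝔠 : Ideal (𝓞 K)) : ℝ) ^ (2 : ℝ) := by
    rw [ha, Real.rpow_neg (le_trans zero_le_one hN1), inv_inv]
    exact Real.rpow_le_rpow_of_exponent_le hN1 hs2
  have hsum0 : 0 ≤ ∑ u, Cu u := Finset.sum_nonneg fun u _ => hCu0 u
  have h3 : ‖X - R * ((m * Z₁ : ℝ) : ℂ)‖ ≤
      a⁻¹ * (∑ u, Cu u + (Fintype.card (𝓞 K ⧸ 𝔪) : ℝ) * (a * C')) := by
    rw [← mul_le_mul_iff_right₀ ha0, ← mul_assoc, mul_inv_cancel₀ ha0.ne', one_mul]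
    exact hnorm
  calc ‖X - R * ((m * Z₁ : ℝ) : ℂ)‖
      ≤ a⁻¹ * (∑ u, Cu u + (Fintype.card (𝓞 K ⧸ 𝔪) : ℝ) * (a * C')) := h3
    _ = a⁻¹ * ∑ u, Cu u + (Fintype.card (𝓞 K ⧸ 𝔪) : ℝ) * C' := by
        field_simp
    _ ≤ (Ideal.absNorm (𝔠 : Ideal (𝓞 K)) : ℝ) ^ (2 : ℝ) * ∑ u, Cu u +
          (Fintype.card (𝓞 K ⧸ 𝔪) : ℝ) * C' := by
        have := mul_le_mul_of_nonneg_right hainv hsum0
        linarith

/-! ### The character sums -/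

theorem g2_resWeight_sum_eq_zero (χ : A →* ℂˣ) (ψ : (𝓞 K ⧸ 𝔪)ˣ →* A) [Fintype (𝓞 K ⧸ 𝔪)]
    (v : (𝓞 K ⧸ 𝔪)ˣ) (hv : χ (ψ v) ≠ 1) : ∑ u : 𝓞 K ⧸ 𝔪, resWeight χ ψ u = 0 := by
  have h1 : ∑ u : 𝓞 K ⧸ 𝔪, resWeight χ ψ u =
      ∑ u : 𝓞 K ⧸ 𝔪, resWeight χ ψ ((v : 𝓞 K ⧸ 𝔪) * u) :=
    (Fintype.sum_equiv (Units.mulLeft v) (fun u => resWeight χ ψ ((v : 𝓞 K ⧸ 𝔪) * u))
      (resWeight χ ψ) (fun u => rfl)).symm
  have h2 : ∑ u : 𝓞 K ⧸ 𝔪, resWeight χ ψ ((v : 𝓞 K ⧸ 𝔪) * u) =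
      ((χ (ψ v) : ℂˣ) : ℂ) * ∑ u : 𝓞 K ⧸ 𝔪, resWeight χ ψ u := by
    rw [Finset.mul_sum]
    exact Finset.sum_congr rfl fun u _ => resWeight_unit_mul χ ψ v u
  have h3 : (1 - ((χ (ψ v) : ℂˣ) : ℂ)) * ∑ u : 𝓞 K ⧸ 𝔪, resWeight χ ψ u = 0 := by
    rw [sub_mul, one_mul, ← h2, ← h1, sub_self]
  rcases mul_eq_zero.mp h3 with h4 | h4
  · exfalso
    apply hv
    apply Units.ext
    rw [Units.val_one]
    exact (sub_eq_zero.mp h4).symm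
  · exact h4

/-- If `χ ∘ ψ = 1`, then `χ ∘ c` is constant on the coprime ideals of an ideal class. -/
theorem g2_char_class_value (hc : IsRayDatum K 𝔪 c) (χ : A →* ℂˣ) (ψ : (𝓞 K ⧸ 𝔪)ˣ →* A)
    (hψ : ∀ (α : 𝓞 K) (u : (𝓞 K ⧸ 𝔪)ˣ), α ≠ 0 →
      Ideal.Quotient.mk 𝔪 α = (u : 𝓞 K ⧸ 𝔪) → c (Ideal.span {α}) = ψ u)
    (hB : ∀ v : (𝓞 K ⧸ 𝔪)ˣ, χ (ψ v) = 1)
    (I J : (Ideal (𝓞 K))⁰) (hI : IsCoprime (I : Ideal (𝓞 K)) 𝔪)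
    (hJ : IsCoprime (J : Ideal (𝓞 K)) 𝔪) (hIJ : ClassGroup.mk0 J = (ClassGroup.mk0 I)⁻¹) :
    χ (c (I : Ideal (𝓞 K))) = (χ (c (J : Ideal (𝓞 K))))⁻¹ := by
  have h1 : ClassGroup.mk0 (I * J) = 1 := by
    rw [map_mul, hIJ, mul_inv_cancel]
  have h2 : (((I * J : (Ideal (𝓞 K))⁰)) : Ideal (𝓞 K)).IsPrincipal :=
    (ClassGroup.mk0_eq_one_iff (I * J).2).mp h1
  obtain ⟨x, hx⟩ := h2.principal
  have hx' : (I : Ideal (𝓞 K)) * (J : Ideal (𝓞 K)) = Ideal.span {x} := hx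
  have hI0 : (I : Ideal (𝓞 K)) ≠ ⊥ := nonZeroDivisors.coe_ne_zero I
  have hJ0 : (J : Ideal (𝓞 K)) ≠ ⊥ := nonZeroDivisors.coe_ne_zero J
  have hx0 : x ≠ 0 := by
    rintro rfl
    have : (I : Ideal (𝓞 K)) * (J : Ideal (𝓞 K)) = ⊥ := by
      rw [hx']; exact Ideal.span_singleton_eq_bot.mpr rfl
    exact mul_ne_zero hI0 hJ0 this
  have hxc : IsCoprime (Ideal.span {x}) 𝔪 := by
    rw [← hx']; exact IsCoprime.mul_left hI hJ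
  have hu : IsUnit (Ideal.Quotient.mk 𝔪 x) := (isCoprime_span_singleton_iff 𝔪 x).mp hxc
  have h3 : c (Ideal.span {x}) = ψ hu.unit := hψ x hu.unit hx0 hu.unit_spec.symm
  have h4 : c (Ideal.span {x}) = c (I : Ideal (𝓞 K)) * c (J : Ideal (𝓞 K)) := by
    rw [← hx', hc.map_mul _ _ hI0 hJ0 hI hJ]
  have h5 : χ (c (I : Ideal (𝓞 K))) * χ (c (J : Ideal (𝓞 K))) = 1 := by
    rw [← map_mul, ← h4, h3, hB]
  exact eq_inv_of_mul_eq_one_left h5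

theorem g2_char_sums_zero (hc : IsRayDatum K 𝔪 c) (χ : A →* ℂˣ) (hχ : χ ≠ 1)
    (ψ : (𝓞 K ⧸ 𝔪)ˣ →* A)
    (hψ : ∀ (α : 𝓞 K) (u : (𝓞 K ⧸ 𝔪)ˣ), α ≠ 0 →
      Ideal.Quotient.mk 𝔪 α = (u : 𝓞 K ⧸ 𝔪) → c (Ideal.span {α}) = ψ u)
    [Fintype (𝓞 K ⧸ 𝔪)]
    (𝔠 : ClassGroup (𝓞 K) → (Ideal (𝓞 K))⁰)
    (h𝔠cop : ∀ g, IsCoprime ((𝔠 g : (Ideal (𝓞 K))⁰) : Ideal (𝓞 K)) 𝔪)
    (h𝔠cl : ∀ g, ClassGroup.mk0 (𝔠 g) = g⁻¹) :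
    (∑ g : ClassGroup (𝓞 K), (((χ (c ((𝔠 g : (Ideal (𝓞 K))⁰) : Ideal (𝓞 K)))) : ℂˣ) : ℂ)⁻¹) *
      (∑ u : 𝓞 K ⧸ 𝔪, resWeight χ ψ u) = 0 := by
  by_cases hA : ∃ v : (𝓞 K ⧸ 𝔪)ˣ, χ (ψ v) ≠ 1
  · obtain ⟨v, hv⟩ := hA
    rw [g2_resWeight_sum_eq_zero χ ψ v hv, mul_zero]
  · have hB : ∀ v : (𝓞 K ⧸ 𝔪)ˣ, χ (ψ v) = 1 := by
      intro v
      by_contra h
      exact hA ⟨v, h⟩
    -- the value of `χ ∘ c` on a coprime ideal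
    have hval : ∀ I : (Ideal (𝓞 K))⁰, IsCoprime (I : Ideal (𝓞 K)) 𝔪 →
        ((χ (c (I : Ideal (𝓞 K))) : ℂˣ) : ℂ) =
          (((χ (c ((𝔠 (ClassGroup.mk0 I) : (Ideal (𝓞 K))⁰) : Ideal (𝓞 K)))) : ℂˣ) : ℂ)⁻¹ := by
      intro I hI
      rw [g2_char_class_value hc χ ψ hψ hB I (𝔠 (ClassGroup.mk0 I)) hI (h𝔠cop _) (h𝔠cl _),
        Units.val_inv_eq_inv_val]
    -- an ideal on which `χ ∘ c` is not `1`
    have hex : ∃ a : A, χ a ≠ 1 := by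
      by_contra h
      apply hχ
      ext a
      by_contra h'
      exact h ⟨a, fun h'' => h' (by rw [h'']; rfl)⟩
    obtain ⟨a, ha⟩ := hex
    obtain ⟨I₀, hI₀0, hI₀c, hI₀a⟩ := hc.surj a
    set I₀' : (Ideal (𝓞 K))⁰ := ⟨I₀, mem_nonZeroDivisors_iff_ne_zero.mpr hI₀0⟩ with hI₀'
    set t : ClassGroup (𝓞 K) → ℂ := fun g =>
      (((χ (c ((𝔠 g : (Ideal (𝓞 K))⁰) : Ideal (𝓞 K)))) : ℂˣ) : ℂ)⁻¹ with ht
    have ht0 : t (ClassGroup.mk0 I₀') ≠ 1 := by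
      have h1 := hval I₀' hI₀c
      simp only [ht]
      rw [← h1]
      intro h2
      apply ha
      apply Units.ext
      rw [Units.val_one, ← hI₀a]
      exact h2
    have hshift : ∀ g, t (ClassGroup.mk0 I₀' * g) = t (ClassGroup.mk0 I₀') * t g := by
      intro g
      -- a coprime ideal in the class `g`
      set J : (Ideal (𝓞 K))⁰ := 𝔠 g⁻¹ with hJ
      have hJcl : ClassGroup.mk0 J = g := by rw [hJ, h𝔠cl, inv_inv]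
      have hJc : IsCoprime (J : Ideal (𝓞 K)) 𝔪 := h𝔠cop _
      have hIJc : IsCoprime (((I₀' * J : (Ideal (𝓞 K))⁰)) : Ideal (𝓞 K)) 𝔪 :=
        IsCoprime.mul_left hI₀c hJc
      have h1 := hval (I₀' * J) hIJc
      have h2 := hval J hJc
      have h3 := hval I₀' hI₀c
      rw [map_mul, hJcl] at h1
      rw [hJcl] at h2
      simp only [ht]
      rw [← h1, ← h2, ← h3]
      have h4 : c (((I₀' * J : (Ideal (𝓞 K))⁰)) : Ideal (𝓞 K)) =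
          c (I₀' : Ideal (𝓞 K)) * c (J : Ideal (𝓞 K)) :=
        hc.map_mul _ _ hI₀0 (nonZeroDivisors.coe_ne_zero J) hI₀c hJc
      rw [h4, map_mul, Units.val_mul]
    rw [g2_sum_eq_zero_of_shift t (ClassGroup.mk0 I₀') _ ht0 hshift, zero_mul]

/-! ### The theorem -/

/-- **G2-L**, from the three analytic statements of S14. -/
theorem rayLBounded_of_pieces (hU : UnitWeightStatement) (hZs : IdealZetaStatement)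
    (hFs : FiberwiseStatement) : RayLBoundedStatement := by
  intro K _ _ 𝔪 h𝔪 A _ _ c hc χ hχ
  obtain ⟨w, T, B, L, hB, hL, h0, h1, hsum, hcov, hsupp, hlip⟩ := hU K
  have hW : IsUnitWeight K w T B L := ⟨hB, hL, h0, h1, hsum, hcov, hsupp, hlip⟩
  have hZ : IdealZetaAt K := hZs K
  have hF : FiberwiseAt K w := hFs K w h0 hsum
  obtain ⟨ψ, hψ⟩ := exists_residue_hom hc
  haveI : Finite (𝓞 K ⧸ 𝔪) := Ideal.finiteQuotientOfFreeOfNeBot 𝔪 h𝔪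
  letI : Fintype (𝓞 K ⧸ 𝔪) := Fintype.ofFinite _
  choose 𝔠 h𝔠cop h𝔠cl using fun g : ClassGroup (𝓞 K) => exists_coprime_rep K 𝔪 h𝔪 g⁻¹
  choose Cg hCg using fun g : ClassGroup (𝓞 K) =>
    g2_class_bound hW hF hZ h𝔪 hc χ ψ hψ (𝔠 g) (h𝔠cop g)
  refine ⟨∑ g, Cg g, fun s hs1 hs2 => ?_⟩
  rw [g2_rayL_eq_sum χ hs1]
  set R : ℂ := ∑ u : 𝓞 K ⧸ 𝔪, resWeight χ ψ u with hR
  set t : ClassGroup (𝓞 K) → ℂ := fun g =>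
    (((χ (c ((𝔠 g : (Ideal (𝓞 K))⁰) : Ideal (𝓞 K)))) : ℂˣ) : ℂ)⁻¹ with ht
  set Y : ℂ := (((Ideal.absNorm 𝔪 : ℝ) ^ (-s) * zetaClass K s 1 : ℝ) : ℂ) with hY
  have hzero : (∑ g, t g) * R = 0 := g2_char_sums_zero hc χ hχ ψ hψ 𝔠 h𝔠cop h𝔠cl
  have hg : ∀ g, rayClassPart 𝔪 c χ s g =
      t g * (((χ (c ((𝔠 g : (Ideal (𝓞 K))⁰) : Ideal (𝓞 K))) : ℂˣ) : ℂ) *
        rayClassPart 𝔪 c χ s (ClassGroup.mk0 (𝔠 g))⁻¹ - R * Y) + t g * R * Y := by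
    intro g
    have e : (ClassGroup.mk0 (𝔠 g))⁻¹ = g := by rw [h𝔠cl, inv_inv]
    rw [e]
    simp only [ht]
    have hne : ((χ (c ((𝔠 g : (Ideal (𝓞 K))⁰) : Ideal (𝓞 K))) : ℂˣ) : ℂ) ≠ 0 :=
      Units.ne_zero _
    field_simp
    ring
  have hsum : ∑ g, rayClassPart 𝔪 c χ s g =
      ∑ g, t g * (((χ (c ((𝔠 g : (Ideal (𝓞 K))⁰) : Ideal (𝓞 K))) : ℂˣ) : ℂ) *
        rayClassPart 𝔪 c χ s (ClassGroup.mk0 (𝔠 g))⁻¹ - R * Y) := by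
    have e1 : ∑ g, t g * R * Y = 0 := by
      rw [← Finset.sum_mul, ← Finset.sum_mul, hzero, zero_mul]
    rw [Finset.sum_congr rfl fun g _ => hg g, Finset.sum_add_distrib, e1, add_zero]
  rw [hsum]
  refine (norm_sum_le _ _).trans (Finset.sum_le_sum fun g _ => ?_)
  rw [norm_mul]
  have htn : ‖t g‖ = 1 := by
    simp only [ht]
    rw [norm_inv, gp_norm_char, inv_one]
  rw [htn, one_mul]
  exact hCg g s hs1 hs2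

/-- **G2-L**: the `L`-series of a nontrivial ray class character is bounded on `(1, 2]`. -/
theorem rayLBoundedStatement : RayLBoundedStatement :=
  rayLBounded_of_pieces unitWeightStatement idealZetaStatement
    (fiberwise_of_idealZeta idealZetaStatement)

end RayL

end Fermat.Agent.PT.G2
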