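/-
PT-G2, piece N (helper88): the norm form of the second inequality.

A prime `w` of `L` above `v` with `N w = N v` has relative norm `v`; so a ray datum killing the
relative norms of the primes of `L` kills all the split primes.

* `g2n_relNorm_eq_of_absNorm_eq` : `relNorm w = v` if `w ∩ 𝓞 K = v` and `N w = N v`.
* `secondInequalityNorm_of : SecondInequalityStatement → SecondInequalityNormStatement`.
-/
import Fermat.Agent.PT.G2.Plan

set_option autoImplicit false

open NumberField IsDedekindDomain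
open scoped nonZeroDivisors

namespace Fermat.Agent.PT.G2

theorem g2n_two_le_absNorm {K : Type} [Field K] [NumberField K] (v : HeightOneSpectrum (𝓞 K)) :
    2 ≤ Ideal.absNorm v.asIdeal := by
  have h0 : Ideal.absNorm v.asIdeal ≠ 0 := by
    rw [Ne, Ideal.absNorm_eq_zero_iff]; exact v.ne_bot
  have h1 : Ideal.absNorm v.asIdeal ≠ 1 := by
    rw [Ne, Ideal.absNorm_eq_one_iff]; exact v.isPrime.ne_top
  omega

theorem g2n_relNorm_eq_of_absNorm_eq {K L : Type} [Field K] [NumberField K] [Field L]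
    [NumberField L] [Algebra K L] (v : HeightOneSpectrum (𝓞 K)) (w : HeightOneSpectrum (𝓞 L))
    (hcomap : Ideal.comap (algebraMap (𝓞 K) (𝓞 L)) w.asIdeal = v.asIdeal)
    (hnorm : Ideal.absNorm w.asIdeal = Ideal.absNorm v.asIdeal) :
    Ideal.relNorm (𝓞 K) w.asIdeal = v.asIdeal := by
  have hlies : w.asIdeal.LiesOver v.asIdeal := ⟨hcomap.symm⟩
  have hprime := v.isPrime
  obtain ⟨s, hs⟩ := Ideal.exists_relNorm_eq_pow_of_isPrime w.asIdeal v.asIdeal
  have h1 : Ideal.absNorm (Ideal.relNorm (𝓞 K) w.asIdeal) = Ideal.absNorm w.asIdeal :=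
    Ideal.absNorm_relNorm (R := 𝓞 K) (I := w.asIdeal)
  rw [hs, map_pow, hnorm] at h1
  have h2 : 2 ≤ Ideal.absNorm v.asIdeal := g2n_two_le_absNorm v
  have hs1 : s = 1 := Nat.pow_right_injective h2 (h1.trans (pow_one _).symm)
  rw [hs, hs1, pow_one]

/-- **PT-G2, piece N**: the second inequality in norm form. -/
theorem secondInequalityNorm_of (h : SecondInequalityStatement) :
    SecondInequalityNormStatement := by
  intro K L _ _ _ _ _ 𝔪 h𝔪 A _ c hc hnorm
  refine h K L 𝔪 h𝔪 A c hc (fun v hv => ?_)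
  obtain ⟨hcop, w, hcomap, hN⟩ := hv
  have h1 := hnorm w (by rw [hcomap]; exact hcop)
  rwa [g2n_relNorm_eq_of_absNorm_eq v w hcomap hN] at h1

end Fermat.Agent.PT.G2
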