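import Fermat.Agent.PT.G2.Plan
import Fermat.Agent.S14.GoodPrimeFinal

/-!
# Project PT, piece G2-D: density of the split primes (product form)

`splitDensityStatement : SplitDensityStatement`: for a finite extension `L / K` of number fields
and a nonzero ideal `𝔪` of `𝓞 K` there is `c₁ > 0` such that for every `s ∈ (1, 2]` there is a
finite set `T` of primes `v ∤ 𝔪` of `K`, each with a prime of `L` of the same absolute norm above
it, with `c₁ / (s - 1) ≤ (∏_{v ∈ T} (1 - N v ^ (-s))⁻¹) ^ [L : K]`.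

Proof: Euler product of `ζ_L` (`S14.hasProd_zeta`), lower bound `ζ_L(s) ≥ c / (s - 1)`
(`S14.exists_le_zeta`); the primes `w` of `L` whose norm is not a prime number contribute a
bounded factor (`S14.exists_prod_not_prime_le`), the finitely many primes `w` over `𝔪` contribute
a factor `≤ 2` each; the remaining `w` have `N w = N (w ∩ 𝓞 K)`, and there are at most `[L : K]`
of them over each prime of `K`.
-/

set_option autoImplicit false

open NumberField IsDedekindDomain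
open scoped nonZeroDivisors

namespace Fermat.Agent.PT.G2

section SD

variable (K L : Type) [Field K] [NumberField K] [Field L] [NumberField L] [Algebra K L]

/-- The prime of `K` below a prime of `L`. -/
noncomputable def sdUnder (w : HeightOneSpectrum (𝓞 L)) : HeightOneSpectrum (𝓞 K) :=
  w.under (𝓞 K)

omit [NumberField K] [NumberField L] in
theorem sdUnder_asIdeal (w : HeightOneSpectrum (𝓞 L)) :
    (sdUnder K L w).asIdeal = Ideal.comap (algebraMap (𝓞 K) (𝓞 L)) w.asIdeal := rfl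

/-- `N w = N v ^ f` for `v` the prime below `w`. -/
theorem sd_absNorm_eq_pow (w : HeightOneSpectrum (𝓞 L)) :
    Ideal.absNorm w.asIdeal =
      Ideal.absNorm (sdUnder K L w).asIdeal ^ (w.asIdeal.inertiaDeg (𝓞 K)) := by
  have h1 := w.isMaximal
  have h2 := (sdUnder K L w).isMaximal
  have h3 : w.asIdeal.LiesOver (sdUnder K L w).asIdeal := ⟨rfl⟩
  have h4 := Ideal.relNorm_eq_pow_of_isMaximal w.asIdeal (sdUnder K L w).asIdeal
  have h5 := Ideal.absNorm_relNorm (𝓞 K) (𝓞 L) w.asIdeal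
  rw [← h5, h4, map_pow]

/-- If `N w` is a prime number then `N v = N w` for `v` the prime below `w`. -/
theorem sd_absNorm_eq_of_prime (w : HeightOneSpectrum (𝓞 L))
    (hw : (Ideal.absNorm w.asIdeal).Prime) :
    Ideal.absNorm w.asIdeal = Ideal.absNorm (sdUnder K L w).asIdeal := by
  have h := sd_absNorm_eq_pow K L w
  have hpos : 0 < w.asIdeal.inertiaDeg (𝓞 K) := by
    have := w.isPrime
    exact Ideal.inertiaDeg_pos w.asIdeal (𝓞 K)
  have h2 : 2 ≤ Ideal.absNorm (sdUnder K L w).asIdeal :=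
    Fermat.Agent.S14.gp_two_le_absNorm (sdUnder K L w)
  have hdvd : Ideal.absNorm (sdUnder K L w).asIdeal ∣ Ideal.absNorm w.asIdeal := by
    rw [h]
    exact dvd_pow_self _ hpos.ne'
  rcases (Nat.dvd_prime hw).mp hdvd with h1 | h1
  · omega
  · exact h1.symm

/-- The primes of `L` lying over a prime of `K` which is not coprime to `𝔪` are finite in
number. -/
theorem sd_bad_finite (𝔪 : Ideal (𝓞 K)) (h𝔪 : 𝔪 ≠ ⊥) :
    {w : HeightOneSpectrum (𝓞 L) | ¬ IsCoprime (sdUnder K L w).asIdeal 𝔪}.Finite := by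
  have hinj : Function.Injective (algebraMap (𝓞 K) (𝓞 L)) :=
    FaithfulSMul.algebraMap_injective (𝓞 K) (𝓞 L)
  have hmap : Ideal.map (algebraMap (𝓞 K) (𝓞 L)) 𝔪 ≠ 0 := by
    intro h
    exact h𝔪 ((Ideal.map_eq_bot_iff_of_injective hinj).mp h)
  refine (Ideal.finite_factors hmap).subset ?_
  intro w hw
  have hw' : ¬ IsCoprime (sdUnder K L w).asIdeal 𝔪 := hw
  show w.asIdeal ∣ Ideal.map (algebraMap (𝓞 K) (𝓞 L)) 𝔪
  rw [Ideal.dvd_iff_le, Ideal.map_le_iff_le_comap, ← sdUnder_asIdeal]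
  rw [Ideal.isCoprime_iff_sup_eq] at hw'
  have heq := (sdUnder K L w).isMaximal.eq_of_le hw' le_sup_left
  calc 𝔪 ≤ (sdUnder K L w).asIdeal ⊔ 𝔪 := le_sup_right
    _ = (sdUnder K L w).asIdeal := heq.symm

/-- At most `[L : K]` primes of `L` lie over a given prime of `K`. -/
theorem sd_card_fiber_le (T : Finset (HeightOneSpectrum (𝓞 L))) (v : HeightOneSpectrum (𝓞 K))
    [DecidablePred fun w : HeightOneSpectrum (𝓞 L) => sdUnder K L w = v] :
    (T.filter (fun w => sdUnder K L w = v)).card ≤ Module.finrank K L := by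
  classical
  have hv0 : v.asIdeal ≠ ⊥ := v.ne_bot
  have hmax : v.asIdeal.IsMaximal := v.isMaximal
  have : NoZeroSMulDivisors (𝓞 K) (𝓞 L) := ⟨fun {c x} h => by
    rw [Algebra.smul_def, mul_eq_zero] at h
    rcases h with h | h
    · left
      exact (FaithfulSMul.algebraMap_injective (𝓞 K) (𝓞 L)) (by rw [h, map_zero])
    · right
      exact h⟩
  have hcard := Ideal.card_primesOverFinset_le_finrank (R := 𝓞 K) (S := 𝓞 L) (K := K) (L := L)
    (p := v.asIdeal) hv0
  refine le_trans ?_ hcard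
  refine Finset.card_le_card_of_injOn (fun w => w.asIdeal) ?_ ?_
  · intro w hw
    have hwv : sdUnder K L w = v := (Finset.mem_filter.mp hw).2
    rw [Finset.mem_coe, IsDedekindDomain.mem_primesOverFinset_iff hv0]
    refine ⟨w.isPrime, ⟨?_⟩⟩
    rw [← hwv]
    rfl
  · intro w _ w' _ hww'
    exact HeightOneSpectrum.ext hww'

end SD

section Factor

variable {F : Type} [Field F] [NumberField F]

theorem sd_factor_pos (v : HeightOneSpectrum (𝓞 F)) {s : ℝ} (hs : 1 ≤ s) :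
    0 < (1 - (Ideal.absNorm v.asIdeal : ℝ) ^ (-s))⁻¹ := by
  have := Fermat.Agent.S14.gp_x_le_half v hs
  exact inv_pos.mpr (by linarith)

theorem sd_factor_one_le (v : HeightOneSpectrum (𝓞 F)) {s : ℝ} (hs : 1 ≤ s) :
    1 ≤ (1 - (Ideal.absNorm v.asIdeal : ℝ) ^ (-s))⁻¹ := by
  have h1 := Fermat.Agent.S14.gp_x_le_half v hs
  have h2 := Fermat.Agent.S14.gp_x_pos v s
  rw [one_le_inv₀ (by linarith)]
  linarith

theorem sd_factor_le_two (v : HeightOneSpectrum (𝓞 F)) {s : ℝ} (hs : 1 ≤ s) :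
    (1 - (Ideal.absNorm v.asIdeal : ℝ) ^ (-s))⁻¹ ≤ 2 := by
  have h1 := Fermat.Agent.S14.gp_x_le_half v hs
  rw [inv_le_comm₀ (by linarith) (by norm_num)]
  linarith

end Factor

/-- **G2-D**: density of the split primes, in product form. -/
theorem splitDensityStatement : SplitDensityStatement := by
  classical
  intro K L _ _ _ _ _ 𝔪 h𝔪
  obtain ⟨c, hc, hzeta⟩ := Fermat.Agent.S14.exists_le_zeta L
  obtain ⟨C₂, hC₂⟩ := Fermat.Agent.S14.exists_prod_not_prime_le L
  have hC₂1 : 1 ≤ C₂ := by simpa using hC₂ 1 le_rfl ∅ (by simp)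
  have hC₂pos : 0 < C₂ := by linarith
  set B : Finset (HeightOneSpectrum (𝓞 L)) := (sd_bad_finite K L 𝔪 h𝔪).toFinset with hB
  have hBmem : ∀ w : HeightOneSpectrum (𝓞 L), w ∈ B ↔ ¬ IsCoprime (sdUnder K L w).asIdeal 𝔪 := by
    intro w
    rw [hB, Set.Finite.mem_toFinset]
    exact Iff.rfl
  refine ⟨c / (2 * C₂ * 2 ^ B.card), by positivity, fun s hs1 hs2 => ?_⟩
  have hs0 : 0 < s - 1 := by linarith
  set g : HeightOneSpectrum (𝓞 L) → ℝ :=
    fun w => (1 - (Ideal.absNorm w.asIdeal : ℝ) ^ (-s))⁻¹ with hg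
  set gK : HeightOneSpectrum (𝓞 K) → ℝ :=
    fun v => (1 - (Ideal.absNorm v.asIdeal : ℝ) ^ (-s))⁻¹ with hgK
  set Z : ℝ := ∑' I : nonZeroDivisors (Ideal (𝓞 L)),
    (Ideal.absNorm (I : Ideal (𝓞 L)) : ℝ) ^ (-s) with hZ
  have hZc : c / (s - 1) ≤ Z := hzeta s hs1 hs2
  have hZpos : 0 < Z := lt_of_lt_of_le (div_pos hc hs0) hZc
  have hprod : HasProd g Z := Fermat.Agent.S14.hasProd_zeta L hs1
  have hgpos : ∀ w, 0 < g w := fun w => sd_factor_pos w hs1.le
  have hg1 : ∀ w, 1 ≤ g w := fun w => sd_factor_one_le w hs1.le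
  have hg2 : ∀ w, g w ≤ 2 := fun w => sd_factor_le_two w hs1.le
  have hgK1 : ∀ v, 1 ≤ gK v := fun v => sd_factor_one_le v hs1.le
  -- a finite partial product exceeding `Z / 2`
  obtain ⟨TL, hTL⟩ : ∃ TL : Finset (HeightOneSpectrum (𝓞 L)), Z / 2 < ∏ w ∈ TL, g w := by
    have hev : ∀ᶠ T : Finset (HeightOneSpectrum (𝓞 L)) in Filter.atTop,
        Z / 2 < ∏ w ∈ T, g w :=
      hprod.eventually (lt_mem_nhds (by linarith))
    exact hev.exists
  -- split `TL`
  set T1 := TL.filter (fun w => ¬ (Ideal.absNorm w.asIdeal).Prime) with hT1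
  set T0 := TL.filter (fun w => ¬ ¬ (Ideal.absNorm w.asIdeal).Prime) with hT0
  set T2 := T0.filter (fun w => ¬ IsCoprime (sdUnder K L w).asIdeal 𝔪) with hT2
  set T3 := T0.filter (fun w => ¬ ¬ IsCoprime (sdUnder K L w).asIdeal 𝔪) with hT3
  have hsplit1 : (∏ w ∈ T1, g w) * ∏ w ∈ T0, g w = ∏ w ∈ TL, g w :=
    Finset.prod_filter_mul_prod_filter_not TL _ g
  have hsplit2 : (∏ w ∈ T2, g w) * ∏ w ∈ T3, g w = ∏ w ∈ T0, g w :=
    Finset.prod_filter_mul_prod_filter_not T0 _ g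
  have hP1 : ∏ w ∈ T1, g w ≤ C₂ :=
    hC₂ s hs1.le T1 (fun w hw => (Finset.mem_filter.mp hw).2)
  have hP2 : ∏ w ∈ T2, g w ≤ 2 ^ B.card := by
    calc ∏ w ∈ T2, g w ≤ ∏ _w ∈ T2, (2 : ℝ) :=
          Finset.prod_le_prod (fun w _ => (hgpos w).le) (fun w _ => hg2 w)
      _ = 2 ^ T2.card := by rw [Finset.prod_const]
      _ ≤ 2 ^ B.card := by
          refine pow_le_pow_right₀ (by norm_num) (Finset.card_le_card ?_)
          intro w hw
          exact (hBmem w).mpr (Finset.mem_filter.mp hw).2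
  -- the good primes
  have hT3mem : ∀ w ∈ T3, (Ideal.absNorm w.asIdeal).Prime ∧
      IsCoprime (sdUnder K L w).asIdeal 𝔪 := by
    intro w hw
    obtain ⟨hw0, hw3⟩ := Finset.mem_filter.mp hw
    exact ⟨not_not.mp (Finset.mem_filter.mp hw0).2, not_not.mp hw3⟩
  set T : Finset (HeightOneSpectrum (𝓞 K)) := T3.image (sdUnder K L) with hT
  have hP3 : ∏ w ∈ T3, g w ≤ (∏ v ∈ T, gK v) ^ (Module.finrank K L) := by
    have h1 : ∏ w ∈ T3, g w = ∏ w ∈ T3, gK (sdUnder K L w) := by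
      refine Finset.prod_congr rfl (fun w hw => ?_)
      simp only [hg, hgK]
      rw [sd_absNorm_eq_of_prime K L w (hT3mem w hw).1]
    rw [h1, Finset.prod_comp gK (sdUnder K L), ← Finset.prod_pow]
    refine Finset.prod_le_prod (fun v _ => pow_nonneg (le_trans zero_le_one (hgK1 v)) _)
      (fun v _ => ?_)
    exact pow_le_pow_right₀ (hgK1 v) (sd_card_fiber_le K L T3 v)
  refine ⟨T, ?_, ?_⟩
  · intro v hv
    obtain ⟨w, hw, rfl⟩ := Finset.mem_image.mp hv
    exact ⟨(hT3mem w hw).2, w, rfl, sd_absNorm_eq_of_prime K L w (hT3mem w hw).1⟩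
  · have hP3nn : 0 ≤ ∏ w ∈ T3, g w := Finset.prod_nonneg (fun w _ => (hgpos w).le)
    have hP2nn : 0 ≤ ∏ w ∈ T2, g w := Finset.prod_nonneg (fun w _ => (hgpos w).le)
    have hP0nn : 0 ≤ ∏ w ∈ T0, g w := Finset.prod_nonneg (fun w _ => (hgpos w).le)
    set X := (∏ v ∈ T, gK v) ^ (Module.finrank K L) with hX
    have hXnn : 0 ≤ X := le_trans hP3nn hP3
    have hchain : Z / 2 < C₂ * (2 ^ B.card * X) := by
      calc Z / 2 < ∏ w ∈ TL, g w := hTL
        _ = (∏ w ∈ T1, g w) * ∏ w ∈ T0, g w := hsplit1.symm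
        _ ≤ C₂ * ∏ w ∈ T0, g w := mul_le_mul_of_nonneg_right hP1 hP0nn
        _ = C₂ * ((∏ w ∈ T2, g w) * ∏ w ∈ T3, g w) := by rw [hsplit2]
        _ ≤ C₂ * (2 ^ B.card * X) := by
            refine mul_le_mul_of_nonneg_left ?_ hC₂pos.le
            exact mul_le_mul hP2 hP3 hP3nn (by positivity)
    have hden : 0 < 2 * C₂ * 2 ^ B.card := by positivity
    rw [div_div, div_le_iff₀ (by positivity)]
    have h1 : c ≤ Z * (s - 1) := by
      rwa [div_le_iff₀ hs0] at hZc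
    calc c ≤ Z * (s - 1) := h1
      _ ≤ (2 * (C₂ * (2 ^ B.card * X))) * (s - 1) := by
          refine mul_le_mul_of_nonneg_right ?_ hs0.le
          linarith
      _ = X * (2 * C₂ * 2 ^ B.card * (s - 1)) := by ring

end Fermat.Agent.PT.G2
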