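import Fermat.Agent.PT.G2.SecondInequality
import Fermat.Agent.PT.G2.SecondInequalityNorm
import Fermat.Agent.PT.G2.RayFinite
import Fermat.Agent.PT.G2.RayLBounded
import Fermat.Agent.PT.G2.RayEuler
import Fermat.Agent.PT.G2.SplitDensity

/-!
# Project PT, piece G2: the second inequality (unconditional)

* `secondInequalityStatement : SecondInequalityStatement` — for every finite extension `L / K` of
  number fields, every nonzero modulus `𝔪` and every ray datum `c : Ideal (𝓞 K) → A` modulo `𝔪`
  which kills the primes `v ∤ 𝔪` of `K` having a prime of `L` of residue degree one above them:
  `A` is finite and `#A ≤ [L : K]`.
* `secondInequalityNormStatement : SecondInequalityNormStatement` — the same for a ray datum which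
  kills the relative norms of the primes of `L`.
-/

set_option autoImplicit false

namespace Fermat.Agent.PT.G2

/-- **Second inequality** of class field theory, ideal-theoretic form. -/
theorem secondInequalityStatement : SecondInequalityStatement :=
  secondInequality_of_pieces rayFiniteStatement rayLBoundedStatement rayEulerStatement
    splitDensityStatement

/-- **Second inequality** of class field theory, norm form. -/
theorem secondInequalityNormStatement : SecondInequalityNormStatement :=
  secondInequalityNorm_of secondInequalityStatement

end Fermat.Agent.PT.G2
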