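/-
PT-G2 part 2, piece G2I-core (helper75): the second inequality for an idèle-class quotient,
`stmtIdelicCore_of : StmtWeakApprox → StmtSemiInt → StmtIdelicCore`.

The ray datum is `c := φD` modulo `𝔪 = (N^(n+1))`, `N = ∏ S`:
* `α ≡ 1 mod 𝔪` ⇒ `1 ⊗ α ≡ 1 mod q^n R_q` ⇒ `φJ (α) = 1` ⇒ `φD ((α)) = 1`;
* onto: an idèle is a principal idèle times an idèle `≡ 1` (weak approximation, `ic_approx`), the
  primes over `S` are killed by `φD` (`ic_strip`), and classes of ideals prime to `𝔪` have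
  inverses of the same kind (`ic_invert`);
then `secondInequalityStatement` (PT/G2/Final.lean).
-/
import Fermat.Agent.PT.G2.IdelicPlan
import Fermat.Agent.PT.G2.Final

set_option autoImplicit false

namespace Fermat.Agent.PT.G2

open NumberField TensorProduct IsDedekindDomain
open Fermat.Agent.PT.G1 Fermat.Agent.PT.G

section basic

variable (q : ℕ) [Fact q.Prime] (K : Type) [Field K] [NumberField K]

theorem ic_tmul_mem (z : ℤ_[q]) (x : 𝓞 K) : (z : ℚ_[q]) ⊗ₜ[ℚ] (x : K) ∈ semiInt q K :=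
  AddSubgroup.subset_closure ⟨z, x, rfl⟩

theorem ic_one_tmul_mem (x : 𝓞 K) : (1 : ℚ_[q]) ⊗ₜ[ℚ] (x : K) ∈ semiInt q K := by
  have := ic_tmul_mem q K 1 x
  simpa using this

/-- `1 ⊗ (m x) = m * (1 ⊗ x)` for a natural number `m`. -/
theorem ic_one_tmul_natCast_mul (m : ℕ) (x : K) :
    (1 : ℚ_[q]) ⊗ₜ[ℚ] ((m : K) * x) = (m : semiAlg q K) * ((1 : ℚ_[q]) ⊗ₜ[ℚ] x) := by
  have h1 : (m : semiAlg q K) = (m : ℚ_[q]) ⊗ₜ[ℚ] (1 : K) := by
    rw [← map_natCast (algebraMap ℚ_[q] (semiAlg q K)) m, Algebra.TensorProduct.algebraMap_apply]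
    rfl
  rw [h1, Algebra.TensorProduct.tmul_mul_tmul, one_mul, mul_one]
  have h2 : (m : K) * x = (m : ℚ) • x := by
    rw [Algebra.smul_def, map_natCast]
  have h3 : (m : ℚ_[q]) = (m : ℚ) • (1 : ℚ_[q]) := by
    rw [Algebra.smul_def, map_natCast, mul_one]
  rw [h2, h3, TensorProduct.smul_tmul]

variable {q K}

theorem SemiCong.refl' (n : ℕ) (a : semiAlg q K) : SemiCong q K n a a :=
  ⟨0, (semiInt q K).zero_mem, by simp⟩

theorem SemiCong.trans' {n : ℕ} {a b c : semiAlg q K} (h1 : SemiCong q K n a b)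
    (h2 : SemiCong q K n b c) : SemiCong q K n a c := by
  obtain ⟨r, hr, e1⟩ := h1
  obtain ⟨s, hs, e2⟩ := h2
  refine ⟨r + s, (semiInt q K).add_mem hr hs, ?_⟩
  rw [mul_add, ← e1, ← e2]
  ring

theorem SemiCong.symm' {n : ℕ} {a b : semiAlg q K} (h1 : SemiCong q K n a b) :
    SemiCong q K n b a := by
  obtain ⟨r, hr, e1⟩ := h1
  refine ⟨-r, (semiInt q K).neg_mem hr, ?_⟩
  rw [mul_neg, ← e1]
  ring

/-- `1 ⊗ (m^k x) ≡ 0 mod q^k` if `q ∣ m`. -/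
theorem ic_semiCong_of_dvd (m : ℕ) (hqm : q ∣ m) (k : ℕ) (x : 𝓞 K) :
    SemiCong q K k ((1 : ℚ_[q]) ⊗ₜ[ℚ] (((m : 𝓞 K) ^ k * x : 𝓞 K) : K)) 0 := by
  obtain ⟨m', rfl⟩ := hqm
  refine ⟨(1 : ℚ_[q]) ⊗ₜ[ℚ] ((((m' : 𝓞 K) ^ k * x : 𝓞 K)) : K), ic_one_tmul_mem q K _, ?_⟩
  rw [sub_zero]
  have h := ic_one_tmul_natCast_mul q K (q ^ k) ((((m' : 𝓞 K) ^ k * x : 𝓞 K)) : K)
  rw [Nat.cast_pow (α := semiAlg q K)] at h
  rw [← h]
  congr 1
  push_cast
  ring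

end basic

section principal

variable {K : Type} [Field K] [NumberField K] (S : Finset Nat.Primes)

/-- the modulus `(N^(n+1))`, `N = ∏ S`. -/
noncomputable def icMod (K : Type) [Field K] [NumberField K] (S : Finset Nat.Primes) (n : ℕ) :
    Ideal (𝓞 K) :=
  Ideal.span {((sProd S : ℕ) : 𝓞 K) ^ (n + 1)}

theorem ic_dvd_sProd (q : ↥S) : ((q : Nat.Primes) : ℕ) ∣ sProd S :=
  Finset.dvd_prod_of_mem (fun q : Nat.Primes => (q : ℕ)) q.2

/-- `α ≡ 1 mod (N^(n+1))` implies `1 ⊗ α ≡ 1 mod q^n R_q`. -/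
theorem ic_semiCong_of_mem (n : ℕ) (α : 𝓞 K) (hα : α - 1 ∈ icMod K S n) (q : ↥S) :
    SemiCong ((q : Nat.Primes) : ℕ) K n
      ((1 : ℚ_[((q : Nat.Primes) : ℕ)]) ⊗ₜ[ℚ] (α : K)) 1 := by
  obtain ⟨β, hβ⟩ := Ideal.mem_span_singleton'.mp hα
  have h1 := ic_semiCong_of_dvd (q := ((q : Nat.Primes) : ℕ)) (K := K) (sProd S)
    (ic_dvd_sProd S q) n (((sProd S : ℕ) : 𝓞 K) * β)
  have h2 : ((((sProd S : ℕ) : 𝓞 K) ^ n * (((sProd S : ℕ) : 𝓞 K) * β) : 𝓞 K) : K) =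
      (α : K) - 1 := by
    have : ((sProd S : ℕ) : 𝓞 K) ^ n * (((sProd S : ℕ) : 𝓞 K) * β) = α - 1 := by
      rw [← hβ]; ring
    rw [this]
    push_cast
    ring
  rw [h2] at h1
  obtain ⟨r, hr, e⟩ := h1
  refine ⟨r, hr, ?_⟩
  rw [← e, sub_zero, TensorProduct.tmul_sub]
  rfl


/-- a prime containing the modulus contains some `q ∈ S`. -/

theorem icMod_ne_bot (n : ℕ) : icMod K S n ≠ ⊥ := by
  rw [icMod, Ne, Ideal.span_singleton_eq_bot]
  exact pow_ne_zero _ (Nat.cast_ne_zero.mpr (sProd_ne_zero S))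

/-- a prime containing the modulus contains some `q ∈ S`. -/
theorem ic_exists_mem_of_le (n : ℕ) (P : Ideal (𝓞 K)) [P.IsPrime] (h : icMod K S n ≤ P) :
    ∃ q ∈ S, (((q : Nat.Primes) : ℕ) : 𝓞 K) ∈ P := by
  have h1 : ((sProd S : ℕ) : 𝓞 K) ^ (n + 1) ∈ P := h (Ideal.subset_span rfl)
  have h2 : ((sProd S : ℕ) : 𝓞 K) ∈ P := Ideal.IsPrime.mem_of_pow_mem inferInstance _ h1
  rw [sProd, Nat.cast_prod] at h2
  obtain ⟨q, hq, hqP⟩ := (Ideal.IsPrime.prod_mem_iff (p := P)).mp h2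
  exact ⟨q, hq, hqP⟩

/-- a prime containing some `q ∈ S` contains the modulus. -/
theorem ic_le_of_mem (n : ℕ) (P : Ideal (𝓞 K)) (q : Nat.Primes) (hq : q ∈ S)
    (h : (((q : Nat.Primes) : ℕ) : 𝓞 K) ∈ P) : icMod K S n ≤ P := by
  rw [icMod, Ideal.span_singleton_le_iff_mem]
  apply Ideal.pow_mem_of_mem _ _ _ (Nat.succ_pos n)
  rw [sProd, Nat.cast_prod, ← Finset.mul_prod_erase S _ hq]
  exact P.mul_mem_right _ h

/-- stripping the primes over `S`. -/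
theorem ic_strip {A : Type} [CommGroup A] (φD : Ideal (𝓞 K) → A) (n : ℕ)
    (hmul : ∀ I J : Ideal (𝓞 K), I ≠ ⊥ → J ≠ ⊥ → φD (I * J) = φD I * φD J)
    (hS : ∀ P : Ideal (𝓞 K), P.IsPrime → ∀ q ∈ S, (((q : Nat.Primes) : ℕ) : 𝓞 K) ∈ P → φD P = 1)
    (I : Ideal (𝓞 K)) (hI : I ≠ ⊥) :
    ∃ I₀ : Ideal (𝓞 K), I₀ ≠ ⊥ ∧ IsCoprime I₀ (icMod K S n) ∧ φD I₀ = φD I := by
  induction I using UniqueFactorizationMonoid.induction_on_prime with
  | h₁ => exact absurd rfl hI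
  | h₂ x hx =>
    have hx' : x = ⊤ := Ideal.isUnit_iff.mp hx
    subst hx'
    exact ⟨⊤, top_ne_bot, Ideal.isCoprime_iff_sup_eq.mpr (top_sup_eq _), rfl⟩
  | h₃ a P ha hP ih =>
    have ha' : a ≠ ⊥ := ha
    obtain ⟨I₀, hI₀, hco, hφ⟩ := ih ha'
    have hPprime : P.IsPrime := Ideal.isPrime_of_prime hP
    have hP0 : P ≠ ⊥ := hP.ne_zero
    by_cases hq : ∃ q ∈ S, (((q : Nat.Primes) : ℕ) : 𝓞 K) ∈ P
    · obtain ⟨q, hqS, hqP⟩ := hq
      refine ⟨I₀, hI₀, hco, ?_⟩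
      rw [hφ, hmul P a hP0 ha', hS P hPprime q hqS hqP, one_mul]
    · refine ⟨P * I₀, mul_ne_zero hP0 hI₀, IsCoprime.mul_left ?_ hco, ?_⟩
      · have hmax : P.IsMaximal := hPprime.isMaximal hP0
        rw [Ideal.isCoprime_iff_sup_eq]
        by_contra hne
        have h1 : P = P ⊔ icMod K S n := hmax.eq_of_le hne le_sup_left
        have h2 : icMod K S n ≤ P := by
          rw [h1]
          exact le_sup_right
        exact hq (ic_exists_mem_of_le S n P h2)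
      · rw [hmul P I₀ hP0 hI₀, hmul P a hP0 ha', hφ]


/-- inverting the class of an ideal prime to the modulus. -/
theorem ic_invert {A : Type} [CommGroup A] (φD : Ideal (𝓞 K) → A) (n : ℕ)
    (hmul : ∀ I J : Ideal (𝓞 K), I ≠ ⊥ → J ≠ ⊥ → φD (I * J) = φD I * φD J)
    (hP1 : ∀ α : 𝓞 K, α ≠ 0 → α - 1 ∈ icMod K S n → φD (Ideal.span {α}) = 1)
    (I : Ideal (𝓞 K)) (hI : I ≠ ⊥) (hco : IsCoprime I (icMod K S n)) :
    ∃ I₃ : Ideal (𝓞 K), I₃ ≠ ⊥ ∧ IsCoprime I₃ (icMod K S n) ∧ φD I * φD I₃ = 1 := by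
  obtain ⟨β, hβI, hβ0, hβ1⟩ : ∃ β ∈ I, β ≠ 0 ∧ β - 1 ∈ icMod K S n := by
    obtain ⟨i, hi, j, hj, hij⟩ := Ideal.isCoprime_iff_exists.mp hco
    by_cases hi0 : i = 0
    · have h1 : (1 : 𝓞 K) ∈ icMod K S n := by
        rw [← hij, hi0, zero_add]; exact hj
      have htop : icMod K S n = ⊤ := (Ideal.eq_top_iff_one _).mpr h1
      obtain ⟨β, hβ, hβ0⟩ := Submodule.exists_mem_ne_zero_of_ne_bot hI
      exact ⟨β, hβ, hβ0, by rw [htop]; trivial⟩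
    · refine ⟨i, hi, hi0, ?_⟩
      have : i - 1 = -j := by rw [← hij]; ring
      rw [this]
      exact (icMod K S n).neg_mem hj
  have hle : Ideal.span {β} ≤ I := (Ideal.span_singleton_le_iff_mem I).mpr hβI
  obtain ⟨I₃, hI₃⟩ := Ideal.dvd_iff_le.mpr hle
  have hspan0 : Ideal.span {β} ≠ (⊥ : Ideal (𝓞 K)) := by
    rw [Ne, Ideal.span_singleton_eq_bot]; exact hβ0
  have hI₃0 : I₃ ≠ ⊥ := by
    rintro rfl
    rw [Ideal.mul_bot] at hI₃
    exact hspan0 hI₃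
  have hcoβ : IsCoprime (Ideal.span {β}) (icMod K S n) := by
    rw [Ideal.isCoprime_iff_exists]
    refine ⟨β, Ideal.subset_span rfl, 1 - β, ?_, by ring⟩
    have : (1 : 𝓞 K) - β = -(β - 1) := by ring
    rw [this]
    exact (icMod K S n).neg_mem hβ1
  refine ⟨I₃, hI₃0, ?_, ?_⟩
  · rw [hI₃] at hcoβ
    exact hcoβ.of_mul_left_right
  · rw [← hmul I I₃ hI hI₃0, ← hI₃]
    exact hP1 β hβ0 hβ1

end principal

section approx

variable {K : Type} [Field K] [NumberField K] (S : Finset Nat.Primes)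

theorem ic_natCast_pow_mem (hR : StmtSemiInt) (q : ℕ) [Fact q.Prime] (k : ℕ) :
    (q : semiAlg q K) ^ k ∈ semiInt q K := by
  obtain ⟨h1, hmul, -⟩ := hR q K
  have hq : (q : semiAlg q K) ∈ semiInt q K := by
    have : (q : semiAlg q K) = q • (1 : semiAlg q K) := by simp
    rw [this]
    exact (semiInt q K).nsmul_mem h1 q
  induction k with
  | zero => simpa using h1
  | succ k ih => rw [pow_succ]; exact hmul _ ih _ hq

theorem SemiCong.mono' (hR : StmtSemiInt) {q : ℕ} [Fact q.Prime] {n m : ℕ} (h : n ≤ m)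
    {a b : semiAlg q K} (hab : SemiCong q K m a b) : SemiCong q K n a b := by
  obtain ⟨r, hr, e⟩ := hab
  obtain ⟨k, rfl⟩ := Nat.exists_eq_add_of_le h
  refine ⟨(q : semiAlg q K) ^ k * r, (hR q K).2.1 _ (ic_natCast_pow_mem hR q k) _ hr, ?_⟩
  rw [e, pow_add, mul_assoc]

/-- weak approximation for units: every idèle is a principal idèle times an idèle `≡ 1`. -/
theorem ic_approx (hW : StmtWeakApprox) (hR : StmtSemiInt) (j : JL S K) (n : ℕ) :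
    ∃ α : Kˣ, ∀ q : ↥S, SemiCong ((q : Nat.Primes) : ℕ) K n
      (((jlDiag S K α * j⁻¹ : JL S K) q : (semiAlg ((q : Nat.Primes) : ℕ) K)ˣ) :
        semiAlg ((q : Nat.Primes) : ℕ) K) 1 := by
  classical
  -- denominators of `j⁻¹`
  have hden : ∀ q : ↥S, ∃ m : ℕ, (((q : Nat.Primes) : ℕ) : semiAlg ((q : Nat.Primes) : ℕ) K) ^ m *
      (((j q)⁻¹ : (semiAlg ((q : Nat.Primes) : ℕ) K)ˣ) : semiAlg ((q : Nat.Primes) : ℕ) K) ∈
        semiInt ((q : Nat.Primes) : ℕ) K := fun q => (hR _ K).2.2 _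
  choose m hm using hden
  set M : ℕ := n + Finset.univ.sup m with hM
  obtain ⟨α₀, hα₀⟩ := hW K S (fun q => ((j q : (semiAlg ((q : Nat.Primes) : ℕ) K)ˣ) :
    semiAlg ((q : Nat.Primes) : ℕ) K)) M
  -- a nonzero approximation
  obtain ⟨α, hα0, hα⟩ : ∃ α : K, α ≠ 0 ∧ ∀ q : ↥S, SemiCong ((q : Nat.Primes) : ℕ) K M
      ((1 : ℚ_[((q : Nat.Primes) : ℕ)]) ⊗ₜ[ℚ] α)
      ((j q : (semiAlg ((q : Nat.Primes) : ℕ) K)ˣ) : semiAlg ((q : Nat.Primes) : ℕ) K) := by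
    by_cases h0 : α₀ = 0
    · refine ⟨(((sProd S : ℕ) : 𝓞 K) ^ M * 1 : 𝓞 K), ?_, fun q => ?_⟩
      · have : (((sProd S : ℕ) : 𝓞 K) ^ M * 1 : 𝓞 K) ≠ 0 :=
          mul_ne_zero (pow_ne_zero _ (Nat.cast_ne_zero.mpr (sProd_ne_zero S))) one_ne_zero
        exact_mod_cast this
      · have h1 := ic_semiCong_of_dvd (q := ((q : Nat.Primes) : ℕ)) (K := K) (sProd S)
          (ic_dvd_sProd S q) M (1 : 𝓞 K)
        have h2 := hα₀ q
        rw [h0, TensorProduct.tmul_zero] at h2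
        exact h1.trans' h2
    · exact ⟨α₀, h0, hα₀⟩
  refine ⟨Units.mk0 α hα0, fun q => ?_⟩
  obtain ⟨r, hr, e⟩ := hα q
  have hmq : m q ≤ Finset.univ.sup m := Finset.le_sup (Finset.mem_univ q)
  obtain ⟨k, hk⟩ := Nat.exists_eq_add_of_le hmq
  refine ⟨(((q : Nat.Primes) : ℕ) : semiAlg ((q : Nat.Primes) : ℕ) K) ^ k * r *
    ((((q : Nat.Primes) : ℕ) : semiAlg ((q : Nat.Primes) : ℕ) K) ^ m q *
      (((j q)⁻¹ : (semiAlg ((q : Nat.Primes) : ℕ) K)ˣ) : semiAlg ((q : Nat.Primes) : ℕ) K)),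
    (hR _ K).2.1 _ ((hR _ K).2.1 _ (ic_natCast_pow_mem hR _ k) _ hr) _ (hm q), ?_⟩
  have hval : (((jlDiag S K (Units.mk0 α hα0) * j⁻¹ : JL S K) q :
      (semiAlg ((q : Nat.Primes) : ℕ) K)ˣ) : semiAlg ((q : Nat.Primes) : ℕ) K) =
      ((1 : ℚ_[((q : Nat.Primes) : ℕ)]) ⊗ₜ[ℚ] α) *
        (((j q)⁻¹ : (semiAlg ((q : Nat.Primes) : ℕ) K)ˣ) : semiAlg ((q : Nat.Primes) : ℕ) K) := rfl
  have hinv : ((j q : (semiAlg ((q : Nat.Primes) : ℕ) K)ˣ) : semiAlg ((q : Nat.Primes) : ℕ) K) *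
      (((j q)⁻¹ : (semiAlg ((q : Nat.Primes) : ℕ) K)ˣ) : semiAlg ((q : Nat.Primes) : ℕ) K) = 1 :=
    Units.mul_inv _
  rw [hval]
  have e' : (1 : ℚ_[((q : Nat.Primes) : ℕ)]) ⊗ₜ[ℚ] α =
      ((j q : (semiAlg ((q : Nat.Primes) : ℕ) K)ˣ) : semiAlg ((q : Nat.Primes) : ℕ) K) +
        (((q : Nat.Primes) : ℕ) : semiAlg ((q : Nat.Primes) : ℕ) K) ^ M * r := by
    rw [← e]; ring
  rw [e', add_mul, hinv, hM, hk]
  ring

end approx

/-- **G2I-core**: the second inequality for an idèle-class quotient. -/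
theorem stmtIdelicCore_of (hW : StmtWeakApprox) (hR : StmtSemiInt) : StmtIdelicCore := by
  intro K L _ _ _ _ _ S A _ φJ φD n hmul hS hprin hcond hsplit hgen
  classical
  -- principal ideals `≡ 1`
  have hP1 : ∀ α : 𝓞 K, α ≠ 0 → α - 1 ∈ icMod K S n → φD (Ideal.span {α}) = 1 := by
    intro α hα hα1
    have hαK : (α : K) ≠ 0 := by exact_mod_cast hα
    have h1 := hprin α hαK
    have h2 : φJ (jlDiag S K (Units.mk0 (α : K) hαK)) = 1 := by
      apply hcond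
      intro q
      exact ic_semiCong_of_mem S n α hα1 q
    rwa [h2, one_mul] at h1
  -- the ray datum
  have hc : IsRayDatum K (icMod K S n) φD := by
    refine ⟨fun I J hI hJ _ _ => hmul I J hI hJ, hP1, fun a => ?_⟩
    obtain ⟨j, I, I', hI, hI', haI⟩ := hgen a
    -- Step 1: approximate `j` by a principal idèle
    obtain ⟨α, hα⟩ := ic_approx S hW hR j n
    have h1 : φJ (jlDiag S K α) = φJ j := by
      have := hcond _ hα
      rw [map_mul, map_inv, mul_inv_eq_one] at this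
      exact this
    -- Step 2: `α = β / γ`
    obtain ⟨β, γ, hγ, hαβγ⟩ : ∃ β γ : 𝓞 K, γ ≠ 0 ∧ (α : K) * (γ : K) = (β : K) := by
      obtain ⟨β, γ, hγ, h⟩ := IsFractionRing.div_surjective (A := 𝓞 K) (α : K)
      refine ⟨β, γ, nonZeroDivisors.ne_zero hγ, ?_⟩
      have hγK : algebraMap (𝓞 K) K γ ≠ 0 := fun h =>
        nonZeroDivisors.ne_zero hγ ((IsFractionRing.injective (𝓞 K) K) (h.trans (map_zero _).symm))
      rw [← h]
      exact div_mul_cancel₀ _ hγK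
    have hγK : (γ : K) ≠ 0 := by exact_mod_cast hγ
    have hβK : (β : K) ≠ 0 := by
      rw [← hαβγ]
      exact mul_ne_zero α.ne_zero hγK
    have hβ : β ≠ 0 := by
      rintro rfl
      exact hβK rfl
    have h2 : φJ (jlDiag S K α) * φJ (jlDiag S K (Units.mk0 (γ : K) hγK)) =
        φJ (jlDiag S K (Units.mk0 (β : K) hβK)) := by
      rw [← map_mul, ← map_mul]
      congr 2
      apply Units.ext
      exact hαβγ
    have h3 := hprin β hβK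
    have h4 := hprin γ hγK
    have hspanβ : Ideal.span {β} ≠ (⊥ : Ideal (𝓞 K)) := by
      rw [Ne, Ideal.span_singleton_eq_bot]; exact hβ
    have hspanγ : Ideal.span {γ} ≠ (⊥ : Ideal (𝓞 K)) := by
      rw [Ne, Ideal.span_singleton_eq_bot]; exact hγ
    -- `a * φD (I' * (β)) = φD ((γ) * I)`
    have h5 : a * φD (I' * Ideal.span {β}) = φD (Ideal.span {γ} * I) := by
      have e : φJ (jlDiag S K α) * φD (Ideal.span {β}) = φD (Ideal.span {γ}) := by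
        apply mul_right_cancel (b := φJ (jlDiag S K (Units.mk0 (γ : K) hγK)))
        rw [mul_right_comm, h2, h3, mul_comm, h4]
      rw [hmul _ _ hI' hspanβ, hmul _ _ hspanγ hI, ← mul_assoc, haI, ← h1, ← e, mul_right_comm]
    -- Step 3: strip the primes over `S`
    obtain ⟨I₁, hI₁, hco₁, hφ₁⟩ := ic_strip S φD n hmul hS (Ideal.span {γ} * I)
      (mul_ne_zero hspanγ hI)
    obtain ⟨I₂, hI₂, hco₂, hφ₂⟩ := ic_strip S φD n hmul hS (I' * Ideal.span {β})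
      (mul_ne_zero hI' hspanβ)
    -- Step 4: invert
    obtain ⟨I₃, hI₃, hco₃, hφ₃⟩ := ic_invert S φD n hmul hP1 I₂ hI₂ hco₂
    refine ⟨I₁ * I₃, mul_ne_zero hI₁ hI₃, hco₁.mul_left hco₃, ?_⟩
    rw [hmul _ _ hI₁ hI₃, hφ₁, ← h5, ← hφ₂, mul_assoc, hφ₃, mul_one]
  refine secondInequalityStatement K L (icMod K S n) (icMod_ne_bot S n) A φD hc ?_
  rintro v ⟨hv, w, hw1, hw2⟩
  refine hsplit v (fun q hq hmem => ?_) ⟨w, hw1, hw2⟩
  have hle := ic_le_of_mem S n v.asIdeal q hq hmem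
  have htop : v.asIdeal ⊔ icMod K S n = ⊤ := Ideal.isCoprime_iff_sup_eq.mp hv
  rw [sup_eq_left.mpr hle] at htop
  exact v.isPrime.ne_top htop

end Fermat.Agent.PT.G2
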