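/-
PT-G2 part 2, piece G2I-final (helper75): the idèle-class form of the second inequality,
`stmtIdelicSecond_of : StmtIdelicCore → StmtLocalPow → StmtSemiInt → StmtIdelicSecond`.

`A := C_S(F) / B`, `φJ j := [csOfJ j]`, `φD I := [csOfDiv (div_S I)]` (`divOfIdeal`); the conductor
exponent is the maximum of the exponents of `StmtLocalPow` for `q ∈ S`.
-/
import Fermat.Agent.PT.G2.IdelicCore

set_option autoImplicit false

namespace Fermat.Agent.PT.G2

open NumberField TensorProduct IsDedekindDomain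
open Fermat.Agent.PT.G1 Fermat.Agent.PT.G Fermat.Agent.PT.X
open scoped nonZeroDivisors

section divisors

variable (S : Finset Nat.Primes) (F : Type) [Field F] [NumberField F]

theorem if_count_finite_support (I : Ideal (𝓞 F)) :
    (Function.support fun P : OffS S F =>
      FractionalIdeal.count F P.1 (I : FractionalIdeal (𝓞 F)⁰ F)).Finite := by
  have h := FractionalIdeal.finite_factors (R := 𝓞 F) (K := F) (I : FractionalIdeal (𝓞 F)⁰ F)
  rw [Filter.eventually_cofinite] at h
  refine Set.Finite.of_injOn (f := Subtype.val) ?_ Subtype.val_injective.injOn h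
  intro P hP
  exact hP

/-- The divisor of an ideal of `𝓞 F`, away from `S` (`0` for the zero ideal). -/
noncomputable def divOfIdeal (I : Ideal (𝓞 F)) : DivS S F :=
  Finsupp.ofSupportFinite
    (fun P : OffS S F => FractionalIdeal.count F P.1 (I : FractionalIdeal (𝓞 F)⁰ F))
    (if_count_finite_support S F I)

@[simp] theorem divOfIdeal_apply (I : Ideal (𝓞 F)) (P : OffS S F) :
    divOfIdeal S F I P = FractionalIdeal.count F P.1 (I : FractionalIdeal (𝓞 F)⁰ F) := rfl

theorem divOfIdeal_mul {I J : Ideal (𝓞 F)} (hI : I ≠ ⊥) (hJ : J ≠ ⊥) :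
    divOfIdeal S F (I * J) = divOfIdeal S F I + divOfIdeal S F J := by
  ext P
  rw [Finsupp.add_apply, divOfIdeal_apply, divOfIdeal_apply, divOfIdeal_apply,
    FractionalIdeal.coeIdeal_mul,
    FractionalIdeal.count_mul F P.1 (FractionalIdeal.coeIdeal_ne_zero.mpr hI)
      (FractionalIdeal.coeIdeal_ne_zero.mpr hJ)]

theorem divOfIdeal_top : divOfIdeal S F ⊤ = 0 := by
  ext P
  rw [divOfIdeal_apply, FractionalIdeal.coeIdeal_top, FractionalIdeal.count_one]
  rfl

theorem divOfIdeal_span (α : 𝓞 F) (hα : (α : F) ≠ 0) :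
    divOfIdeal S F (Ideal.span {α}) = divFun S F (Units.mk0 (α : F) hα) := by
  ext P
  rw [divOfIdeal_apply, divFun_apply, ordAt, FractionalIdeal.coeIdeal_span_singleton]
  rfl

theorem divOfIdeal_prime (v : OffS S F) : divOfIdeal S F v.1.asIdeal = Finsupp.single v 1 := by
  classical
  ext P
  rw [divOfIdeal_apply, FractionalIdeal.count_maximal, Finsupp.single_apply]
  by_cases h : v = P
  · subst h
    simp
  · rw [if_neg (fun e => h (Subtype.ext e)), if_neg h]

theorem divOfIdeal_pow (v : OffS S F) (n : ℕ) :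
    divOfIdeal S F (v.1.asIdeal ^ n) = Finsupp.single v (n : ℤ) := by
  induction n with
  | zero =>
    rw [pow_zero, Ideal.one_eq_top, divOfIdeal_top]
    simp
  | succ n ih =>
    rw [pow_succ, divOfIdeal_mul S F (pow_ne_zero n v.1.ne_bot) v.1.ne_bot, ih, divOfIdeal_prime,
      ← Finsupp.single_add]
    push_cast
    rfl

theorem divOfIdeal_of_mem (P : Ideal (𝓞 F)) (hP : P.IsPrime) (q : Nat.Primes) (hq : q ∈ S)
    (hqP : (((q : Nat.Primes) : ℕ) : 𝓞 F) ∈ P) : divOfIdeal S F P = 0 := by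
  classical
  have hP0 : P ≠ ⊥ := by
    rintro rfl
    have h0 : (((q : Nat.Primes) : ℕ) : 𝓞 F) = 0 := hqP
    have := q.2.ne_zero
    exact this (by exact_mod_cast h0)
  ext Q
  set w : HeightOneSpectrum (𝓞 F) := ⟨P, hP, hP0⟩ with hw
  have : divOfIdeal S F P Q = FractionalIdeal.count F Q.1
      ((w.asIdeal : Ideal (𝓞 F)) : FractionalIdeal (𝓞 F)⁰ F) := rfl
  rw [this, FractionalIdeal.count_maximal, if_neg, Finsupp.zero_apply]
  intro e
  apply Q.2
  rw [← e]
  show ((sProd S : ℕ) : 𝓞 F) ∈ P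
  rw [sProd, Nat.cast_prod, ← Finset.mul_prod_erase S _ hq]
  exact P.mul_mem_right _ hqP

/-- every divisor is a difference of divisors of ideals. -/
theorem exists_divOfIdeal (D : DivS S F) :
    ∃ I I' : Ideal (𝓞 F), I ≠ ⊥ ∧ I' ≠ ⊥ ∧ D + divOfIdeal S F I' = divOfIdeal S F I := by
  induction D using Finsupp.induction_linear with
  | zero => exact ⟨⊤, ⊤, top_ne_bot, top_ne_bot, by rw [zero_add]⟩
  | add D₁ D₂ h₁ h₂ =>
    obtain ⟨I₁, I₁', hI₁, hI₁', e₁⟩ := h₁
    obtain ⟨I₂, I₂', hI₂, hI₂', e₂⟩ := h₂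
    refine ⟨I₁ * I₂, I₁' * I₂', mul_ne_zero hI₁ hI₂, mul_ne_zero hI₁' hI₂', ?_⟩
    rw [divOfIdeal_mul S F hI₁ hI₂, divOfIdeal_mul S F hI₁' hI₂', ← e₁, ← e₂]
    abel
  | single v k =>
    rcases le_total 0 k with hk | hk
    · refine ⟨v.1.asIdeal ^ k.toNat, ⊤, pow_ne_zero _ v.1.ne_bot, top_ne_bot, ?_⟩
      rw [divOfIdeal_top, add_zero, divOfIdeal_pow, Int.toNat_of_nonneg hk]
    · refine ⟨⊤, v.1.asIdeal ^ (-k).toNat, top_ne_bot, pow_ne_zero _ v.1.ne_bot, ?_⟩
      rw [divOfIdeal_top, divOfIdeal_pow, Int.toNat_of_nonneg (by omega), ← Finsupp.single_add]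
      simp

end divisors

section final

variable (S : Finset Nat.Primes) (F : Type) [Field F] [NumberField F]

theorem if_csOfJ_add_csOfDiv (x : Additive (JL S F)) (D : DivS S F) :
    csOfJ S F x + csOfDiv S F D = csMk S F (x, D) := by
  rw [csOfJ_apply, csOfDiv_apply, ← map_add]
  congr 1
  ext <;> simp

theorem if_csMk_iota (u : Fˣ) :
    csMk S F (Additive.ofMul (jlDiag S F u), divFun S F u) = 0 := by
  have h : ((Additive.ofMul (jlDiag S F u), divFun S F u) :
      Additive (JL S F) × DivS S F) = iotaHom S F (Additive.ofMul u) := rfl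
  rw [h]
  exact (Submodule.Quotient.mk_eq_zero _).mpr ⟨_, rfl⟩

end final

/-- **G2-idelic**: `[C_S(F) : B] ≤ [M : F]`. -/
theorem stmtIdelicSecond_of (hC : StmtIdelicCore) (hP : StmtLocalPow) (hR : StmtSemiInt) :
    StmtIdelicSecond := by
  intro F M _ _ _ _ _ S B d hd hBJ hBv
  classical
  -- the conductor exponent
  have hn : ∀ q : ↥S, ∃ n : ℕ, ∀ j : (semiAlg ((q : Nat.Primes) : ℕ) F)ˣ,
      SemiCong ((q : Nat.Primes) : ℕ) F n (j : semiAlg ((q : Nat.Primes) : ℕ) F) 1 →
        ∃ y : (semiAlg ((q : Nat.Primes) : ℕ) F)ˣ, y ^ d = j := fun q => hP d hd _ F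
  choose nq hnq using hn
  set n : ℕ := Finset.univ.sup nq with hndef
  -- the maps
  let φJ : JL S F →* Multiplicative (CS S F ⧸ B) :=
    { toFun := fun j => Multiplicative.ofAdd (B.mkQ (csOfJ S F (Additive.ofMul j)))
      map_one' := by
        show Multiplicative.ofAdd (B.mkQ (csOfJ S F 0)) = 1
        rw [map_zero, map_zero]; rfl
      map_mul' := fun j j' => by
        show Multiplicative.ofAdd (B.mkQ (csOfJ S F (Additive.ofMul j + Additive.ofMul j'))) = _
        rw [map_add, map_add]; rfl }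
  let φD : Ideal (𝓞 F) → Multiplicative (CS S F ⧸ B) :=
    fun I => Multiplicative.ofAdd (B.mkQ (csOfDiv S F (divOfIdeal S F I)))
  have key := hC F M S (Multiplicative (CS S F ⧸ B)) φJ φD n ?_ ?_ ?_ ?_ ?_ ?_
  · obtain ⟨hfin, hcard⟩ := key
    have := hfin
    have hfin' : Finite (CS S F ⧸ B) := Finite.of_equiv _ Multiplicative.toAdd
    refine ⟨hfin', ?_⟩
    rw [← Nat.card_congr (Multiplicative.toAdd (α := CS S F ⧸ B))]
    exact hcard
  · -- multiplicativity
    intro I J hI hJ
    show Multiplicative.ofAdd _ = Multiplicative.ofAdd _ * Multiplicative.ofAdd _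
    rw [divOfIdeal_mul S F hI hJ, map_add, map_add]
    rfl
  · -- primes over `S`
    intro P hPp q hq hqP
    show Multiplicative.ofAdd _ = 1
    rw [divOfIdeal_of_mem S F P hPp q hq hqP, map_zero, map_zero]
    rfl
  · -- principal idèles
    intro α hα
    show Multiplicative.ofAdd _ * Multiplicative.ofAdd _ = 1
    rw [← ofAdd_add, ← map_add, if_csOfJ_add_csOfDiv, divOfIdeal_span S F α hα, if_csMk_iota,
      map_zero]
    rfl
  · -- conductor
    intro j hj
    have h1 : ∀ q : ↥S, ∃ y : (semiAlg ((q : Nat.Primes) : ℕ) F)ˣ, y ^ d = j q := fun q =>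
      hnq q (j q) (SemiCong.mono' hR (Finset.le_sup (Finset.mem_univ q)) (hj q))
    choose y hy using h1
    have h2 : j = (fun q => y q) ^ d := by
      funext q
      exact (hy q).symm
    show Multiplicative.ofAdd (B.mkQ (csOfJ S F (Additive.ofMul j))) = 1
    have h3 : csOfJ S F (Additive.ofMul j) ∈ B := by
      have h4 : (Additive.ofMul j : Additive (JL S F)) =
          d • (Additive.ofMul (fun q => y q) : Additive (JL S F)) := by
        rw [h2]; rfl
      rw [h4, map_nsmul]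
      exact hBJ _
    have h5 : B.mkQ (csOfJ S F (Additive.ofMul j)) = 0 := (Submodule.Quotient.mk_eq_zero B).mpr h3
    exact congrArg Multiplicative.ofAdd h5
  · -- split primes
    intro v hv hw
    have hvS : ((sProd S : ℕ) : 𝓞 F) ∉ v.asIdeal := by
      intro h
      rw [sProd, Nat.cast_prod] at h
      obtain ⟨q, hq, hqv⟩ := (Ideal.IsPrime.prod_mem_iff (p := v.asIdeal)).mp h
      exact hv q hq hqv
    have h1 := hBv ⟨v, hvS⟩ hw
    show Multiplicative.ofAdd (B.mkQ (csOfDiv S F (divOfIdeal S F v.asIdeal))) = 1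
    have h2 : divOfIdeal S F v.asIdeal = Finsupp.single (⟨v, hvS⟩ : OffS S F) 1 :=
      divOfIdeal_prime S F ⟨v, hvS⟩
    have h3 : B.mkQ (csOfDiv S F (Finsupp.single (⟨v, hvS⟩ : OffS S F) 1)) = 0 :=
      (Submodule.Quotient.mk_eq_zero B).mpr h1
    rw [h2]
    exact congrArg Multiplicative.ofAdd h3
  · -- generation
    intro a
    obtain ⟨c, hc⟩ := B.mkQ_surjective (Multiplicative.toAdd a)
    obtain ⟨⟨x, D⟩, hxD⟩ := (LinearMap.range (iotaHom S F)).mkQ_surjective c
    obtain ⟨I, I', hI, hI', e⟩ := exists_divOfIdeal S F D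
    refine ⟨Additive.toMul x, I, I', hI, hI', ?_⟩
    show a * Multiplicative.ofAdd _ = Multiplicative.ofAdd _ * Multiplicative.ofAdd _
    have ha : a = Multiplicative.ofAdd (B.mkQ c) := by rw [hc]; rfl
    rw [ha, ← ofAdd_add, ← ofAdd_add, ← map_add, ← map_add]
    congr 2
    have hx : Additive.ofMul (Additive.toMul x) = x := rfl
    rw [hx, if_csOfJ_add_csOfDiv, ← e, ← hxD]
    show csMk S F (x, D) + csOfDiv S F (divOfIdeal S F I') = _
    rw [csOfDiv_apply, ← map_add]
    congr 1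
    ext <;> simp

end Fermat.Agent.PT.G2
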