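/-
PT-G2 piece G2I-P (helper26): local `d`-th powers in the tensor model (`stmtLocalPow`):
the elements of `(ℚ_q ⊗ K)ˣ` which are `≡ 1 mod q^n R_q`, `n = 2 v_q(d) + 1`, are `d`-th powers.

Route: `A = ℚ_q ⊗ K` is a reduced artinian ring, `A ≃ ∏_𝔪 A/𝔪` (`IsArtinianRing.equivPi`); in each
local field `A/𝔪` the root exists by PT-L (`l7_exists_root`, successive approximation).
-/
import Fermat.Agent.PT.G2.IdelicPlan
import Fermat.Agent.PT.G1.MaxSpecCount
import Fermat.Agent.PT.L.PowCardW
import Fermat.Agent.PT.L.Complete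
import Fermat.Agent.PT.L.Unif

set_option autoImplicit false
set_option linter.unusedSectionVars false
set_option linter.style.haveILetI false

namespace Fermat.Agent.PT.G2

open NumberField TensorProduct Polynomial
open Fermat.Agent.PT.G1 Fermat.Agent.PT.L

section Local

variable (q : ℕ) [Fact q.Prime] {K : Type} [Field K] [NumberField K]
  {F : Type} [Field F] [Algebra ℚ_[q] F] [FiniteDimensional ℚ_[q] F]
  (π : semiAlg q K →ₐ[ℚ_[q]] F)

/-- The image of `R_q` in a local field consists of integral elements. -/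
theorem lp_isInt_of_mem_semiInt {r : semiAlg q K} (hr : r ∈ semiInt q K) :
    l7Ge (wv q (F := F)) 0 (π r) := by
  show IsInt q (π r)
  rw [stmtWInt q F]
  induction hr using AddSubgroup.closure_induction with
  | mem x hx =>
    obtain ⟨z, y, rfl⟩ := hx
    have h1 : π ((z : ℚ_[q]) ⊗ₜ[ℚ] (y : K)) =
        algebraMap ℚ_[q] F (z : ℚ_[q]) * π ((1 : ℚ_[q]) ⊗ₜ[ℚ] (y : K)) := by
      rw [← Algebra.smul_def, ← map_smul, TensorProduct.smul_tmul', smul_eq_mul, mul_one]
    rw [h1]
    refine RingHom.IsIntegralElem.mul _ ?_ ?_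
    · exact RingHom.isIntegralElem_map (f := (algebraMap ℚ_[q] F).comp PadicInt.Coe.ringHom)
        (x := z)
    · have hy : IsIntegral ℤ (π ((1 : ℚ_[q]) ⊗ₜ[ℚ] (y : K))) :=
        map_isIntegral_int π (map_isIntegral_int
          (Algebra.TensorProduct.includeRight : K →ₐ[ℚ] semiAlg q K)
          (RingOfIntegers.isIntegral_coe y))
      obtain ⟨P, hP, hPx⟩ := hy
      refine ⟨P.map (Int.castRingHom ℤ_[q]), hP.map _, ?_⟩
      rw [eval₂_map]
      have : ((algebraMap ℚ_[q] F).comp (PadicInt.Coe.ringHom (p := q))).comp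
          (Int.castRingHom ℤ_[q]) = algebraMap ℤ F := RingHom.ext_int _ _
      rw [this]
      exact hPx
  | zero =>
    rw [map_zero]
    exact RingHom.isIntegralElem_zero _
  | add x y _ _ hx hy =>
    rw [map_add]
    exact RingHom.IsIntegralElem.add _ hx hy
  | neg x _ hx =>
    rw [map_neg]
    exact RingHom.IsIntegralElem.neg _ hx

/-- Root extraction in a local field quotient of `ℚ_q ⊗ K`. -/
theorem lp_exists_root_local {d : ℕ} (hd : 0 < d) {j : semiAlg q K}
    (hj : SemiCong q K (2 * padicValNat q d + 1) j 1) : ∃ y : F, y ^ d = π j := by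
  have hw : L7Val (wv q (F := F)) := l7_val q F stmtWAdd
  have hc : L7Complete (wv q (F := F)) := l7_complete q F stmtWComplete
  obtain ⟨r, hr, hjr⟩ := hj
  have hf : 0 < Module.finrank ℚ_[q] F := Module.finrank_pos
  set f : ℤ := (Module.finrank ℚ_[q] F : ℤ) with hfdef
  set v : ℤ := (padicValNat q d : ℤ) with hvdef
  have hf1 : 1 ≤ f := by rw [hfdef]; exact_mod_cast hf
  have hv0 : 0 ≤ v := by rw [hvdef]; exact_mod_cast Nat.zero_le _
  have hdF : ((d : ℕ) : F) ≠ 0 := l7_natCast_ne_zero q F d hd.ne'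
  have he : wv q ((d : ℕ) : F) = f * v := by
    have h : ((d : ℕ) : F) = algebraMap ℚ_[q] F (d : ℚ_[q]) := by simp
    rw [h, l7_wv_algebraMap, Padic.valuation_natCast]
  have hqF : l7Ge (wv q (F := F)) f ((q : ℕ) : F) := by
    right
    have h : ((q : ℕ) : F) = algebraMap ℚ_[q] F (q : ℚ_[q]) := by simp
    rw [h, l0b_wv_q]
  have hu : l7Ge (wv q (F := F)) ((f * v + 1) + f * v) (π j - 1) := by
    have h1 : π j - 1 = ((q : ℕ) : F) ^ (2 * padicValNat q d + 1) * π r := by
      rw [← map_one π, ← map_sub, hjr, map_mul, map_pow, map_natCast]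
    rw [h1]
    have h2 := hw.ge_mul (hw.ge_pow hqF (2 * padicValNat q d + 1))
      (lp_isInt_of_mem_semiInt q π hr)
    refine hw.ge_mono h2 ?_
    have h3 : ((2 * padicValNat q d + 1 : ℕ) : ℤ) = 2 * v + 1 := by
      rw [hvdef, Nat.cast_add, Nat.cast_mul, Nat.cast_ofNat, Nat.cast_one]
    rw [h3]
    nlinarith
  obtain ⟨y, -, hy⟩ := l7_exists_root hw hc hdF he (le_refl _) (by nlinarith) hu
  exact ⟨y, hy⟩

end Local

/-- **G2I-P**: local `d`-th powers. -/
theorem stmtLocalPow : StmtLocalPow := by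
  intro d hd q _ K _ _
  refine ⟨2 * padicValNat q d + 1, fun j hj => ?_⟩
  haveI : IsArtinianRing (semiAlg q K) := mc_isArtinianRing q
  haveI : IsReduced (semiAlg q K) := mc_isReduced q
  have hloc : ∀ 𝔪 : MaximalSpectrum (semiAlg q K),
      ∃ y : semiAlg q K ⧸ 𝔪.asIdeal, y ^ d = Ideal.Quotient.mk 𝔪.asIdeal (j : semiAlg q K) := by
    intro 𝔪
    letI := Ideal.Quotient.field 𝔪.asIdeal
    exact lp_exists_root_local q (Ideal.Quotient.mkₐ ℚ_[q] 𝔪.asIdeal) hd hj
  choose y hy using hloc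
  set Y : semiAlg q K := (IsArtinianRing.equivPi (semiAlg q K)).symm y with hY
  have hYd : Y ^ d = (j : semiAlg q K) := by
    apply (IsArtinianRing.equivPi (semiAlg q K)).injective
    rw [map_pow, hY, AlgEquiv.apply_symm_apply]
    funext 𝔪
    rw [Pi.pow_apply, hy 𝔪, IsArtinianRing.equivPi_apply]
  have hunit : IsUnit Y := by
    have h1 : IsUnit (Y ^ d) := by rw [hYd]; exact j.isUnit
    exact (isUnit_pow_iff hd.ne').mp h1
  refine ⟨hunit.unit, ?_⟩
  apply Units.ext
  rw [Units.val_pow_eq_pow_val, IsUnit.unit_spec, hYd]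

end Fermat.Agent.PT.G2
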