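/-
PT-G2 part 2, piece G2I-Q (helper60): weak approximation for `ℚ`.

Finitely many `q`-adic numbers `z_q` (`q ∈ S`) are simultaneously approximated by one rational
number `t`: `t - z_q ∈ q^n ℤ_q`.

Proof: `N = ∏ S`, `m` with `‖z_q‖ ≤ q^m` for all `q`; then `w_q = N^m z_q ∈ ℤ_q`; let
`a_q = appr w_q (n + m)`, `k ≡ a_q mod q^(n+m)` (Chinese remainder theorem) and `t = k / N^m`.
As `‖N‖_q = q⁻¹`, `‖t - z_q‖ = q^m ‖k - w_q‖ ≤ q^(-n)`.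
-/
import Fermat.Agent.PT.G2.IdelicPlan

set_option autoImplicit false

namespace Fermat.Agent.PT.G2

open Fermat.Agent.PT.G1 Fermat.Agent.PT.G

section g2iqLocal

variable {p : ℕ} [hp : Fact p.Prime]

/-- An element of `ℚ_p` of norm `≤ p^(-n)` is `p^n` times a `p`-adic integer. -/
lemma g2iq_exists_of_norm_le (x : ℚ_[p]) (n : ℕ) (h : ‖x‖ ≤ (p : ℝ) ^ (-(n : ℤ))) :
    ∃ u : ℤ_[p], x = (p : ℚ_[p]) ^ n * u := by
  have hp0 : (p : ℚ_[p]) ≠ 0 := by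
    exact_mod_cast hp.out.ne_zero
  have hpR : (0 : ℝ) < p := by exact_mod_cast hp.out.pos
  have hy : ‖x / (p : ℚ_[p]) ^ n‖ ≤ 1 := by
    rw [norm_div, Padic.norm_p_pow, div_le_one (zpow_pos hpR _)]
    exact h
  refine ⟨⟨x / (p : ℚ_[p]) ^ n, hy⟩, ?_⟩
  show x = (p : ℚ_[p]) ^ n * (x / (p : ℚ_[p]) ^ n)
  field_simp

/-- Every element of `ℚ_p` has norm at most some power of `p`. -/
lemma g2iq_exists_bound (x : ℚ_[p]) : ∃ m : ℕ, ‖x‖ ≤ (p : ℝ) ^ m := by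
  have h1 : (1 : ℝ) < p := by exact_mod_cast hp.out.one_lt
  obtain ⟨m, hm⟩ := pow_unbounded_of_one_lt ‖x‖ h1
  exact ⟨m, hm.le⟩

/-- The norm of a natural number `p * c` with `c` prime to `p`. -/
lemma g2iq_norm_mul_coprime (c : ℕ) (hc : p.Coprime c) :
    ‖((p * c : ℕ) : ℚ_[p])‖ = (p : ℝ)⁻¹ := by
  rw [Nat.cast_mul, norm_mul, Padic.norm_p, Padic.norm_natCast_eq_one_iff.2 hc, mul_one]

end g2iqLocal

/-- **G2I-Q** (weak approximation for `ℚ`). -/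
theorem stmtWeakApproxQ : StmtWeakApproxQ := by
  intro S z n
  choose mq hmq using fun q : ↥S => g2iq_exists_bound (z q)
  obtain ⟨m, hm⟩ : ∃ m : ℕ, m = ∑ q : ↥S, mq q := ⟨_, rfl⟩
  have hmle : ∀ q : ↥S, mq q ≤ m := by
    intro q
    rw [hm]
    exact Finset.single_le_sum (f := mq) (fun _ _ => Nat.zero_le _) (Finset.mem_univ q)
  obtain ⟨N, hN⟩ : ∃ N : ℕ, N = ∏ q : ↥S, ((q : Nat.Primes) : ℕ) := ⟨_, rfl⟩
  have hN0 : N ≠ 0 := by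
    rw [hN]
    exact Finset.prod_ne_zero_iff.2 fun q _ => (q : Nat.Primes).2.ne_zero
  -- the norm of `N` at `q`
  have hNnorm : ∀ q : ↥S, ‖(N : ℚ_[((q : Nat.Primes) : ℕ)])‖ =
      ((((q : Nat.Primes) : ℕ)) : ℝ)⁻¹ := by
    intro q
    have h1 : N = ((q : Nat.Primes) : ℕ) *
        ∏ q' ∈ (Finset.univ : Finset ↥S).erase q, ((q' : Nat.Primes) : ℕ) := by
      rw [hN, Finset.mul_prod_erase (Finset.univ : Finset ↥S)
        (fun q' : ↥S => ((q' : Nat.Primes) : ℕ)) (Finset.mem_univ q)]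
    have h2 : (((q : Nat.Primes) : ℕ)).Coprime
        (∏ q' ∈ (Finset.univ : Finset ↥S).erase q, ((q' : Nat.Primes) : ℕ)) := by
      apply Nat.Coprime.prod_right
      intro q' hq'
      rw [Nat.coprime_primes (q : Nat.Primes).2 (q' : Nat.Primes).2]
      intro h
      exact (Finset.ne_of_mem_erase hq') (Subtype.ext (Subtype.ext h)).symm
    rw [h1]
    exact g2iq_norm_mul_coprime _ h2
  have hqR : ∀ q : ↥S, (0 : ℝ) < (((q : Nat.Primes) : ℕ) : ℝ) := fun q => by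
    exact_mod_cast (q : Nat.Primes).2.pos
  have hq1 : ∀ q : ↥S, (1 : ℝ) ≤ (((q : Nat.Primes) : ℕ) : ℝ) := fun q => by
    exact_mod_cast (q : Nat.Primes).2.one_lt.le
  -- `w_q = N^m z_q` is integral
  have hw : ∀ q : ↥S, ‖(N : ℚ_[((q : Nat.Primes) : ℕ)]) ^ m * z q‖ ≤ 1 := by
    intro q
    rw [norm_mul, norm_pow, hNnorm, inv_pow]
    calc ((((q : Nat.Primes) : ℕ) : ℝ) ^ m)⁻¹ * ‖z q‖
        ≤ ((((q : Nat.Primes) : ℕ) : ℝ) ^ m)⁻¹ * (((q : Nat.Primes) : ℕ) : ℝ) ^ m := by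
          apply mul_le_mul_of_nonneg_left _ (inv_nonneg.2 (pow_nonneg (hqR q).le _))
          exact (hmq q).trans (pow_le_pow_right₀ (hq1 q) (hmle q))
      _ = 1 := inv_mul_cancel₀ (pow_ne_zero _ (hqR q).ne')
  obtain ⟨w, hwdef⟩ : ∃ w : ∀ q : ↥S, ℤ_[((q : Nat.Primes) : ℕ)],
      ∀ q : ↥S, ((w q : ℤ_[((q : Nat.Primes) : ℕ)]) : ℚ_[((q : Nat.Primes) : ℕ)]) =
        (N : ℚ_[((q : Nat.Primes) : ℕ)]) ^ m * z q :=
    ⟨fun q => ⟨_, hw q⟩, fun q => rfl⟩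
  -- Chinese remainder theorem
  obtain ⟨k, hk⟩ := Nat.chineseRemainderOfFinset (fun q : ↥S => (w q).appr (n + m))
    (fun q : ↥S => ((q : Nat.Primes) : ℕ) ^ (n + m)) (Finset.univ : Finset ↥S)
    (fun q _ => pow_ne_zero _ (q : Nat.Primes).2.ne_zero)
    (by
      intro q _ q' _ hne
      apply Nat.Coprime.pow
      rw [Nat.coprime_primes (q : Nat.Primes).2 (q' : Nat.Primes).2]
      intro h
      exact hne (Subtype.ext (Subtype.ext h)))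
  refine ⟨(k : ℚ) / (N : ℚ) ^ m, fun q => ?_⟩
  apply g2iq_exists_of_norm_le
  have hNq : (N : ℚ_[((q : Nat.Primes) : ℕ)]) ≠ 0 := by exact_mod_cast hN0
  -- `k - w_q` has norm `≤ q^(-(n+m))`
  have h1 : ‖(k : ℚ_[((q : Nat.Primes) : ℕ)]) - (((w q).appr (n + m) : ℕ) :
      ℚ_[((q : Nat.Primes) : ℕ)])‖ ≤ ((((q : Nat.Primes) : ℕ)) : ℝ) ^ (-((n + m : ℕ) : ℤ)) := by
    have hdvd : ((((q : Nat.Primes) : ℕ) ^ (n + m) : ℕ) : ℤ) ∣
        ((k : ℤ) - ((w q).appr (n + m) : ℤ)) :=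
      (Nat.modEq_iff_dvd.1 (hk q (Finset.mem_univ q)).symm)
    have := (Padic.norm_int_le_pow_iff_dvd (p := ((q : Nat.Primes) : ℕ))
      ((k : ℤ) - ((w q).appr (n + m) : ℤ)) (n + m)).2 (by exact_mod_cast hdvd)
    push_cast at this ⊢
    exact this
  have h2 : ‖(((w q).appr (n + m) : ℕ) : ℚ_[((q : Nat.Primes) : ℕ)]) -
      ((w q : ℤ_[((q : Nat.Primes) : ℕ)]) : ℚ_[((q : Nat.Primes) : ℕ)])‖ ≤
      ((((q : Nat.Primes) : ℕ)) : ℝ) ^ (-((n + m : ℕ) : ℤ)) := by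
    have := (PadicInt.norm_le_pow_iff_mem_span_pow _ _).2 (PadicInt.appr_spec (n + m) (w q))
    rw [← norm_neg, neg_sub]
    have e : ‖(w q - ((w q).appr (n + m) : ℤ_[((q : Nat.Primes) : ℕ)]))‖ =
        ‖((w q : ℤ_[((q : Nat.Primes) : ℕ)]) : ℚ_[((q : Nat.Primes) : ℕ)]) -
          (((w q).appr (n + m) : ℕ) : ℚ_[((q : Nat.Primes) : ℕ)])‖ := by
      rw [PadicInt.norm_def]
      push_cast
      rfl
    rw [← e]
    exact this
  have h3 : ‖(k : ℚ_[((q : Nat.Primes) : ℕ)]) -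
      (N : ℚ_[((q : Nat.Primes) : ℕ)]) ^ m * z q‖ ≤
      ((((q : Nat.Primes) : ℕ)) : ℝ) ^ (-((n + m : ℕ) : ℤ)) := by
    rw [← hwdef q]
    have := Padic.nonarchimedean
      ((k : ℚ_[((q : Nat.Primes) : ℕ)]) - (((w q).appr (n + m) : ℕ) :
        ℚ_[((q : Nat.Primes) : ℕ)]))
      ((((w q).appr (n + m) : ℕ) : ℚ_[((q : Nat.Primes) : ℕ)]) -
        ((w q : ℤ_[((q : Nat.Primes) : ℕ)]) : ℚ_[((q : Nat.Primes) : ℕ)]))
    rw [sub_add_sub_cancel] at this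
    exact this.trans (max_le h1 h2)
  have h4 : (((k : ℚ) / (N : ℚ) ^ m : ℚ) : ℚ_[((q : Nat.Primes) : ℕ)]) - z q =
      ((k : ℚ_[((q : Nat.Primes) : ℕ)]) - (N : ℚ_[((q : Nat.Primes) : ℕ)]) ^ m * z q) /
        (N : ℚ_[((q : Nat.Primes) : ℕ)]) ^ m := by
    push_cast
    field_simp
  rw [h4, norm_div, norm_pow, hNnorm, inv_pow, div_inv_eq_mul]
  calc ‖(k : ℚ_[((q : Nat.Primes) : ℕ)]) - (N : ℚ_[((q : Nat.Primes) : ℕ)]) ^ m * z q‖ *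
        (((q : Nat.Primes) : ℕ) : ℝ) ^ m
      ≤ ((((q : Nat.Primes) : ℕ)) : ℝ) ^ (-((n + m : ℕ) : ℤ)) *
        (((q : Nat.Primes) : ℕ) : ℝ) ^ m :=
        mul_le_mul_of_nonneg_right h3 (pow_nonneg (hqR q).le _)
    _ = ((((q : Nat.Primes) : ℕ)) : ℝ) ^ (-(n : ℤ)) := by
        rw [← zpow_natCast ((((q : Nat.Primes) : ℕ)) : ℝ) m, ← zpow_add₀ (hqR q).ne']
        congr 1
        push_cast
        ring

end Fermat.Agent.PT.G2
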