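/-
PT-G2 part 2, piece G2I-W (helper60): weak approximation in the tensor model.

`K` is dense in `∏_{q ∈ S} ℚ_q ⊗ K`: with an integral basis `b_i` of `K`, every `a_q` is
`∑ i, z_{q,i} ⊗ b_i`; approximate the `z_{q,i}` (`q ∈ S`) by one `t_i ∈ ℚ` (G2I-Q) and put
`α = ∑ i, t_i b_i`.
-/
import Fermat.Agent.PT.G2.WeakApproxQ

set_option autoImplicit false

namespace Fermat.Agent.PT.G2

open NumberField TensorProduct
open Fermat.Agent.PT.G1 Fermat.Agent.PT.G

section g2iwLocal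

variable (q : ℕ) [Fact q.Prime] (K : Type) [Field K] [NumberField K]

/-- Every element of `ℚ_q ⊗ K` is `∑ i, z_i ⊗ b_i` for the integral basis `b`. -/
lemma g2iw_exists_coord (a : semiAlg q K) :
    ∃ z : Module.Free.ChooseBasisIndex ℤ (𝓞 K) → ℚ_[q],
      a = ∑ i, (z i) ⊗ₜ[ℚ] (integralBasis K i) := by
  refine ⟨fun i => (Algebra.TensorProduct.basis ℚ_[q] (integralBasis K)).repr a i, ?_⟩
  conv_lhs => rw [← (Algebra.TensorProduct.basis ℚ_[q] (integralBasis K)).sum_repr a]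
  refine Finset.sum_congr rfl fun i _ => ?_
  rw [Algebra.TensorProduct.basis_repr_symm_apply']

/-- A pure tensor `u ⊗ b_i` with `u ∈ ℤ_q` is integral. -/
lemma g2iw_tmul_mem (u : ℤ_[q]) (i : Module.Free.ChooseBasisIndex ℤ (𝓞 K)) :
    (u : ℚ_[q]) ⊗ₜ[ℚ] (integralBasis K i) ∈ semiInt q K := by
  apply AddSubgroup.subset_closure
  exact ⟨u, RingOfIntegers.basis K i, by rw [integralBasis_apply]⟩

end g2iwLocal

/-- **G2I-W** (weak approximation in the tensor model), from G2I-Q. -/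
theorem stmtWeakApprox_of (hQ : StmtWeakApproxQ) : StmtWeakApprox := by
  intro K _ _ S a n
  choose z hz using fun q : ↥S => g2iw_exists_coord ((q : Nat.Primes) : ℕ) K (a q)
  choose t ht using fun i : Module.Free.ChooseBasisIndex ℤ (𝓞 K) =>
    hQ S (fun q => z q i) n
  choose u hu using ht
  refine ⟨∑ i, t i • integralBasis K i, fun q => ?_⟩
  refine ⟨∑ i, ((u i q : ℤ_[((q : Nat.Primes) : ℕ)]) : ℚ_[((q : Nat.Primes) : ℕ)]) ⊗ₜ[ℚ]
    (integralBasis K i), AddSubgroup.sum_mem _ fun i _ => g2iw_tmul_mem _ K _ i, ?_⟩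
  rw [hz q, TensorProduct.tmul_sum, ← Finset.sum_sub_distrib, Finset.mul_sum]
  refine Finset.sum_congr rfl fun i _ => ?_
  rw [← TensorProduct.smul_tmul, ← TensorProduct.sub_tmul]
  have h1 : (t i • (1 : ℚ_[((q : Nat.Primes) : ℕ)])) - z q i =
      (((q : Nat.Primes) : ℕ) : ℚ_[((q : Nat.Primes) : ℕ)]) ^ n * (u i q) := by
    rw [← hu i q, Algebra.smul_def, mul_one]
    rfl
  rw [h1, Algebra.TensorProduct.natCast_def, Algebra.TensorProduct.tmul_pow, one_pow,
    Algebra.TensorProduct.tmul_mul_tmul, one_mul]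

/-- **G2I-W** (weak approximation in the tensor model), unconditional. -/
theorem stmtWeakApprox : StmtWeakApprox := stmtWeakApprox_of stmtWeakApproxQ

end Fermat.Agent.PT.G2
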