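/-
PT-G2 part 2 (G2-idelic), UNCONDITIONAL: `stmtIdelicSecond : StmtIdelicSecond`, the idèle-class
form of the second inequality `[C_S(F) : B] ≤ [M : F]` in the tensor model.
-/
import Fermat.Agent.PT.G2.IdelicSecond
import Fermat.Agent.PT.G2.SemiInt
import Fermat.Agent.PT.G2.LocalPow
import Fermat.Agent.PT.G2.WeakApprox

set_option autoImplicit false

namespace Fermat.Agent.PT.G2

/-- the second inequality for an idèle-class quotient. -/
theorem stmtIdelicCore : StmtIdelicCore := stmtIdelicCore_of stmtWeakApprox stmtSemiInt

/-- **G2-idelic**: `[C_S(F) : B] ≤ [M : F]` for every subgroup `B` of `C_S(F)` containing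
`d • (image of J_F)` and the classes of the primes not over `S` with a prime of degree one of `M`
above. -/
theorem stmtIdelicSecond : StmtIdelicSecond :=
  stmtIdelicSecond_of stmtIdelicCore stmtLocalPow stmtSemiInt

end Fermat.Agent.PT.G2
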