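/-
PT-G2, piece M (helper88): assembly of the second inequality of class field theory (ideal-theoretic
form) from the four pieces `RayFiniteStatement`, `RayLBoundedStatement`, `RayEulerStatement`,
`SplitDensityStatement` of `Plan.lean`, together with `ζ_K(s) ≤ C / (s - 1)` (S14).

* `g2m_card_le_of_bounds` : the elementary real-analysis core.
* `g2m_norm_rayL_one_le` : `‖L(s, 1)‖ ≤ ζ_K(s)`.
* `secondInequality_of_pieces`.
-/
import Fermat.Agent.PT.G2.Plan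
import Fermat.Agent.S14.GoodPrimeFinal

set_option autoImplicit false

open NumberField IsDedekindDomain
open scoped nonZeroDivisors

namespace Fermat.Agent.PT.G2

/-- The elementary analytic core of the second inequality: if for every `s ∈ (1, 2]` there is
`P ≥ 0` with `c₁ / (s - 1) ≤ P ^ n` and `P ^ h ≤ C' / (s - 1)`, then `h ≤ n`. -/
theorem g2m_card_le_of_bounds (h n : ℕ) (c₁ C' : ℝ) (hc₁ : 0 < c₁) (hC' : 0 < C')
    (H : ∀ s : ℝ, 1 < s → s ≤ 2 →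
      ∃ P : ℝ, 0 ≤ P ∧ c₁ / (s - 1) ≤ P ^ n ∧ P ^ h ≤ C' / (s - 1)) :
    h ≤ n := by
  by_contra hlt
  rw [not_le] at hlt
  set t : ℝ := min 1 (c₁ ^ h / (2 * C' ^ n)) with ht
  have ht0 : 0 < t := lt_min one_pos (by positivity)
  have ht1 : t ≤ 1 := min_le_left _ _
  have ht2 : t ≤ c₁ ^ h / (2 * C' ^ n) := min_le_right _ _
  obtain ⟨P, hP0, hP1, hP2⟩ := H (1 + t) (by linarith) (by linarith)
  rw [add_sub_cancel_left] at hP1 hP2
  have e1 : (c₁ / t) ^ h ≤ (P ^ n) ^ h := pow_le_pow_left₀ (by positivity) hP1 h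
  have e2 : (P ^ h) ^ n ≤ (C' / t) ^ n := pow_le_pow_left₀ (by positivity) hP2 n
  have e3 : (P ^ n) ^ h = (P ^ h) ^ n := by rw [← pow_mul, ← pow_mul, mul_comm]
  have e4 : (c₁ / t) ^ h ≤ (C' / t) ^ n := by
    rw [e3] at e1
    exact e1.trans e2
  rw [div_pow, div_pow, div_le_div_iff₀ (by positivity) (by positivity)] at e4
  have e5 : t ^ h ≤ t ^ (n + 1) := pow_le_pow_of_le_one ht0.le ht1 hlt
  have htn : 0 < t ^ n := by positivity
  have e6 : c₁ ^ h * t ^ n ≤ (C' ^ n * t) * t ^ n := by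
    calc c₁ ^ h * t ^ n ≤ C' ^ n * t ^ h := e4
      _ ≤ C' ^ n * t ^ (n + 1) := by gcongr
      _ = (C' ^ n * t) * t ^ n := by rw [pow_succ]; ring
  have e7 : c₁ ^ h ≤ C' ^ n * t := le_of_mul_le_mul_right e6 htn
  have e8 : C' ^ n * t ≤ c₁ ^ h / 2 := by
    calc C' ^ n * t ≤ C' ^ n * (c₁ ^ h / (2 * C' ^ n)) := by gcongr
      _ = c₁ ^ h / 2 := by field_simp
  have e9 : 0 < c₁ ^ h := by positivity
  linarith

/-- The `L`-series of the trivial character is bounded by the zeta function. -/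
theorem g2m_norm_rayL_one_le {K : Type} [Field K] [NumberField K] (𝔪 : Ideal (𝓞 K))
    {A : Type} [CommGroup A] (c : Ideal (𝓞 K) → A) {s : ℝ} (hs : 1 < s) :
    ‖rayL 𝔪 c (1 : A →* ℂˣ) s‖ ≤
      ∑' I : nonZeroDivisors (Ideal (𝓞 K)), (Ideal.absNorm (I : Ideal (𝓞 K)) : ℝ) ^ (-s) := by
  refine tsum_of_norm_bounded (Fermat.Agent.S14.summable_absNorm_rpow K hs).hasSum (fun I => ?_)
  have hnn : (0 : ℝ) ≤ (Ideal.absNorm (I : Ideal (𝓞 K)) : ℝ) ^ (-s) :=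
    Real.rpow_nonneg (Nat.cast_nonneg _) _
  rw [rayTerm]
  by_cases hI : I ∈ coprimeTo 𝔪
  · rw [Set.indicator_of_mem hI]
    simp only [MonoidHom.one_apply, Units.val_one, one_mul, Complex.norm_real, Real.norm_eq_abs,
      abs_of_nonneg hnn, le_refl]
  · rw [Set.indicator_of_notMem hI, norm_zero]
    exact hnn

/-- **PT-G2, piece M**: the second inequality from the four analytic/algebraic pieces. -/
theorem secondInequality_of_pieces (hF : RayFiniteStatement) (hL : RayLBoundedStatement)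
    (hE : RayEulerStatement) (hD : SplitDensityStatement) : SecondInequalityStatement := by
  intro K L _ _ _ _ _ 𝔪 h𝔪 A _ c hc hsplit
  have : Finite A := hF K 𝔪 h𝔪 A c hc
  refine ⟨inferInstance, ?_⟩
  obtain ⟨C₀, hC₀, hζ⟩ := Fermat.Agent.S14.exists_zeta_le K
  obtain ⟨CE, hCE, hEul⟩ := hE K 𝔪 h𝔪 A c hc
  obtain ⟨c₁, hc₁, hDen⟩ := hD K L 𝔪 h𝔪
  have hLb : ∀ χ : A →* ℂˣ, ∃ C : ℝ, 0 ≤ C ∧
      (χ ≠ 1 → ∀ s : ℝ, 1 < s → s ≤ 2 → ‖rayL 𝔪 c χ s‖ ≤ C) := by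
    intro χ
    by_cases hχ : χ = 1
    · exact ⟨0, le_rfl, fun h => absurd hχ h⟩
    · obtain ⟨C, hC⟩ := hL K 𝔪 h𝔪 A c hc χ hχ
      exact ⟨max C 0, le_max_right _ _,
        fun _ s hs hs2 => (hC s hs hs2).trans (le_max_left _ _)⟩
  choose Cχ hCχ0 hCχ using hLb
  have : Fintype (A →* ℂˣ) := Fintype.ofFinite (A →* ℂˣ)
  classical
  set B : ℝ := ∏ χ ∈ (Finset.univ.erase (1 : A →* ℂˣ)), Cχ χ with hB
  have hB0 : 0 ≤ B := Finset.prod_nonneg (fun χ _ => hCχ0 χ)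
  apply g2m_card_le_of_bounds (Nat.card A) (Module.finrank K L) c₁ (CE * (C₀ * B) + 1) hc₁
    (by positivity)
  intro s hs hs2
  have hs1 : 0 < s - 1 := by linarith
  obtain ⟨T, hT, hTle⟩ := hDen s hs hs2
  refine ⟨∏ v ∈ T, (1 - (Ideal.absNorm v.asIdeal : ℝ) ^ (-s))⁻¹, ?_, hTle, ?_⟩
  · refine Finset.prod_nonneg (fun v _ => ?_)
    rw [inv_nonneg, sub_nonneg]
    exact (Fermat.Agent.S14.absNorm_rpow_lt_one K v (by linarith)).le
  · have h1 := hEul s hs hs2 T (fun v hv => ⟨(hT v hv).1, hsplit v (hT v hv)⟩)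
    refine h1.trans ?_
    rw [finprod_eq_prod_of_fintype]
    have hprod : ∏ χ : A →* ℂˣ, ‖rayL 𝔪 c χ s‖ ≤ (C₀ / (s - 1)) * B := by
      rw [← Finset.mul_prod_erase Finset.univ _ (Finset.mem_univ (1 : A →* ℂˣ))]
      refine mul_le_mul ((g2m_norm_rayL_one_le 𝔪 c hs).trans (hζ s hs hs2))
        (Finset.prod_le_prod (fun _ _ => norm_nonneg _)
          (fun χ hχ => hCχ χ (Finset.ne_of_mem_erase hχ) s hs hs2))
        (Finset.prod_nonneg (fun _ _ => norm_nonneg _)) (by positivity)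
    calc CE * ∏ χ : A →* ℂˣ, ‖rayL 𝔪 c χ s‖ ≤ CE * ((C₀ / (s - 1)) * B) := by gcongr
      _ = (CE * (C₀ * B)) / (s - 1) := by ring
      _ ≤ (CE * (C₀ * B) + 1) / (s - 1) := by gcongr; linarith

end Fermat.Agent.PT.G2
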